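import Fermat.Agent.GR.Lifting.EigenformLift
import Fermat.Agent.MC.IntStructure

/-!
# The eigencharacter of a normalised eigenform

`eigenChar` sends `t` to `a₁(t g)` and takes `T ℓ` to the `ℓ`-th coefficient; `eigenCharInt` is
its version with algebraic integer values.
-/

set_option autoImplicit false

noncomputable section

open CongruenceSubgroup ModularFormClass

namespace Fermat.GR

open Lifting

variable {N : ℕ} [NeZero N] {g : CuspForm (Gamma0 N) 2}

omit [NeZero N] in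
/-- The Hecke recursion for the coefficients of a normalised eigenform. -/
theorem eigen_coeff_rec (hg : g.IsNormalizedEigenform) {ℓ : ℕ} (hℓ : ℓ.Prime) (n : ℕ) :
    qCoeff g (ℓ * n) + (if ℓ ∣ N then 0 else (ℓ : ℂ)) *
        (if ℓ ∣ n then qCoeff g (n / ℓ) else 0) =
      qCoeff g ℓ * qCoeff g n := by
  rcases eq_or_ne n 0 with rfl | hn
  · simp [qCoeff_zero]
  obtain ⟨r, m, hm, rfl⟩ := Nat.exists_eq_pow_mul_and_not_dvd hn ℓ hℓ.one_lt.ne'
  have hco : ∀ j, (ℓ ^ j).Coprime m := fun j => (hℓ.coprime_iff_not_dvd.mpr hm).pow_left j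
  rw [← mul_assoc, ← pow_succ', hg.qCoeff_mul_of_coprime _ _ (hco _),
    hg.qCoeff_mul_of_coprime _ _ (hco _)]
  cases r with
  | zero =>
    rw [if_neg (show ¬ ℓ ∣ ℓ ^ 0 * m by simpa using hm), mul_zero, add_zero, pow_zero,
      hg.qCoeff_one, zero_add, pow_one]
    ring
  | succ r =>
    rw [if_pos (dvd_mul_of_dvd_left (dvd_pow_self ℓ (by omega)) m),
      show ℓ ^ (r + 1) * m / ℓ = ℓ ^ r * m by
        rw [pow_succ', mul_assoc, Nat.mul_div_cancel_left _ hℓ.pos],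
      hg.qCoeff_mul_of_coprime _ _ (hco _)]
    by_cases hℓN : ℓ ∣ N
    · rw [hg.qCoeff_prime_pow_of_dvd ℓ r hℓ hℓN, if_pos hℓN]
      ring
    · rw [hg.qCoeff_prime_pow_of_not_dvd ℓ r hℓ hℓN, if_neg hℓN]
      ring

/-- An eigenform is an eigenvector of every element of the Hecke algebra, with value the first
coefficient of its image. -/
theorem heckeAlgebra_apply_eigen (hg : g.IsNormalizedEigenform)
    (t : CuspForm.heckeAlgebra N 2 (∅ : Set ℕ)) : t.1 g = qCoeff (t.1 g) 1 • g := by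
  have hprim : ∀ (ℓ : ℕ) (_ : ℓ.Prime) (f : CuspForm (Gamma0 N) 2),
      (∀ n, qCoeff f n = qCoeff g (ℓ * n) + (if ℓ ∣ N then 0 else (ℓ : ℂ)) *
        (if ℓ ∣ n then qCoeff g (n / ℓ) else 0)) → f = qCoeff g ℓ • g := fun ℓ hℓ f hf =>
    MC.eq_of_qCoeff fun n => by
      rw [hf, eigen_coeff_rec hg hℓ n]
      exact (map_smul (coeffLin N n) (qCoeff g ℓ) g).symm
  suffices h : ∃ c : ℂ, t.1 g = c • g by
    obtain ⟨c, hc⟩ := h
    have h1 : qCoeff (⇑(c • g)) 1 = c * qCoeff g 1 := map_smul (coeffLin N 1) c g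
    rw [hc, h1, hg.qCoeff_one, mul_one]
  obtain ⟨t, ht⟩ := t
  unfold CuspForm.heckeAlgebra at ht
  induction ht using Algebra.adjoin_induction with
  | mem x hx =>
    rcases hx with ⟨ℓ, hℓ, hℓN, -, rfl⟩ | ⟨q, hqN, hq, -, rfl⟩
    · exact ⟨_, hprim ℓ hℓ _ fun n => by rw [coeff_T hℓ hℓN, if_neg hℓN]⟩
    · exact ⟨_, hprim q hq _ fun n => by rw [coeff_U hq hqN, if_pos hqN, zero_mul, add_zero]⟩
  | algebraMap n => exact ⟨n, by simp [Int.cast_smul_eq_zsmul]⟩
  | add x y _ _ hx hy =>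
    obtain ⟨a, ha⟩ := hx
    obtain ⟨b, hb⟩ := hy
    exact ⟨a + b, by rw [LinearMap.add_apply, ha, hb, add_smul]⟩
  | mul x y _ _ hx hy =>
    obtain ⟨a, ha⟩ := hx
    obtain ⟨b, hb⟩ := hy
    exact ⟨b * a, by rw [Module.End.mul_apply, hb, map_smul, ha, smul_smul]⟩

/-- The eigencharacter `t ↦ a₁(t g)`. -/
def eigenChar (hg : g.IsNormalizedEigenform) : CuspForm.heckeAlgebra N 2 (∅ : Set ℕ) →+* ℂ where
  toFun t := qCoeff (t.1 g) 1
  map_one' := hg.qCoeff_one
  map_mul' s t := by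
    change qCoeff (s.1 (t.1 g)) 1 = _
    conv_lhs => rw [heckeAlgebra_apply_eigen hg t, map_smul, heckeAlgebra_apply_eigen hg s,
      smul_smul]
    exact (map_smul (coeffLin N 1) _ g).trans
      (by rw [coeffLin_apply, hg.qCoeff_one, smul_eq_mul]; ring)
  map_zero' := map_zero (coeffLin N 1)
  map_add' s t := map_add (coeffLin N 1) (s.1 g) (t.1 g)

/-- The eigencharacter with values in the algebraic integers. -/
def eigenCharInt (hg : g.IsNormalizedEigenform) :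
    CuspForm.heckeAlgebra N 2 (∅ : Set ℕ) →+* integralClosure ℤ ℂ :=
  (eigenChar hg).codRestrict (integralClosure ℤ ℂ).toSubring fun t =>
    haveI := Fermat.MC.moduleFinite_heckeAlgebra N 2 (∅ : Set ℕ)
    (Algebra.IsIntegral.isIntegral (R := ℤ) t).map (eigenChar hg).toIntAlgHom

/-- The eigencharacter takes `T ℓ` to the `ℓ`-th coefficient. -/
theorem coe_eigenCharInt_T (hg : g.IsNormalizedEigenform) {ℓ : ℕ} (hℓ : ℓ.Prime) (hℓN : ¬ ℓ ∣ N) :
    (eigenCharInt hg (CuspForm.heckeAlgebra.T hℓ hℓN (Set.notMem_empty ℓ)) : ℂ) = qCoeff g ℓ := by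
  change qCoeff (CuspForm.heckeTLin 2 hℓ hℓN g) 1 = _
  rw [coeff_T hℓ hℓN, mul_one, if_neg (fun h => hℓ.one_lt.ne' (Nat.dvd_one.mp h)), mul_zero,
    add_zero]

end Fermat.GR
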