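import Mathlib

/-!
# The `p`-adic completion `ℤ_p ⊗ R` of a finite free `ℤ`-algebra, and maps out of `ℤ_p`

`PComp` is torsion-free and `p`-adically separated, compatible sequences converge in it, and
`pCompLift` extends a ring map from `R`.
-/

set_option autoImplicit false

noncomputable section

open scoped TensorProduct

namespace Fermat.GR

section PadicTo

variable {p : ℕ} [Fact p.Prime] (O : Type*) [CommRing O] [IsLocalRing O]
  (hp : (p : O) ∈ IsLocalRing.maximalIdeal O)

/-- The map `ℤ/p^n → O/m^n`. -/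
def zmodToQuot (n : ℕ) : ZMod (p ^ n) →+* O ⧸ IsLocalRing.maximalIdeal O ^ n :=
  RingHom.liftOfSurjective (Int.castRingHom (ZMod (p ^ n))) (ZMod.ringHom_surjective _)
    ⟨Int.castRingHom _, fun x hx => by
      rw [RingHom.mem_ker, eq_intCast, ZMod.intCast_zmod_eq_zero_iff_dvd] at hx
      obtain ⟨y, rfl⟩ := hx
      rw [RingHom.mem_ker, eq_intCast]
      push_cast
      have : ((p : O ⧸ IsLocalRing.maximalIdeal O ^ n)) ^ n = 0 := by
        rw [← map_natCast (Ideal.Quotient.mk (IsLocalRing.maximalIdeal O ^ n)), ← map_pow,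
          Ideal.Quotient.eq_zero_iff_mem]
        exact Ideal.pow_mem_pow hp n
      rw [this, zero_mul]⟩

/-- The levels of the canonical map `ℤ_p → O`. -/
def padicToQuot (n : ℕ) : ℤ_[p] →+* O ⧸ IsLocalRing.maximalIdeal O ^ n :=
  (zmodToQuot O hp n).comp (PadicInt.toZModPow n)

variable [IsAdicComplete (IsLocalRing.maximalIdeal O) O]

/-- The canonical map `ℤ_p → O` for a complete local ring with residue characteristic `p`. -/
def padicToAdic : ℤ_[p] →+* O :=
  IsAdicComplete.liftRingHom (IsLocalRing.maximalIdeal O) (padicToQuot O hp)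
    (fun {m n} hle => by
      rw [padicToQuot, padicToQuot, ← PadicInt.zmod_cast_comp_toZModPow m n hle,
        ← RingHom.comp_assoc, ← RingHom.comp_assoc]
      congr 1
      exact Subsingleton.elim _ _)

/-- The map `ℤ_p → O` takes multiples of `p ^ n` into the `n`-th power of the maximal ideal. -/
theorem padicToAdic_mem {n : ℕ} {x : ℤ_[p]} (h : (p : ℤ_[p]) ^ n ∣ x) :
    padicToAdic O hp x ∈ IsLocalRing.maximalIdeal O ^ n := by
  obtain ⟨y, rfl⟩ := h
  rw [map_mul, map_pow, map_natCast]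
  exact Ideal.mul_mem_right _ _ (Ideal.pow_mem_pow hp n)

/-- The map `ℤ_p → O` is injective in characteristic zero. -/
theorem padicToAdic_injective [IsDomain O] [CharZero O] :
    Function.Injective (padicToAdic O hp) := by
  rw [injective_iff_map_eq_zero]
  intro x hx
  by_contra hx0
  have hu : x = (PadicInt.unitCoeff hx0 : ℤ_[p]) * (p : ℤ_[p]) ^ x.valuation :=
    PadicInt.unitCoeff_spec hx0
  rw [hu, map_mul, map_pow, map_natCast, mul_eq_zero] at hx
  rcases hx with hx | hx
  · exact ((PadicInt.unitCoeff hx0).isUnit.map (padicToAdic O hp)).ne_zero hx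
  · exact pow_ne_zero _ (Nat.cast_ne_zero.mpr (Fact.out : p.Prime).ne_zero) hx

end PadicTo

section PComp

variable (p : ℕ) [Fact p.Prime] (R : Type) [CommRing R]

/-- `ℤ_p ⊗ R`. -/
def PComp : Type := ℤ_[p] ⊗[ℤ] R

/-- The ring structure of `ℤ_p ⊗ R`. -/
instance : CommRing (PComp p R) := inferInstanceAs (CommRing (ℤ_[p] ⊗[ℤ] R))

/-- `ℤ_p ⊗ R` as a `ℤ_p`-algebra. -/
instance : Algebra ℤ_[p] (PComp p R) := inferInstanceAs (Algebra ℤ_[p] (ℤ_[p] ⊗[ℤ] R))

/-- The map `R → ℤ_p ⊗ R`. -/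
def toPComp : R →+* PComp p R :=
  (Algebra.TensorProduct.includeRight : R →ₐ[ℤ] ℤ_[p] ⊗[ℤ] R).toRingHom

variable {p R}

variable [Module.Free ℤ R] [Module.Finite ℤ R]

variable (p R) in
/-- A `ℤ_p`-basis of `ℤ_p ⊗ R` coming from a basis of `R`. -/
def pCompBasis : Module.Basis (Module.Free.ChooseBasisIndex ℤ R) ℤ_[p] (PComp p R) :=
  Algebra.TensorProduct.basis ℤ_[p] (Module.Free.chooseBasis ℤ R)

omit [Module.Finite ℤ R] in
/-- Coordinates of an element of `R` in `ℤ_p ⊗ R`. -/
theorem pCompBasis_repr_toPComp (x : R) (i : Module.Free.ChooseBasisIndex ℤ R) :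
    (pCompBasis p R).repr (toPComp p R x) i = ((Module.Free.chooseBasis ℤ R).repr x i : ℤ_[p]) := by
  exact (congrArg (fun z : _ →₀ ℤ_[p] => z i)
    (Algebra.TensorProduct.basis_repr_tmul (Module.Free.chooseBasis ℤ R) (1 : ℤ_[p]) x)).trans
    (by simp)

/-- Divisibility by `p ^ n` is tested on coordinates. -/
theorem pow_dvd_iff_repr (n : ℕ) (y : PComp p R) :
    (p : PComp p R) ^ n ∣ y ↔ ∀ i, (p : ℤ_[p]) ^ n ∣ (pCompBasis p R).repr y i := by
  have hcast : ∀ z : PComp p R, (p : PComp p R) ^ n * z = ((p : ℤ_[p]) ^ n) • z := fun z => by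
    rw [← Nat.cast_pow, ← Nat.cast_pow, Nat.cast_smul_eq_nsmul, nsmul_eq_mul]
  constructor
  · rintro ⟨z, rfl⟩ i
    rw [hcast, map_smul, Finsupp.smul_apply, smul_eq_mul]
    exact dvd_mul_right _ _
  · intro h
    choose c hc using h
    refine ⟨∑ i, c i • pCompBasis p R i, ?_⟩
    rw [hcast, Finset.smul_sum]
    conv_lhs => rw [← (pCompBasis p R).sum_repr y]
    exact Finset.sum_congr rfl fun i _ => by rw [smul_smul, ← hc i]

/-- Divisibility by `p ^ n` descends from the completion to `R`. -/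
theorem dvd_of_toPComp_dvd {n : ℕ} {x : R} (h : (p : PComp p R) ^ n ∣ toPComp p R x) :
    (p : R) ^ n ∣ x := by
  rw [pow_dvd_iff_repr] at h
  have h' : ∀ i, ((p ^ n : ℕ) : ℤ) ∣ (Module.Free.chooseBasis ℤ R).repr x i := fun i => by
    have hi := h i
    rw [pCompBasis_repr_toPComp] at hi
    rw [← Ideal.mem_span_singleton, ← PadicInt.ker_toZModPow, RingHom.mem_ker, map_intCast,
      ZMod.intCast_zmod_eq_zero_iff_dvd] at hi
    exact hi
  choose c hc using h'
  refine ⟨∑ i, c i • Module.Free.chooseBasis ℤ R i, ?_⟩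
  conv_lhs => rw [← (Module.Free.chooseBasis ℤ R).sum_repr x]
  rw [Finset.mul_sum]
  refine Finset.sum_congr rfl fun i _ => ?_
  rw [hc i, mul_smul, zsmul_eq_mul]
  push_cast
  ring

/-- `ℤ_p ⊗ R` is `p`-adically separated. -/
theorem eq_zero_of_forall_pow_dvd {y : PComp p R}
    (h : ∀ n : ℕ, (p : PComp p R) ^ n ∣ y) : y = 0 := by
  apply (pCompBasis p R).repr.injective
  ext i
  rw [map_zero, Finsupp.zero_apply]
  refine (IsHausdorff.haus inferInstance (I := IsLocalRing.maximalIdeal ℤ_[p]) _ fun n => ?_)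
  rw [SModEq.zero, smul_eq_mul, Ideal.mul_top, PadicInt.maximalIdeal_eq_span_p,
    Ideal.span_singleton_pow, Ideal.mem_span_singleton]
  exact (pow_dvd_iff_repr n y).mp (h n) i

omit [Module.Finite ℤ R] in
/-- `ℤ_p ⊗ R` has no torsion. -/
theorem eq_zero_of_natCast_mul_eq_zero {m : ℕ} (hm : m ≠ 0) {y : PComp p R}
    (h : (m : PComp p R) * y = 0) : y = 0 := by
  apply (pCompBasis p R).repr.injective
  ext i
  rw [show (m : PComp p R) * y = (m : ℤ_[p]) • y by
    rw [Nat.cast_smul_eq_nsmul, nsmul_eq_mul]] at h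
  have := congrArg (fun z => (pCompBasis p R).repr z i) h
  simpa [hm] using this

/-- A compatible sequence converges. -/
theorem exists_limit (a : ℕ → R) (h : ∀ n, (p : R) ^ n ∣ a (n + 1) - a n) :
    ∃ y : PComp p R, ∀ n, (p : PComp p R) ^ n ∣ y - toPComp p R (a n) := by
  set b := Module.Free.chooseBasis ℤ R
  -- the sequence converges coordinate by coordinate
  have hc : ∀ i, ∃ z : ℤ_[p], ∀ n, (p : ℤ_[p]) ^ n ∣ z - (b.repr (a n) i : ℤ_[p]) := by
    intro i
    have hstep : ∀ n, (p : ℤ_[p]) ^ n ∣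
        (b.repr (a (n + 1)) i : ℤ_[p]) - (b.repr (a n) i : ℤ_[p]) := by
      intro n
      obtain ⟨c, hc⟩ := h n
      rw [← Int.cast_sub, ← Finsupp.sub_apply, ← map_sub, hc,
        show (p : R) ^ n * c = ((p ^ n : ℕ) : ℤ) • c by rw [zsmul_eq_mul]; push_cast; ring,
        map_smul, Finsupp.smul_apply, smul_eq_mul, Int.cast_mul]
      push_cast
      exact dvd_mul_right _ _
    have hle : ∀ {m n : ℕ}, m ≤ n →
        (p : ℤ_[p]) ^ m ∣ (b.repr (a n) i : ℤ_[p]) - (b.repr (a m) i : ℤ_[p]) := by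
      intro m n hmn
      induction n, hmn using Nat.le_induction with
      | base => simp
      | succ n hmn ih =>
        have := dvd_add ((pow_dvd_pow _ hmn).trans (hstep n)) ih
        rwa [sub_add_sub_cancel] at this
    obtain ⟨z, hz⟩ := IsPrecomplete.prec
      (inferInstance : IsPrecomplete (IsLocalRing.maximalIdeal ℤ_[p]) ℤ_[p])
      (f := fun n => (b.repr (a n) i : ℤ_[p])) (fun {m n} hmn => by
        rw [SModEq.sub_mem, smul_eq_mul, Ideal.mul_top, PadicInt.maximalIdeal_eq_span_p,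
          Ideal.span_singleton_pow, Ideal.mem_span_singleton, ← dvd_neg, neg_sub]
        exact hle hmn)
    refine ⟨z, fun n => ?_⟩
    have := hz n
    rw [SModEq.sub_mem, smul_eq_mul, Ideal.mul_top, PadicInt.maximalIdeal_eq_span_p,
      Ideal.span_singleton_pow, Ideal.mem_span_singleton, ← dvd_neg, neg_sub] at this
    exact this
  choose z hz using hc
  refine ⟨∑ i, z i • pCompBasis p R i, fun n => (pow_dvd_iff_repr n _).mpr fun i => ?_⟩
  rw [map_sub, Finsupp.sub_apply, pCompBasis_repr_toPComp, (pCompBasis p R).repr_sum_self]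
  exact hz i n

/-- Extension of a ring map `R → O` to `ℤ_p ⊗ R`. -/
def pCompLift {O : Type*} [CommRing O] (g : ℤ_[p] →+* O) (f : R →+* O) : PComp p R →+* O :=
  (Algebra.TensorProduct.lift (g.toIntAlgHom) (f.toIntAlgHom) fun _ _ => Commute.all _ _).toRingHom

omit [Module.Free ℤ R] [Module.Finite ℤ R] in
/-- `pCompLift g f` extends `f`. -/
@[simp] theorem pCompLift_toPComp {O : Type*} [CommRing O] (g : ℤ_[p] →+* O) (f : R →+* O)
    (x : R) : pCompLift g f (toPComp p R x) = f x := by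
  exact (Algebra.TensorProduct.lift_tmul _ _ _ (1 : ℤ_[p]) x).trans (by simp)

omit [Module.Free ℤ R] [Module.Finite ℤ R] in
/-- `pCompLift` takes multiples of `p ^ n` into the `n`-th power of the maximal ideal. -/
theorem pCompLift_mem {O : Type*} [CommRing O] [IsLocalRing O] (g : ℤ_[p] →+* O) (f : R →+* O)
    (hp : (p : O) ∈ IsLocalRing.maximalIdeal O) {n : ℕ} {y : PComp p R}
    (h : (p : PComp p R) ^ n ∣ y) : pCompLift g f y ∈ IsLocalRing.maximalIdeal O ^ n := by
  obtain ⟨z, rfl⟩ := h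
  rw [map_mul, map_pow, map_natCast]
  exact Ideal.mul_mem_right _ _ (Ideal.pow_mem_pow hp n)

end PComp

end Fermat.GR
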