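import Fermat.Agent.CFT.Density.Places

/-!
# Frobenius elements on roots of unity

`frobenius_rootOfUnity`: a Frobenius element at `ℓ` raises roots of unity of order prime to `ℓ`
to the power `ℓ`.
-/

set_option autoImplicit false

noncomputable section

namespace Fermat.GR

local notation "ℚbar" => AlgebraicClosure ℚ
local notation "Γℚ" => (AlgebraicClosure ℚ ≃ₐ[ℚ] AlgebraicClosure ℚ)

/-- A Frobenius element at `ℓ` raises roots of unity of order prime to `ℓ` to the `ℓ`-th power. -/
theorem frobenius_rootOfUnity {A : ValuationSubring ℚbar} {ℓ : ℕ} (hℓ : ℓ.Prime)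
    (hA : A.LiesOverPrime ℓ) {σ : Γℚ} (hσ : A.IsFrobeniusAt σ ℓ) {m : ℕ} (hm : ¬ ℓ ∣ m)
    {z : ℚbar} (hz : z ^ m = 1) : σ z = z ^ ℓ := by
  have hm0 : m ≠ 0 := fun h => hm (h ▸ dvd_zero ℓ)
  have hzint : IsIntegral ℤ z := IsIntegral.of_pow (Nat.pos_of_ne_zero hm0) (hz ▸ isIntegral_one)
  have hσz : σ z ^ m = 1 := by rw [← map_pow, hz, map_one]
  have hz0 : z ≠ 0 := fun h => by simp [h, zero_pow hm0] at hz
  set η : ℚbar := σ z * (z ^ ℓ)⁻¹ with hη
  have hηm : η ^ m = 1 := by
    rw [hη, mul_pow, hσz, inv_pow, ← pow_mul, mul_comm ℓ m, pow_mul, hz, one_pow, inv_one, mul_one]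
  have hηint : IsIntegral ℤ η :=
    IsIntegral.of_pow (Nat.pos_of_ne_zero hm0) (hηm ▸ isIntegral_one)
  let x : A := ⟨z, Fermat.CFT.coe_mem_valuationSubring A ⟨z, hzint⟩⟩
  let y : A := ⟨η, Fermat.CFT.coe_mem_valuationSubring A ⟨η, hηint⟩⟩
  have h1 : IsLocalRing.residue A (y * x ^ ℓ) = IsLocalRing.residue A (x ^ ℓ) := by
    have hfr := hσ.smul_residue_eq (IsLocalRing.residue A x)
    rw [← IsLocalRing.ResidueField.residue_smul, ← map_pow] at hfr
    rw [← hfr]
    refine congrArg _ (Subtype.ext ?_)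
    change η * z ^ ℓ = σ z
    rw [hη, mul_assoc, inv_mul_cancel₀ (pow_ne_zero _ hz0), mul_one]
  have hxu : IsLocalRing.residue A (x ^ ℓ) ≠ 0 := by
    intro h
    rw [map_pow] at h
    have h2 : IsLocalRing.residue A x = 0 := by simpa using pow_eq_zero_iff (hℓ.ne_zero) |>.mp h
    have h3 : x ^ m = 1 := Subtype.ext hz
    have := congrArg (IsLocalRing.residue A) h3
    rw [map_pow, h2, zero_pow hm0, map_one] at this
    exact zero_ne_one this
  have hy1 : IsLocalRing.residue A y = 1 := by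
    rw [map_mul] at h1
    exact (mul_eq_right₀ hxu).mp h1
  -- a root of unity of order prime to `ℓ` which reduces to `1` is `1`
  suffices η = 1 by
    rw [hη, mul_inv_eq_one₀ (pow_ne_zero _ hz0)] at this
    exact this
  by_contra hne
  have hgeom : (∑ i ∈ Finset.range m, y ^ i) = 0 := by
    have hmul : (∑ i ∈ Finset.range m, y ^ i) * (y - 1) = 0 := by
      rw [geom_sum_mul, show y ^ m = 1 from Subtype.ext hηm, sub_self]
    exact (mul_eq_zero.mp hmul).resolve_right fun h =>
      hne (congrArg Subtype.val (sub_eq_zero.mp h))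
  have := congrArg (IsLocalRing.residue A) hgeom
  rw [map_sum, map_zero] at this
  simp only [map_pow, hy1, one_pow, Finset.sum_const, Finset.card_range, nsmul_eq_mul,
    mul_one] at this
  rw [← map_natCast (IsLocalRing.residue A), IsLocalRing.residue_eq_zero_iff] at this
  exact hm (Int.natCast_dvd_natCast.mp (Fermat.CFT.dvd_of_intCast_mem_primeOf hℓ hA
    (c := (m : ℤ)) (Ideal.mem_comap.mpr (by rw [map_intCast, Int.cast_natCast]; exact this))))

end Fermat.GR
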