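import Fermat.Agent.GR.ES.Data
import Fermat.Agent.GR.ES.Frobenius

/-!
# Integral congruences for the Galois action on `J[pⁿ]`

With a pair `e 0, e 1` of lattice vectors spanning up to the index `k`, the action of `σ` on
`J[pⁿ]` is encoded by a matrix `aMat n σ` over the Hecke algebra, which is `k` times the
matrix of `σ`, well defined modulo `pⁿ`.
-/

set_option autoImplicit false

noncomputable section

namespace Fermat.GR.ESData

local notation "ℚbar" => AlgebraicClosure ℚ
local notation "Γℚ" => (AlgebraicClosure ℚ ≃ₐ[ℚ] AlgebraicClosure ℚ)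

variable {R J : Type} [CommRing R] [AddCommGroup J]
  [DistribMulAction (AlgebraicClosure ℚ ≃ₐ[ℚ] AlgebraicClosure ℚ) J]
  {M p : ℕ} {T ε : ℕ → R} (D : ESData R J M p T ε)

local notation "M2" => Matrix (Fin 2) (Fin 2) R

/-- An index `k ≠ 0` with `k Λ` in the span of two independent vectors. -/
def k : ℕ := D.exists_basis.choose

/-- The index is not zero. -/
theorem k_ne_zero : D.k ≠ 0 := D.exists_basis.choose_spec.1

/-- Two independent vectors whose span contains `k Λ`. -/
def e : Fin 2 → D.Λ := D.exists_basis.choose_spec.2.choose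

/-- The two chosen vectors are independent over the Hecke ring. -/
theorem e_indep : LinearIndependent R D.e :=
  D.exists_basis.choose_spec.2.choose_spec.1

/-- `k • l` is a combination of the two vectors. -/
theorem exists_coeff (l : D.Λ) : ∃ c : Fin 2 → R, D.k • l = ∑ i, c i • D.e i := by
  obtain ⟨c, hc⟩ := (Submodule.mem_span_range_iff_exists_fun _).mp
    (D.exists_basis.choose_spec.2.choose_spec.2 l)
  exact ⟨c, hc.symm⟩

/-- The coordinates of `k • l`. -/
def coeff (l : D.Λ) : Fin 2 → R := (D.exists_coeff l).choose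

/-- `coeff l` are coordinates of `k • l`. -/
theorem coeff_spec (l : D.Λ) : D.k • l = ∑ i, D.coeff l i • D.e i :=
  (D.exists_coeff l).choose_spec

/-- The coordinates of `k • l` are unique. -/
theorem coeff_eq_of {l : D.Λ} {c : Fin 2 → R} (h : D.k • l = ∑ i, c i • D.e i) :
    D.coeff l = c :=
  funext fun i => Fintype.linearIndependent_iffₛ.mp D.e_indep (D.coeff l) c
    ((D.coeff_spec l).symm.trans h) i

/-- The coordinates of the chosen vectors themselves. -/
theorem coeff_e (j i : Fin 2) :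
    D.coeff (D.e j) i = if i = j then (D.k : R) else 0 := by
  rw [D.coeff_eq_of (c := fun i => if i = j then (D.k : R) else 0) ?_]
  simp [ite_smul, Nat.cast_smul_eq_nsmul]

/-- The coordinates are additive. -/
theorem coeff_sub (l m : D.Λ) (i : Fin 2) : D.coeff (l - m) i = D.coeff l i - D.coeff m i := by
  rw [D.coeff_eq_of (c := D.coeff l - D.coeff m) ?_]
  · rfl
  rw [nsmul_sub, D.coeff_spec l, D.coeff_spec m, ← Finset.sum_sub_distrib]
  exact Finset.sum_congr rfl fun a _ => by rw [Pi.sub_apply, sub_smul]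

/-- The coordinates are linear over the Hecke ring. -/
theorem coeff_smul (t : R) (l : D.Λ) (i : Fin 2) :
    D.coeff (t • l) i = t * D.coeff l i := by
  rw [D.coeff_eq_of (c := fun i => t * D.coeff l i) ?_]
  rw [← smul_comm t D.k l, D.coeff_spec, Finset.smul_sum]
  simp [mul_smul]

/-- `π n` lands in the `p ^ n`-torsion. -/
theorem torsion_π (n : ℕ) (l : D.Λ) : p ^ n • D.π n l = 0 := by
  rw [← map_nsmul, D.π_eq_zero_iff]; exact ⟨l, rfl⟩

/-- Vectors with the same image at level `n` have coordinates congruent modulo `p ^ n`. -/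
theorem coeff_cong {n : ℕ} {l m : D.Λ} (h : D.π n l = D.π n m) (i : Fin 2) :
    (p : R) ^ n ∣ D.coeff l i - D.coeff m i := by
  obtain ⟨u, hu⟩ := (D.π_eq_zero_iff n (l - m)).mp (by rw [map_sub, h, sub_self])
  rw [← D.coeff_sub, ← hu, ← Nat.cast_smul_eq_nsmul R, D.coeff_smul, Nat.cast_pow]
  exact dvd_mul_right _ _

/-- The Galois action as an additive map. -/
def gal (σ : Γℚ) : J →+ J := DistribSMul.toAddMonoidHom J σ

/-- `gal σ` is the action of `σ`. -/
theorem gal_apply (σ : Γℚ) (x : J) : gal σ x = σ • x := rfl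

/-- The Galois action preserves the `p ^ n`-torsion. -/
theorem torsion_gal (σ : Γℚ) {n : ℕ} {x : J} (hx : p ^ n • x = 0) :
    p ^ n • gal σ x = 0 := by
  rw [← map_nsmul, hx, map_zero]

/-- The image of a lattice vector under `σ` lifts to the lattice. -/
theorem exists_lift (n : ℕ) (σ : Γℚ) (l : D.Λ) : ∃ m : D.Λ, D.π n m = gal σ (D.π n l) :=
  D.exists_π n _ (torsion_gal σ (D.torsion_π n l))

/-- A lift of `σ (π n (e j))`. -/
def img (n : ℕ) (σ : Γℚ) (j : Fin 2) : D.Λ := (D.exists_lift n σ (D.e j)).choose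

/-- `img` lifts the image under `σ` of a chosen vector. -/
theorem π_img (n : ℕ) (σ : Γℚ) (j : Fin 2) : D.π n (D.img n σ j) = gal σ (D.π n (D.e j)) :=
  (D.exists_lift n σ (D.e j)).choose_spec

/-- `k` times the matrix of `σ` on `J[pⁿ]`. -/
def aMat (n : ℕ) (σ : Γℚ) : M2 := Matrix.of fun i j => D.coeff (D.img n σ j) i

/-- The entries of `aMat`. -/
theorem aMat_apply (n : ℕ) (σ : Γℚ) (i j : Fin 2) : D.aMat n σ i j = D.coeff (D.img n σ j) i :=
  rfl

/-- The Galois action on a combination of the two vectors. -/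
theorem gal_π_sum (n : ℕ) (σ : Γℚ) (c : Fin 2 → R) :
    gal σ (D.π n (∑ i, c i • D.e i)) = D.π n (∑ i, c i • D.img n σ i) := by
  simp only [map_sum, D.π_smul, gal_apply, D.galois_act, π_img]

/-- The matrices of two consecutive levels agree modulo `p ^ n`. -/
theorem aMat_compat (n : ℕ) (σ : Γℚ) (i j : Fin 2) :
    (p : R) ^ n ∣ D.aMat (n + 1) σ i j - D.aMat n σ i j := by
  refine D.coeff_cong ?_ i
  rw [π_img, ← D.p_smul_π n (D.img (n + 1) σ j), π_img, ← map_nsmul, D.p_smul_π]

/-- The scaled matrices are multiplicative modulo `p ^ n`, up to the index. -/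
theorem aMat_mul (n : ℕ) (σ τ : Γℚ) (i j : Fin 2) :
    (p : R) ^ n ∣
      (D.k : R) * D.aMat n (σ * τ) i j - (D.aMat n σ * D.aMat n τ) i j := by
  have h : D.π n (D.k • D.img n (σ * τ) j) =
      D.π n (∑ l, D.coeff (D.img n τ j) l • D.img n σ l) := by
    rw [← gal_π_sum, ← D.coeff_spec, map_nsmul, map_nsmul, π_img, map_nsmul, π_img]
    simp only [gal_apply, mul_smul]
  have hc := D.coeff_cong h i
  rw [← Nat.cast_smul_eq_nsmul R, D.coeff_smul] at hc
  suffices e : D.coeff (∑ l, D.coeff (D.img n τ j) l • D.img n σ l) i =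
      (D.aMat n σ * D.aMat n τ) i j by
    rw [e] at hc; exact hc
  rw [D.coeff_eq_of (c := fun i => (D.aMat n σ * D.aMat n τ) i j) ?_]
  simp only [Finset.smul_sum, smul_comm D.k, D.coeff_spec (D.img n σ _), Matrix.mul_apply,
    aMat_apply, Finset.sum_smul, smul_smul]
  rw [Finset.sum_comm]
  exact Finset.sum_congr rfl fun a _ => Finset.sum_congr rfl fun b _ => by rw [mul_comm]

/-- An element fixing the `p ^ n`-torsion has matrix `k` modulo `p ^ n`. -/
theorem aMat_of_fixed {n : ℕ} {σ : Γℚ} (hσ : ∀ x : J, p ^ n • x = 0 → σ • x = x)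
    (i j : Fin 2) :
    (p : R) ^ n ∣ D.aMat n σ i j - if i = j then (D.k : R) else 0 := by
  rw [← coeff_e]
  refine D.coeff_cong ?_ i
  rw [π_img, gal_apply, hσ _ (D.torsion_π n _)]

/-- At a good prime the scaled matrix of Frobenius satisfies the congruence relation modulo `p ^
n`. -/
theorem aMat_frobenius {ℓ : ℕ} (hℓ : ℓ.Prime) (hℓp : ¬ ℓ ∣ M * p)
    {A : ValuationSubring ℚbar} (hA : A.LiesOverPrime ℓ) {σ : Γℚ} (hσ : A.IsFrobeniusAt σ ℓ)
    (n : ℕ) (i j : Fin 2) :
    (p : R) ^ n ∣
      (D.aMat n σ * D.aMat n σ) i j - (D.k : R) * T ℓ * D.aMat n σ i j +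
        (D.k : R) * (D.k : R) * (ℓ : R) * ε ℓ * (if i = j then 1 else 0) := by
  have h0 := D.frobenius_quadratic ℓ hℓ hℓp A hA σ hσ (D.π n (D.e j)) ⟨n, D.torsion_π n _⟩
  simp only [← gal_apply] at h0
  rw [← π_img, ← D.π_smul, ← D.π_smul] at h0
  -- Frobenius satisfies its quadratic relation on the image of the basis vector
  have h : D.π n ((∑ l, D.coeff (D.img n σ j) l • D.img n σ l) -
      D.k • (T ℓ • D.img n σ j) + D.k • (ℓ • (ε ℓ • D.e j))) = D.π n 0 := by
    rw [map_zero, map_add, map_sub, ← gal_π_sum, ← D.coeff_spec, map_nsmul, map_nsmul, map_nsmul,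
      map_nsmul, map_nsmul, ← nsmul_sub, ← nsmul_add, h0, nsmul_zero]
  -- compare coefficients modulo `p ^ n`
  have hc := D.coeff_cong h i
  have hz : D.coeff (0 : D.Λ) i = 0 := by rw [← sub_self (0 : D.Λ), D.coeff_sub, sub_self]
  -- the coefficient is the entry of the scaled relation
  have he : D.coeff ((∑ l, D.coeff (D.img n σ j) l • D.img n σ l) -
      D.k • (T ℓ • D.img n σ j) + D.k • (ℓ • (ε ℓ • D.e j))) i =
      (D.aMat n σ * D.aMat n σ) i j - (D.k : R) * T ℓ * D.aMat n σ i j +
        (D.k : R) * (D.k : R) * (ℓ : R) * ε ℓ * (if i = j then 1 else 0) := by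
    rw [D.coeff_eq_of (c := fun i => (D.aMat n σ * D.aMat n σ) i j -
      (D.k : R) * T ℓ * D.aMat n σ i j +
        (D.k : R) * (D.k : R) * (ℓ : R) * ε ℓ * (if i = j then 1 else 0)) ?_]
    have e1 : D.k • (∑ l, D.coeff (D.img n σ j) l • D.img n σ l) =
        ∑ a, (D.aMat n σ * D.aMat n σ) a j • D.e a := by
      simp only [Finset.smul_sum, smul_comm D.k, D.coeff_spec (D.img n σ _), Matrix.mul_apply,
        aMat_apply, Finset.sum_smul, smul_smul]
      rw [Finset.sum_comm]
      exact Finset.sum_congr rfl fun a _ => Finset.sum_congr rfl fun b _ => by rw [mul_comm]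
    have e2 : D.k • (D.k • (T ℓ • D.img n σ j)) =
        ∑ a, ((D.k : R) * T ℓ * D.aMat n σ a j) • D.e a := by
      rw [smul_comm D.k (T ℓ), D.coeff_spec (D.img n σ j), Finset.smul_sum, Finset.smul_sum]
      exact Finset.sum_congr rfl fun a _ => by
        rw [aMat_apply, mul_smul, mul_smul, Nat.cast_smul_eq_nsmul]
    have e3 : D.k • (D.k • (ℓ • (ε ℓ • D.e j))) = ∑ a,
        ((D.k : R) * (D.k : R) * (ℓ : R) * ε ℓ * (if a = j then (1 : R) else 0)) • D.e a := by
      simp [mul_ite, ite_smul, mul_smul, Nat.cast_smul_eq_nsmul]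
    simp only [add_smul, sub_smul, Finset.sum_add_distrib, Finset.sum_sub_distrib]
    rw [← e1, ← e2, ← e3, nsmul_add, nsmul_sub]
  rw [he, hz, sub_zero] at hc
  exact hc

section Pairing

variable [Fact p.Prime]

/-- The torsion orders are not zero. -/
theorem prime_pow_ne_zero (n : ℕ) : p ^ n ≠ 0 := pow_ne_zero _ (Fact.out : p.Prime).ne_zero

/-- The pairing on the lattice at level `n`. -/
def epairVal (n : ℕ) (l m : D.Λ) : (ℚbar)ˣ :=
  Units.ofPowEqOne (D.pair n (D.π n l) (D.π n m)) (p ^ n)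
    (D.pair_pow n _ _ (D.torsion_π n l) (D.torsion_π n m)) (prime_pow_ne_zero n)

/-- `epairVal` is the Weil pairing of the images at level `n`. -/
theorem coe_epairVal (n : ℕ) (l m : D.Λ) :
    (D.epairVal n l m : ℚbar) = D.pair n (D.π n l) (D.π n m) := rfl

/-- The pairing is additive in the left variable. -/
theorem epairVal_add_left (n : ℕ) (l l' m : D.Λ) :
    D.epairVal n (l + l') m = D.epairVal n l m * D.epairVal n l' m :=
  Units.ext <| by
    rw [Units.val_mul, coe_epairVal, coe_epairVal, coe_epairVal, map_add,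
      D.pair_add_left n _ _ _ (D.torsion_π n l) (D.torsion_π n l') (D.torsion_π n m)]

/-- The pairing is antisymmetric. -/
theorem epairVal_symm (n : ℕ) (l m : D.Λ) : D.epairVal n m l = (D.epairVal n l m)⁻¹ :=
  eq_inv_of_mul_eq_one_left <| Units.ext <| by
    rw [Units.val_mul, coe_epairVal, coe_epairVal, Units.val_one]
    exact D.pair_symm n _ _ (D.torsion_π n l) (D.torsion_π n m)

/-- The pairing as a biadditive map. -/
def epair (n : ℕ) : D.Λ →+ D.Λ →+ Additive (ℚbar)ˣ :=
  AddMonoidHom.mk' (fun l => AddMonoidHom.mk' (fun m => Additive.ofMul (D.epairVal n l m))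
    (fun m m' => by
      rw [← ofMul_mul, D.epairVal_symm n (m + m') l, D.epairVal_symm n m l,
        D.epairVal_symm n m' l, epairVal_add_left, mul_inv]))
    (fun l l' => by
      ext1 m
      change Additive.ofMul (D.epairVal n (l + l') m) =
        Additive.ofMul (D.epairVal n l m) + Additive.ofMul (D.epairVal n l' m)
      rw [← ofMul_mul, epairVal_add_left])

/-- `epair` is `epairVal`, written additively. -/
theorem epair_apply (n : ℕ) (l m : D.Λ) :
    D.epair n l m = Additive.ofMul (D.epairVal n l m) := rfl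

/-- The pairing is self-adjoint for the Hecke ring. -/
theorem epair_smul (n : ℕ) (t : R) (l m : D.Λ) :
    D.epair n (t • l) m = D.epair n l (t • m) := by
  rw [epair_apply, epair_apply]
  refine congrArg _ (Units.ext ?_)
  rw [coe_epairVal, coe_epairVal, D.π_smul, D.π_smul,
    D.pair_act n t _ _ (D.torsion_π n l) (D.torsion_π n m)]

/-- The biadditive pairing is antisymmetric. -/
theorem epair_swap (n : ℕ) (l m : D.Λ) : D.epair n m l = - D.epair n l m := by
  rw [epair_apply, epair_apply, D.epairVal_symm, ofMul_inv]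

/-- Twice the pairing of two multiples of one vector is zero. -/
theorem epair_self_two (n : ℕ) (a b : R) (i : Fin 2) :
    (2 : ℕ) • D.epair n (a • D.e i) (b • D.e i) = 0 := by
  rw [← D.epair_smul, smul_smul, two_nsmul, ← eq_neg_iff_add_eq_zero]
  conv_rhs => rw [← epair_swap, ← D.epair_smul]

/-- The determinant congruence: if `σ` raises the `p ^ n`-th roots of unity to the power `u`, then
`det (aMat n σ)` is `k² u δ(σ)` modulo `p ^ n`, up to the factor `2 k²`. -/
theorem aMat_det (n : ℕ) (σ : Γℚ) (u : ℕ) (hu : ∀ z : ℚbar, z ^ (p ^ n) = 1 → σ z = z ^ u) :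
    (p : R) ^ n ∣ 2 * (D.k : R) * (D.k : R) *
      ((D.aMat n σ).det - (D.k : R) * (D.k : R) * (u : R) * D.δ σ) := by
  set a := D.aMat n σ with ha
  set y : R := a.det - (D.k : R) * (D.k : R) * (u : R) * D.δ σ
    with hy
  -- Galois acts on the pairing through `u` and `δ σ`
  have hgal : ∀ l m l' m' : D.Λ, D.π n l' = gal σ (D.π n l) → D.π n m' = gal σ (D.π n m) →
      D.epair n l' m' = u • D.epair n (D.δ σ • l) m := by
    intro l m l' m' hl hm
    rw [epair_apply, epair_apply, ← ofMul_pow]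
    refine congrArg _ (Units.ext ?_)
    rw [Units.val_pow_eq_pow_val, coe_epairVal, coe_epairVal, hl, hm, gal_apply, gal_apply,
      ← D.pair_galois n σ _ _ (D.torsion_π n l) (D.torsion_π n m), ← D.π_smul,
      hu _ (D.pair_pow n _ _ (D.torsion_π n _) (D.torsion_π n m))]
  -- so `y` times the first vector pairs to zero with the second, up to `2`
  have hphi : ∀ x : R, (2 : ℕ) • D.epair n ((x * y) • D.e 0) (D.e 1) = 0 := by
    intro x
    have hx : D.π n (x • D.img n σ 0) = gal σ (D.π n (x • D.e 0)) := by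
      rw [D.π_smul, π_img, D.π_smul, gal_apply, gal_apply, D.galois_act]
    have h := hgal _ (D.e 1) _ (D.img n σ 1) hx (D.π_img n σ 1)
    have h2 : (2 : ℕ) • D.epair n (D.k • x • D.img n σ 0) (D.k • D.img n σ 1) =
        (2 : ℕ) • (D.k • D.k • u • D.epair n (D.δ σ • x • D.e 0) (D.e 1)) := by
      simp only [map_nsmul, AddMonoidHom.nsmul_apply, h]
    have h3 : (2 : ℕ) • D.epair n (D.k • x • D.img n σ 0) (D.k • D.img n σ 1) =
        (2 : ℕ) • D.epair n ((x * a.det) • D.e 0) (D.e 1) := by
      rw [smul_comm D.k x, D.coeff_spec, D.coeff_spec, Fin.sum_univ_two, Fin.sum_univ_two,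
        ← aMat_apply, ← aMat_apply, ← aMat_apply, ← aMat_apply, ← ha, smul_add, smul_smul,
        smul_smul]
      simp only [map_add, AddMonoidHom.add_apply, nsmul_add, D.epair_self_two, zero_add, add_zero]
      rw [D.epair_swap n (a 0 1 • D.e 0) ((x * a 1 0) • D.e 1), ← D.epair_smul, ← D.epair_smul,
        smul_smul, smul_smul, Matrix.det_fin_two,
        show x * (a 0 0 * a 1 1 - a 0 1 * a 1 0) = a 1 1 * (x * a 0 0) - (x * a 1 0) *
          a 0 1 by ring,
        sub_smul, map_sub, AddMonoidHom.sub_apply, nsmul_sub, neg_nsmul, sub_eq_add_neg]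
      exact add_comm _ _
    rw [hy, mul_sub, sub_smul, map_sub, AddMonoidHom.sub_apply, nsmul_sub, ← h3, h2,
      show x * ((D.k : R) * D.k * u * D.δ σ) = (D.k : R) * (D.k * (u * (D.δ σ * x))) by ring]
    simp only [mul_smul, Nat.cast_smul_eq_nsmul, map_nsmul, AddMonoidHom.nsmul_apply, sub_self]
  have hzero : ∀ l : D.Λ, D.epair n (((2 * D.k : ℕ) : R) • y • D.e 0) l = 0 := by
    intro l
    rw [Nat.cast_smul_eq_nsmul, mul_nsmul, map_nsmul, map_nsmul, AddMonoidHom.nsmul_apply,
      AddMonoidHom.nsmul_apply, smul_comm, ← map_nsmul (D.epair n (y • D.e 0)), D.coeff_spec,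
      Fin.sum_univ_two, map_add, nsmul_add]
    have h1 : (2 : ℕ) • D.epair n (y • D.e 0) (D.coeff l 1 • D.e 1) = 0 := by
      rw [← D.epair_smul, smul_smul]; exact hphi _
    simp only [D.epair_self_two, h1, zero_add]
  -- by non-degeneracy its image vanishes, and the coordinate gives the congruence
  set w : D.Λ := ((2 * D.k : ℕ) : R) • y • D.e 0 with hw
  have hπ : D.π n w = 0 := by
    refine D.pair_nondeg n _ (D.torsion_π n w) fun z hz => ?_
    obtain ⟨l, rfl⟩ := D.exists_π n z hz
    have := congrArg (fun v : Additive (ℚbar)ˣ => ((v.toMul : (ℚbar)ˣ) : ℚbar)) (hzero l)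
    simpa [epair_apply, coe_epairVal] using this
  have hc := D.coeff_cong (n := n) (l := w) (m := 0) (by rw [hπ, map_zero]) 0
  have hz : D.coeff (0 : D.Λ) 0 = 0 := by rw [← sub_self (0 : D.Λ), D.coeff_sub, sub_self]
  rw [hz, sub_zero, hw, D.coeff_smul, D.coeff_smul, D.coeff_e, if_pos rfl] at hc
  refine hc.trans (dvd_of_eq ?_)
  rw [hy]; push_cast; ring

end Pairing

end Fermat.GR.ESData
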