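import Fermat.Agent.DS.Grp.TwoByTwo
import Fermat.Agent.GR.ES.Lattice
import Fermat.Agent.GR.ES.Completion

/-!
# The Galois representation over the `p`-adic Hecke algebra

`bMat σ` is `k` times the matrix of `σ` over `ℤ_p ⊗ 𝕋`, the limit of the `aMat n σ` of `Lattice`;
its determinant and trace at Frobenius elements are computed from the Weil pairing and the
congruence relation. `Point` specialises it at a point of `𝕋`.
-/

set_option autoImplicit false

noncomputable section

namespace Fermat.GR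

section Mat

variable {A : Type*} [CommRing A]

/-- Trace and determinant are read off the characteristic polynomial. -/
theorem trace_det_of_charpoly_matrix [Nontrivial A] {M : Matrix (Fin 2) (Fin 2) A} {t d : A}
    (h : M.charpoly = Polynomial.X ^ 2 - Polynomial.C t * Polynomial.X + Polynomial.C d) :
    M.trace = t ∧ M.det = d := by
  rw [Matrix.charpoly_fin_two] at h
  refine ⟨?_, ?_⟩
  · have h1 := congrArg (fun P : Polynomial A => P.coeff 1) h
    simpa [Polynomial.coeff_X_pow, Polynomial.coeff_C] using h1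
  · have h0 := congrArg (fun P : Polynomial A => P.coeff 0) h
    simpa [Polynomial.coeff_X_pow] using h0

/-- The trace of the `j`-th power of a `2 × 2` matrix with trace `t` and determinant `d`. -/
def powTrace (t d : A) : ℕ → A
  | 0 => 2
  | 1 => t
  | (j + 2) => t * powTrace t d (j + 1) - d * powTrace t d j

/-- `powTrace` commutes with ring maps. -/
theorem map_powTrace {B : Type*} [CommRing B] (f : A →+* B) (t d : A) :
    ∀ j, f (powTrace t d j) = powTrace (f t) (f d) j
  | 0 => map_ofNat f 2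
  | 1 => rfl
  | (j + 2) => by
    rw [powTrace, powTrace, map_sub, map_mul, map_mul, map_powTrace f t d (j + 1),
      map_powTrace f t d j]

/-- `powTrace` gives the traces of the powers of a `2 × 2` matrix. -/
theorem trace_pow_fin_two (M : Matrix (Fin 2) (Fin 2) A) :
    ∀ j, (M ^ j).trace = powTrace M.trace M.det j
  | 0 => by simp [powTrace]
  | 1 => by simp [powTrace]
  | (j + 2) => by
    rw [powTrace, ← trace_pow_fin_two M (j + 1), ← trace_pow_fin_two M j,
      pow_succ' M (j + 1), pow_succ' M j, ← mul_assoc, DS.mul_self_eq, sub_mul,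
      smul_mul_assoc, smul_mul_assoc, one_mul, Matrix.trace_sub, Matrix.trace_smul,
      Matrix.trace_smul, smul_eq_mul, smul_eq_mul]

/-- One step of the recursion for traces of powers, up to the scalar `k`. -/
theorem trace_scaled_step (b x y z : Matrix (Fin 2) (Fin 2) A) (k : A) (hy : b * x = k • y)
    (hz : b * y = k • z) :
    k * (k * z.trace) = b.trace * (k * y.trace) - b.det * x.trace := by
  have h : k • k • z = b.trace • k • y - b.det • x := by
    rw [← hz, ← mul_smul_comm, ← hy, ← mul_assoc, DS.mul_self_eq, sub_mul, smul_mul_assoc,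
      smul_mul_assoc, one_mul]
  simpa [Matrix.trace_smul, Matrix.trace_sub] using congrArg Matrix.trace h

end Mat

namespace ESData

local notation "ℚbar" => AlgebraicClosure ℚ
local notation "Γℚ" => (AlgebraicClosure ℚ ≃ₐ[ℚ] AlgebraicClosure ℚ)

variable {R J : Type} [CommRing R] [Module.Free ℤ R] [Module.Finite ℤ R] [AddCommGroup J]
  [DistribMulAction (AlgebraicClosure ℚ ≃ₐ[ℚ] AlgebraicClosure ℚ) J]
  {M p : ℕ} [Fact p.Prime] {T ε : ℕ → R} (D : ESData R J M p T ε)

local notation "B" => PComp p R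
local notation "ι" => toPComp p R

/-- The matrices `aMat n σ` converge in `ℤ_p ⊗ 𝕋`. -/
theorem exists_bMat (σ : Γℚ) (i j : Fin 2) :
    ∃ y : B, ∀ n, (p : B) ^ n ∣ y - ι (D.aMat n σ i j) :=
  exists_limit _ fun n => D.aMat_compat n σ i j

/-- `k` times the matrix of `σ` over `ℤ_p ⊗ 𝕋`. -/
def bMat (σ : Γℚ) : Matrix (Fin 2) (Fin 2) B := Matrix.of fun i j => (D.exists_bMat σ i j).choose

/-- Reduction modulo `pⁿ`. -/
def modPow (n : ℕ) : B →+* B ⧸ Ideal.span {(p : B) ^ n} := Ideal.Quotient.mk _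

omit [Module.Free ℤ R] [Module.Finite ℤ R] in
/-- Equality modulo `p ^ n` is divisibility of the difference. -/
theorem modPow_eq_iff (n : ℕ) (x y : B) :
    modPow n x = modPow n y ↔ (p : B) ^ n ∣ x - y := by
  rw [modPow, Ideal.Quotient.eq, Ideal.mem_span_singleton]

omit [Module.Free ℤ R] [Module.Finite ℤ R] in
/-- Congruent elements of `R` have the same image modulo `p ^ n`. -/
theorem modPow_toPComp_eq {n : ℕ} {x y : R} (h : (p : R) ^ n ∣ x - y) :
    modPow (p := p) n (ι x) = modPow n (ι y) := by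
  rw [modPow_eq_iff, ← map_sub, ← map_natCast ι p, ← map_pow]
  exact map_dvd ι h

/-- An element is determined by its reductions. -/
theorem eq_of_forall_modPow {x y : B} (h : ∀ n, modPow n x = modPow n y) : x = y :=
  sub_eq_zero.mp (eq_zero_of_forall_pow_dvd fun n => (modPow_eq_iff n x y).mp (h n))

/-- A matrix is determined by its reductions. -/
theorem mat_eq_of_forall_modPow {x y : Matrix (Fin 2) (Fin 2) B}
    (h : ∀ n, (modPow n).mapMatrix x = (modPow n).mapMatrix y) : x = y :=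
  Matrix.ext fun i j => eq_of_forall_modPow fun n => congrFun (congrFun (h n) i) j

/-- Modulo `p ^ n`, `bMat` is `aMat n`. -/
theorem modPow_bMat (n : ℕ) (σ : Γℚ) :
    (modPow n).mapMatrix (D.bMat σ) = ((modPow n).comp ι).mapMatrix (D.aMat n σ) :=
  Matrix.ext fun i j => (modPow_eq_iff n _ _).mpr ((D.exists_bMat σ i j).choose_spec n)

omit [Module.Free ℤ R] [Module.Finite ℤ R] in
/-- Congruent matrices over `R` have the same image modulo `p ^ n`. -/
theorem mapMatrix_aMat_eq {n : ℕ} {X Y : Matrix (Fin 2) (Fin 2) R}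
    (h : ∀ i j, (p : R) ^ n ∣ X i j - Y i j) :
    ((modPow (p := p) n).comp ι).mapMatrix X = ((modPow n).comp ι).mapMatrix Y :=
  Matrix.ext fun i j => modPow_toPComp_eq (h i j)

/-- The scaled matrices multiply with a factor `k`. -/
theorem bMat_mul (σ τ : Γℚ) : D.bMat σ * D.bMat τ = (D.k : B) • D.bMat (σ * τ) := by
  refine mat_eq_of_forall_modPow fun n => ?_
  rw [show (D.k : B) • D.bMat (σ * τ) = (D.k : Matrix (Fin 2) (Fin 2) B) * D.bMat (σ * τ) by
      rw [Nat.cast_smul_eq_nsmul, nsmul_eq_mul],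
    map_mul, map_mul, modPow_bMat, modPow_bMat, modPow_bMat, ← map_mul, map_natCast,
    ← map_natCast (((modPow n).comp ι).mapMatrix (m := Fin 2)) D.k, ← map_mul]
  refine (mapMatrix_aMat_eq fun i j => ?_).symm
  rw [← nsmul_eq_mul, Matrix.smul_apply, nsmul_eq_mul]
  exact D.aMat_mul n σ τ i j

/-- An element fixing the `p ^ n`-torsion has scaled matrix `k` modulo `p ^ n`. -/
theorem modPow_bMat_of_fixed {n : ℕ} {σ : Γℚ}
    (hσ : ∀ x : J, p ^ n • x = 0 → σ • x = x) :
    (modPow n).mapMatrix (D.bMat σ) = (D.k : Matrix (Fin 2) (Fin 2) _) := by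
  rw [modPow_bMat, ← map_natCast (((modPow n).comp ι).mapMatrix (m := Fin 2)) D.k]
  refine mapMatrix_aMat_eq fun i j => ?_
  rw [← Matrix.diagonal_natCast, Matrix.diagonal_apply]
  exact D.aMat_of_fixed hσ i j

/-- An element fixing the `p`-power torsion has scaled matrix `k`. -/
theorem bMat_of_fixed {σ : Γℚ}
    (hσ : ∀ x : J, (∃ n : ℕ, p ^ n • x = 0) → σ • x = x) :
    D.bMat σ = (D.k : Matrix (Fin 2) (Fin 2) B) :=
  mat_eq_of_forall_modPow fun n => by
    rw [map_natCast, D.modPow_bMat_of_fixed fun x hx => hσ x ⟨n, hx⟩]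

/-- The scaled matrix of `1` is `k`. -/
theorem bMat_one : D.bMat 1 = (D.k : Matrix (Fin 2) (Fin 2) B) :=
  D.bMat_of_fixed fun x _ => one_smul _ x

/-- Inertia at a good prime has scaled matrix `k`. -/
theorem bMat_inertia {ℓ : ℕ} (hℓ : ℓ.Prime) (hℓp : ¬ ℓ ∣ M * p) {A : ValuationSubring ℚbar}
    (hA : A.LiesOverPrime ℓ) {σ : Γℚ} (hσ : σ ∈ A.inertiaSubgroupIn ℚ) :
    D.bMat σ = (D.k : Matrix (Fin 2) (Fin 2) B) :=
  D.bMat_of_fixed fun x hx => D.inertia_smul ℓ hℓ hℓp A hA σ hσ x hx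

omit [Module.Finite ℤ R] in
/-- Cancellation of the index. -/
theorem eq_of_k_mul {x y : B} (h : (D.k : B) * x = (D.k : B) * y) : x = y :=
  sub_eq_zero.mp (eq_zero_of_natCast_mul_eq_zero D.k_ne_zero (by rw [mul_sub, h, sub_self]))

/-- The determinant of the scaled matrix of Frobenius is `k² ℓ ε(ℓ)`. -/
theorem bMat_det_frobenius {ℓ : ℕ} (hℓ : ℓ.Prime) (hℓp : ¬ ℓ ∣ M * p)
    {A : ValuationSubring ℚbar} (hA : A.LiesOverPrime ℓ) {σ : Γℚ} (hσ : A.IsFrobeniusAt σ ℓ) :
    (D.bMat σ).det = (D.k : B) * (D.k : B) * (ℓ : B) * ι (ε ℓ) := by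
  have h : (2 * D.k * D.k : ℕ) * ((D.bMat σ).det - (D.k : B) * (D.k : B) * (ℓ : B) *
      ι (ε ℓ)) = 0 := by
    refine eq_of_forall_modPow fun n => ?_
    have hdet := D.aMat_det n σ ℓ fun z hz => frobenius_rootOfUnity hℓ hA hσ
      (fun hd => hℓp (dvd_mul_of_dvd_right ((Nat.prime_dvd_prime_iff_eq hℓ Fact.out).mp
        (hℓ.dvd_of_dvd_pow hd) ▸ dvd_rfl) M)) hz
    rw [D.δ_frobenius ℓ hℓ hℓp A hA σ hσ] at hdet
    have h2 := modPow_toPComp_eq (p := p) (n := n) (y := 0) (dvd_sub hdet (dvd_zero _))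
    simp only [map_mul, map_sub, map_natCast, map_ofNat, map_zero, RingHom.map_det] at h2
    rw [map_zero, ← h2]
    simp only [map_mul, map_sub, map_natCast, Nat.cast_mul, Nat.cast_ofNat, map_ofNat,
      RingHom.map_det]
    rw [modPow_bMat]
    rfl
  refine sub_eq_zero.mp (eq_zero_of_natCast_mul_eq_zero ?_ h)
  simp [D.k_ne_zero]

/-- The scaled matrix of Frobenius satisfies its quadratic relation. -/
theorem bMat_frobenius_quadratic {ℓ : ℕ} (hℓ : ℓ.Prime) (hℓp : ¬ ℓ ∣ M * p)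
    {A : ValuationSubring ℚbar} (hA : A.LiesOverPrime ℓ) {σ : Γℚ} (hσ : A.IsFrobeniusAt σ ℓ) :
    D.bMat σ * D.bMat σ -
      ((D.k : B) * ι (T ℓ)) • D.bMat σ +
        ((D.k : B) * (D.k : B) * (ℓ : B) * ι (ε ℓ)) • (1 : Matrix (Fin 2) (Fin 2) B) = 0 := by
  refine Matrix.ext fun i j => eq_of_forall_modPow fun n => ?_
  have h2 := modPow_toPComp_eq (p := p) (n := n) (y := 0)
    (dvd_sub (D.aMat_frobenius hℓ hℓp hA hσ n i j) (dvd_zero _))
  have hb : ∀ a b, modPow n (D.bMat σ a b) = modPow n (ι (D.aMat n σ a b)) := fun a b =>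
    congrFun (congrFun (D.modPow_bMat n σ) a) b
  simp only [map_zero] at h2
  rw [Matrix.zero_apply, map_zero, ← h2]
  simp only [Matrix.add_apply, Matrix.sub_apply, Matrix.smul_apply, smul_eq_mul,
    Matrix.mul_apply, Fin.sum_univ_two, map_add, map_sub, map_mul, map_natCast, hb,
    Matrix.one_apply]
  split_ifs <;> simp

/-- The trace of the scaled matrix of Frobenius is `k T_ℓ`. -/
theorem bMat_trace_frobenius {ℓ : ℕ} (hℓ : ℓ.Prime) (hℓp : ¬ ℓ ∣ M * p)
    {A : ValuationSubring ℚbar} (hA : A.LiesOverPrime ℓ) {σ : Γℚ} (hσ : A.IsFrobeniusAt σ ℓ) :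
    (D.bMat σ).trace =
      (D.k : B) * ι (T ℓ) := by
  have hq := D.bMat_frobenius_quadratic hℓ hℓp hA hσ
  rw [DS.mul_self_eq, D.bMat_det_frobenius hℓ hℓp hA hσ] at hq
  set c := (D.bMat σ).trace -
    (D.k : B) * ι (T ℓ) with hc
  have hcb : c • D.bMat σ = 0 := by
    rw [hc, sub_smul, ← hq]
    abel
  have h1 : (c • D.bMat σ * D.bMat σ⁻¹) 0 0 =
      ((0 : Matrix (Fin 2) (Fin 2) B) * D.bMat σ⁻¹) 0 0 := by
    rw [hcb]
  simp only [Matrix.smul_mul, bMat_mul, mul_inv_cancel, bMat_one, zero_mul, Matrix.smul_apply,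
    Matrix.zero_apply, smul_eq_mul, ← Matrix.diagonal_natCast, Matrix.diagonal_apply_eq] at h1
  refine sub_eq_zero.mp (eq_zero_of_natCast_mul_eq_zero D.k_ne_zero
    (eq_zero_of_natCast_mul_eq_zero D.k_ne_zero ?_))
  rw [← hc, ← mul_assoc, mul_comm]
  exact h1

/-- The traces of the powers of Frobenius are given by the recursion `powTrace`. -/
theorem bMat_trace_frobenius_pow {ℓ : ℕ} (hℓ : ℓ.Prime) (hℓp : ¬ ℓ ∣ M * p)
    {A : ValuationSubring ℚbar} (hA : A.LiesOverPrime ℓ) {σ : Γℚ} (hσ : A.IsFrobeniusAt σ ℓ) :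
    ∀ m : ℕ, (D.bMat (σ ^ m)).trace = (D.k : B) *
      ι (powTrace (T ℓ) ((ℓ : R) * ε ℓ) m)
  | 0 => by
    rw [pow_zero, bMat_one, powTrace, map_ofNat, Matrix.trace_fin_two,
      ← Matrix.diagonal_natCast, Matrix.diagonal_apply_eq, Matrix.diagonal_apply_eq]
    ring
  | 1 => by rw [pow_one, powTrace, D.bMat_trace_frobenius hℓ hℓp hA hσ]
  | (m + 2) => by
    set t : B := ι (T ℓ) with hT
    have h1 := trace_scaled_step (D.bMat σ) (D.bMat (σ ^ m)) (D.bMat (σ ^ (m + 1)))
      (D.bMat (σ ^ (m + 2))) (D.k : B)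
      (by rw [pow_succ' σ m]; exact D.bMat_mul _ _)
      (by rw [pow_succ' σ (m + 1)]; exact D.bMat_mul _ _)
    rw [D.bMat_det_frobenius hℓ hℓp hA hσ, D.bMat_trace_frobenius hℓ hℓp hA hσ, ← hT] at h1
    rw [powTrace, map_sub, map_mul, map_mul, map_mul, map_natCast]
    rw [bMat_trace_frobenius_pow hℓ hℓp hA hσ (m + 1),
      bMat_trace_frobenius_pow hℓ hℓp hA hσ m] at h1
    refine D.eq_of_k_mul (D.eq_of_k_mul ?_)
    rw [h1, hT]
    ring

end ESData

end Fermat.GR
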