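import Mathlib
import Fermat.Prelude.Thm_IsLocalRing_isAdicComplete_of_module_finite
import Fermat.Prelude.Thm_Algebra_finite_maximalSpectrum_and_bijective_localization_of_module_finite

/-!
# Points of finite algebras over complete discrete valuation rings

`exists_dvr_of_algHom`: a point of a finite algebra in an algebraic closure takes values in the
integers of a finite extension (`DVRExt`).
-/

set_option autoImplicit false

noncomputable section

namespace Fermat.GR

/-- A domain finite over a complete noetherian local ring is local. -/
theorem isLocalRing_of_finite_domain {O : Type} [CommRing O] [IsLocalRing O] [IsNoetherianRing O]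
    [IsAdicComplete (IsLocalRing.maximalIdeal O) O] (D : Type) [CommRing D] [IsDomain D]
    [Algebra O D] [Module.Finite O D] : IsLocalRing D := by
  classical
  obtain ⟨-, hbij, -, -⟩ :=
    Algebra.finite_maximalSpectrum_and_bijective_localization_of_module_finite (𝒪 := O) D
  obtain ⟨m, hm⟩ := Ideal.exists_maximal D
  refine IsLocalRing.of_unique_max_ideal ⟨m, hm, fun m' hm' => ?_⟩
  by_contra hne
  set I : MaximalSpectrum D := ⟨m, hm⟩
  set J : MaximalSpectrum D := ⟨m', hm'⟩
  have hIJ : I ≠ J := fun h => hne (congrArg MaximalSpectrum.asIdeal h).symm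
  obtain ⟨x, hx⟩ := hbij.2 (Pi.single I 1)
  obtain ⟨y, hy⟩ := hbij.2 (Pi.single J 1)
  have hxy : x * y = 0 := hbij.1 (by
    rw [map_mul, map_zero, hx, hy]
    funext K
    by_cases hK : K = I
    · subst hK
      simp [Pi.single_eq_of_ne hIJ]
    · simp [Pi.single_eq_of_ne hK])
  rcases mul_eq_zero.mp hxy with h | h
  · rw [h, map_zero] at hx
    simpa using congrFun hx I
  · rw [h, map_zero] at hy
    simpa using congrFun hy J

/-- A ring map to an algebraically closed field extends along an integral extension. -/
theorem exists_extend_algClosed {R S Ω : Type} [CommRing R] [CommRing S] [Field Ω] [IsAlgClosed Ω]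
    (i : R →+* S) (hinj : Function.Injective i) (hint : i.IsIntegral) (f : R →+* Ω) :
    ∃ g : S →+* Ω, g.comp i = f := by
  let := i.toAlgebra
  have : Algebra.IsIntegral R S := ⟨hint⟩
  have : (RingHom.ker f).IsPrime := RingHom.ker_isPrime f
  obtain ⟨Q, -, hQ, hQc⟩ := Ideal.exists_ideal_over_prime_of_isIntegral (RingHom.ker f)
    (⊥ : Ideal S)
    (by rw [← RingHom.ker_eq_comap_bot,
          (RingHom.injective_iff_ker_eq_bot (algebraMap R S)).mp hinj]
        exact bot_le)
  have := hQ
  let q : R ⧸ RingHom.ker f →+* S ⧸ Q := Ideal.quotientMap Q i hQc.ge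
  let := q.toAlgebra
  let := (RingHom.kerLift f).toAlgebra
  have hqinj : Function.Injective q := Ideal.quotientMap_injective' hQc.le
  have : FaithfulSMul (R ⧸ RingHom.ker f) (S ⧸ Q) :=
    (faithfulSMul_iff_algebraMap_injective _ _).mpr hqinj
  have : FaithfulSMul (R ⧸ RingHom.ker f) Ω :=
    (faithfulSMul_iff_algebraMap_injective _ _).mpr (RingHom.kerLift_injective f)
  have : Module.IsTorsionFree (R ⧸ RingHom.ker f) (S ⧸ Q) := inferInstance
  have : Algebra.IsIntegral (R ⧸ RingHom.ker f) (S ⧸ Q) := ⟨fun x => by
    obtain ⟨x, rfl⟩ := Ideal.Quotient.mk_surjective x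
    obtain ⟨P, hP, hP0⟩ := hint x
    refine ⟨P.map (Ideal.Quotient.mk _), hP.map _, ?_⟩
    rw [Polynomial.eval₂_map, show (algebraMap (R ⧸ RingHom.ker f) (S ⧸ Q)).comp
      (Ideal.Quotient.mk _) = (Ideal.Quotient.mk Q).comp i from RingHom.ext fun _ => rfl,
      ← Polynomial.hom_eval₂, hP0, map_zero]⟩
  have : Algebra.IsAlgebraic (R ⧸ RingHom.ker f) (S ⧸ Q) := Algebra.IsIntegral.isAlgebraic
  let g : S ⧸ Q →ₐ[R ⧸ RingHom.ker f] Ω := IsAlgClosed.lift
  exact ⟨g.toRingHom.comp (Ideal.Quotient.mk Q),
    RingHom.ext fun r => g.commutes (Ideal.Quotient.mk _ r)⟩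

/-- A finite extension of `O` by a complete discrete valuation ring with finite residue field and
characteristic zero, into which `O` embeds by a local map. -/
structure DVRExt (O : Type) [CommRing O] : Type 1 where
  /-- The ring. -/
  carrier : Type
  [commRing : CommRing carrier]
  [isDomain : IsDomain carrier]
  [isDVR : IsDiscreteValuationRing carrier]
  [complete : IsAdicComplete (IsLocalRing.maximalIdeal carrier) carrier]
  [finiteResidue : Finite (IsLocalRing.ResidueField carrier)]
  [charZero : CharZero carrier]
  [algebra : Algebra O carrier]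
  [moduleFinite : Module.Finite O carrier]
  [localHom : IsLocalHom (algebraMap O carrier)]
  /-- The structure map is injective. -/
  injective : Function.Injective (algebraMap O carrier)

attribute [instance] DVRExt.commRing DVRExt.isDomain DVRExt.isDVR DVRExt.complete
  DVRExt.finiteResidue DVRExt.charZero DVRExt.algebra DVRExt.moduleFinite DVRExt.localHom

variable {O : Type} [CommRing O] [IsDomain O] [IsDiscreteValuationRing O]
  [IsAdicComplete (IsLocalRing.maximalIdeal O) O] [Finite (IsLocalRing.ResidueField O)] [CharZero O]

/-- A point of a finite algebra in an algebraic closure takes values in the ring of integers of a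
finite extension. -/
theorem exists_dvr_of_algHom (D : Type) [CommRing D] [Algebra O D] [Module.Finite O D]
    (g : D →ₐ[O] AlgebraicClosure (FractionRing O)) :
    ∃ (E : DVRExt O) (f : D →ₐ[O] E.carrier)
      (j : E.carrier →ₐ[O] AlgebraicClosure (FractionRing O)),
      Function.Injective j ∧ j.comp f = g := by
  classical
  set K := FractionRing O with hK
  set Ω := AlgebraicClosure K
  have : CharZero K := IsFractionRing.charZero_of_isFractionRing O
  have : Algebra.IsIntegral O D := Algebra.IsIntegral.of_finite O D
  obtain ⟨s, hs⟩ := Module.Finite.fg_top (R := O) (M := D)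
  -- the integral closure of `O` in the field of the image
  let L : IntermediateField K Ω := IntermediateField.adjoin K (g '' (s : Set D))
  have : FiniteDimensional K L := by
    have : Finite (g '' (s : Set D)) := (s.finite_toSet.image _).to_subtype
    exact IntermediateField.finiteDimensional_adjoin fun x _ =>
      (Algebra.IsIntegral.isIntegral (R := K) x)
  have hmem : ∀ d : D, g d ∈ L := fun d => by
    have hd : d ∈ Submodule.span O (s : Set D) := hs ▸ Submodule.mem_top
    induction hd using Submodule.span_induction with
    | mem x hx => exact IntermediateField.subset_adjoin K _ ⟨x, hx, rfl⟩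
    | zero => rw [map_zero]; exact zero_mem _
    | add x y _ _ hx hy => rw [map_add]; exact add_mem hx hy
    | smul c x _ hx =>
      rw [map_smul, Algebra.smul_def, IsScalarTower.algebraMap_apply O K Ω]
      exact mul_mem (L.algebraMap_mem _) hx
  let O' := integralClosure O L
  have : IsFractionRing O' L := IsIntegralClosure.isFractionRing_of_finite_extension O K L O'
  have : Module.Finite O O' := IsIntegralClosure.finite O K L O'
  have : IsDedekindDomain O' := IsIntegralClosure.isDedekindDomain O K L O'
  have : IsLocalRing O' := isLocalRing_of_finite_domain (O := O) O'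
  have hinjL : Function.Injective (algebraMap O L) := by
    rw [IsScalarTower.algebraMap_eq O K L]
    exact (algebraMap K L).injective.comp (IsFractionRing.injective O K)
  have hinj : Function.Injective (algebraMap O O') := by
    intro a b h
    exact hinjL (congrArg Subtype.val h)
  have : Algebra.IsIntegral O O' := Algebra.IsIntegral.of_finite O O'
  have hloc : IsLocalHom (algebraMap O O') := RingHom.IsIntegral.isLocalHom
    (fun x => Algebra.IsIntegral.isIntegral x) hinj
  have hnf : ¬ IsField O' := fun h =>
    IsDiscreteValuationRing.not_isField O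
      (isField_of_isIntegral_of_isField hinj h)
  -- it is a complete discrete valuation ring with finite residue field
  have : IsDiscreteValuationRing O' :=
    ((IsDiscreteValuationRing.TFAE O' hnf).out 2 0).mp ‹IsDedekindDomain O'›
  have : IsAdicComplete (IsLocalRing.maximalIdeal O') O' :=
    IsLocalRing.isAdicComplete_of_module_finite (𝒪 := O)
  have : Finite (IsLocalRing.ResidueField O') := by
    have : Module.Finite (IsLocalRing.ResidueField O) (IsLocalRing.ResidueField O') :=
      Module.Finite.of_restrictScalars_finite O _ _
    exact Module.finite_of_finite (IsLocalRing.ResidueField O)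
  have : CharZero O' := charZero_of_injective_algebraMap hinj
  let j : O' →ₐ[O] Ω := (L.val.restrictScalars O).comp (O'.val)
  have hj : Function.Injective j := fun a b h => Subtype.ext (L.val.injective h)
  have hval : ∀ d : D, (⟨g d, hmem d⟩ : L) ∈ O' := fun d =>
    (isIntegral_algHom_iff (L.val.restrictScalars O) L.val.injective).mp
      ((Algebra.IsIntegral.isIntegral (R := O) d).map g)
  -- `g` factors through it
  let f : D →ₐ[O] O' :=
    { toFun := fun d => ⟨⟨g d, hmem d⟩, hval d⟩
      map_one' := Subtype.ext (Subtype.ext (map_one g))
      map_mul' := fun a b => Subtype.ext (Subtype.ext (map_mul g a b))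
      map_zero' := Subtype.ext (Subtype.ext (map_zero g))
      map_add' := fun a b => Subtype.ext (Subtype.ext (map_add g a b))
      commutes' := fun c => Subtype.ext (Subtype.ext (g.commutes c)) }
  exact ⟨{ carrier := O', localHom := hloc, injective := hinj }, f, j, hj,
    AlgHom.ext fun _ => rfl⟩

end Fermat.GR
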