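import Fermat.Agent.GR.ES.Input

/-!
# From the existence of specialisation maps to the congruence relation

`localClauses_of_specializationExists` deduces the two local clauses of `ESInput` from
specialisation maps.
-/

set_option autoImplicit false

noncomputable section

open ModularCurve

namespace Fermat.GR

variable {N p : ℕ} [NeZero N]

/-- The two local clauses of `ESInput`, deduced from specialisation maps. -/
theorem localClauses_of_specializationExists (hcomm : HeckeOperatorsCommuteBar N) :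
    letI := heckeModuleBar N
    ∀ (_ : SMulCommClass (AlgebraicClosure ℚ ≃ₐ[ℚ] AlgebraicClosure ℚ) HeckeAlg (JZero N)),
      SpecializationExists (K := ℚ) (L := AlgebraicClosure ℚ) N p (JZero N) →
      (∀ ℓ : ℕ, ℓ.Prime → ¬ ℓ ∣ N * p →
        ∀ A : ValuationSubring (AlgebraicClosure ℚ), A.LiesOverPrime ℓ →
          ∀ σ ∈ A.inertiaSubgroupIn ℚ, ∀ x : JZero N, (∃ n : ℕ, p ^ n • x = 0) → σ • x = x) ∧
      (∀ (ℓ : ℕ) (hℓ : ℓ.Prime), ¬ ℓ ∣ N * p →
        ∀ A : ValuationSubring (AlgebraicClosure ℚ), A.LiesOverPrime ℓ →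
          ∀ σ : AlgebraicClosure ℚ ≃ₐ[ℚ] AlgebraicClosure ℚ, A.IsFrobeniusAt σ ℓ →
            ∀ x : JZero N, (∃ n : ℕ, p ^ n • x = 0) →
              σ • σ • x - heckeOperatorBar N ⟨ℓ, hℓ⟩ (σ • x) + ℓ • x = 0) := by
  let inst : Module HeckeAlg (JZero N) := heckeModuleBar N
  intro hsc hspec
  constructor
  · intro ℓ hℓ hℓN A hA σ hσ x ⟨n, hx⟩
    obtain ⟨J', _, _, sp, F, hsp, -⟩ := hspec ℓ hℓ hℓN A hA
    -- inertia: specialisation is injective on `p`-power torsion
    refine sub_eq_zero.mp (hsp.injective_torsion _ ⟨n, ?_⟩ ?_)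
    · have h : σ • (p ^ n • x) = p ^ n • (σ • x) :=
        map_nsmul (DistribSMul.toAddMonoidHom (JZero N) σ) (p ^ n) x
      have h0 : σ • (0 : JZero N) = 0 :=
        map_zero (DistribSMul.toAddMonoidHom (JZero N) σ)
      rw [nsmul_sub, ← h, hx, h0, sub_zero]
    · rw [map_sub, hsp.inertia_comm σ hσ, sub_self]
  · intro ℓ hℓ hℓN A hA σ hσ x ⟨n, hx⟩
    obtain ⟨J', _, _, sp, F, hsp, hrel⟩ := hspec ℓ hℓ hℓN A hA
    rw [← heckeModuleBar_heckeGen_smul hcomm]
    -- Frobenius: likewise, check the relation after specialising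
    refine hsp.injective_torsion _ ⟨n, ?_⟩ ?_
    · have key : ∀ f : JZero N →+ JZero N, ∀ y : JZero N, p ^ n • y = 0 → p ^ n • f y = 0 :=
        fun f y hy => by rw [← map_nsmul f, hy, map_zero]
      have h1 := key (DistribSMul.toAddMonoidHom (JZero N) σ) x hx
      have h2 := key (DistribSMul.toAddMonoidHom (JZero N) σ) _ h1
      have h3 := key (DistribSMul.toAddMonoidHom (JZero N) (heckeGen ⟨ℓ, hℓ⟩ : HeckeAlg)) _ h1
      have h4 := key (nsmulAddMonoidHom ℓ) x hx
      simp only [DistribSMul.toAddMonoidHom_apply,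
        nsmulAddMonoidHom_apply] at h2 h3 h4
      rw [nsmul_add, nsmul_sub, h2, h3, h4, sub_zero, add_zero]
    · rw [map_add, map_sub, hsp.frobenius_comm σ hσ, hsp.frobenius_comm σ hσ,
        hsp.hecke_comm, hsp.frobenius_comm σ hσ, map_nsmul]
      exact hrel (sp x)

end Fermat.GR
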