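import Fermat.Agent.GR.ES.JZeroGalois
import Fermat.Agent.GR.ES.Specialization

/-!
# Building the Eichler-Shimura input

`ESInput.ofParts` assembles `ESInput` from the lattice, a twisted pairing and specialisation maps;
`JAC/X0/ESParts` supplies the parts.
-/

set_option autoImplicit false

noncomputable section

open ModularCurve

namespace Fermat.GR

local notation "Γℚ" => (AlgebraicClosure ℚ ≃ₐ[ℚ] AlgebraicClosure ℚ)

/-- A twisted Weil pairing on the `p`-power torsion of `J₀(N)`. -/
structure TwistedPairing {N p : ℕ} [NeZero N] (D : ESLattice N p) where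
  /-- The pairing on `p ^ n`-torsion, with multiplicative values. -/
  pair : ℕ → JZero N → JZero N → AlgebraicClosure ℚ
  /-- The values are `p ^ n`-th roots of unity. -/
  pair_pow : ∀ (n : ℕ) (x y : JZero N), p ^ n • x = 0 → p ^ n • y = 0 →
    pair n x y ^ (p ^ n) = 1
  /-- The pairing is additive in the first variable. -/
  pair_add_left : ∀ (n : ℕ) (x x' y : JZero N), p ^ n • x = 0 → p ^ n • x' = 0 → p ^ n • y = 0 →
    pair n (x + x') y = pair n x y * pair n x' y
  /-- Swapping the arguments inverts the value. -/
  pair_symm : ∀ (n : ℕ) (x y : JZero N), p ^ n • x = 0 → p ^ n • y = 0 →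
    pair n y x * pair n x y = 1
  /-- The pairing is Galois equivariant. -/
  pair_galois : ∀ (n : ℕ) (σ : Γℚ) (x y : JZero N), p ^ n • x = 0 → p ^ n • y = 0 →
    σ (pair n x y) = pair n (σ • x) (σ • y)
  /-- Hecke operators are self-adjoint. -/
  pair_act : ∀ (n : ℕ) (t : FullHecke N) (x y : JZero N), p ^ n • x = 0 → p ^ n • y = 0 →
    pair n (D.act t x) y = pair n x (D.act t y)
  /-- The left kernel is trivial. -/
  pair_nondeg : ∀ (n : ℕ) (x : JZero N), p ^ n • x = 0 →
    (∀ y : JZero N, p ^ n • y = 0 → pair n x y = 1) → x = 0

variable {N p : ℕ} [NeZero N] [Fact p.Prime]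

/-- **The Eichler-Shimura input**, from the lattice, the identification of the `U q`, the twisted
pairing and the existence of specialisation maps. -/
def ESInput.ofParts (D : ESLattice N p)
    (hU : ∀ (q : ℕ) (hq : q.Prime) (hqN : q ∣ N) (x : JZero N),
      D.act (CuspForm.heckeAlgebra.U hq hqN (Set.notMem_empty q)) x = heckeOperatorBar N ⟨q, hq⟩ x)
    (P : TwistedPairing D) (hcomm : HeckeOperatorsCommuteBar N)
    (hspec : letI := heckeModuleBar N
      ∀ (_ : SMulCommClass Γℚ HeckeAlg (JZero N)),
        SpecializationExists (K := ℚ) (L := AlgebraicClosure ℚ) N p (JZero N)) :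
    ESInput N p :=
  { D with
    exists_field := D.exists_field
    galois_act := fun σ t x => D.galois_act σ t hU x
    pair := P.pair
    pair_pow := P.pair_pow
    pair_add_left := P.pair_add_left
    pair_symm := P.pair_symm
    pair_galois := P.pair_galois
    pair_act := P.pair_act
    pair_nondeg := P.pair_nondeg
    inertia_smul :=
      (localClauses_of_specializationExists hcomm (smulCommClass_heckeModuleBar hcomm)
        (hspec (smulCommClass_heckeModuleBar hcomm))).1
    frobenius_quadratic :=
      (localClauses_of_specializationExists hcomm (smulCommClass_heckeModuleBar hcomm)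
        (hspec (smulCommClass_heckeModuleBar hcomm))).2 }

end Fermat.GR
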