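import Fermat.Agent.GR.ES.Assembly
import Fermat.Agent.JAC.X0.ESParts
import Fermat.Agent.RED.Spec.Final

/-!
# The Eichler-Shimura input is available

`hasESInput`: `ESInput` exists at every level and prime, by the Jacobian (`JAC/X0/ESParts`) and its
reduction (`RED/Spec/Final`). It feeds the statements proved in `Assembly`.
-/

set_option autoImplicit false

namespace Fermat.GR

/-- The Eichler–Shimura input exists at every level and every prime. -/
theorem hasESInput : HasESInput := fun N p _ _ =>
  ⟨Fermat.JAC.X0.esInputOfSpec N p
    (Fermat.RED.specializationExists N p (Fermat.JAC.X0.heckeOperatorsCommuteBar N))⟩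

end Fermat.GR
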