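import Mathlib
import Fermat.Prelude.Def_AlgebraicCurve_Correspondence

/-!
# Correspondences commute with semilinear automorphisms

For semilinear automorphisms intertwined by both maps of a correspondence, the induced map on
`Pic⁰` commutes with them, provided all places have the same degree on both sides.
-/

set_option autoImplicit false

noncomputable section

open AlgebraicCurve
open scoped Pointwise

namespace Fermat.GR.Corr

variable {K F F' : Type*} [Field K] [Field F] [Field F'] [Algebra K F] [Algebra K F']
variable {g : SemilinearAut K F} {g' : SemilinearAut K F'}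

/-- Restriction of places commutes with intertwined semilinear automorphisms. -/
theorem restrictAlong_smul (φ : F →ₐ[K] F') (hφ : φ.toRingHom.IsIntegral)
    (h : SemilinearAut.IntertwinesAlong φ.toRingHom g g') (w : Place K F') :
    (g' • w).restrictAlong φ hφ = g • w.restrictAlong φ hφ := by
  let := algebraAlong φ
  have := isScalarTower_along φ
  have := isIntegral_along φ hφ
  refine Place.ext (SetLike.ext fun f => ?_)
  change f ∈ (g' • w.toValuationSubring).comap φ.toRingHom ↔
    f ∈ g • w.toValuationSubring.comap φ.toRingHom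
  rw [ValuationSubring.mem_comap, ValuationSubring.mem_pointwise_smul_iff_inv_smul_mem,
    ValuationSubring.mem_pointwise_smul_iff_inv_smul_mem, ValuationSubring.mem_comap, h.inv f]

/-- Ramification indices are invariant under intertwined automorphisms. -/
theorem ramificationIndexAlong_smul (φ : F →ₐ[K] F') (hφ : φ.toRingHom.IsIntegral)
    (h : SemilinearAut.IntertwinesAlong φ.toRingHom g g') (w : Place K F') :
    Place.ramificationIndexAlong φ (g' • w) = Place.ramificationIndexAlong φ w := by
  set v := w.restrictAlong φ hφ
  obtain ⟨π, hπ⟩ := IsDiscreteValuationRing.exists_irreducible v.toValuationSubring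
  have h1 := Place.ord_restrictAlong φ hφ w (π : F)
  have h2 := Place.ord_restrictAlong φ hφ (g' • w) (g • (π : F))
  rw [restrictAlong_smul φ hφ h, SemilinearAut.ord_smul,
    show φ (g • (π : F)) = g' • φ (π : F) from (h π).symm, SemilinearAut.ord_smul] at h2
  rw [v.ord_coe_irreducible hπ, mul_one] at h1 h2
  exact_mod_cast h2.symm.trans h1

/-- Pullback of divisors commutes with intertwined automorphisms. -/
theorem pullbackAlong_smul [HasPrincipalDivisors K F'] (φ : F →ₐ[K] F')
    (hφ : φ.toRingHom.IsIntegral) (h : SemilinearAut.IntertwinesAlong φ.toRingHom g g')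
    (D : Divisor K F) :
    Divisor.pullbackAlong φ hφ (g • D) = g' • Divisor.pullbackAlong φ hφ D := by
  refine Finsupp.ext fun w => ?_
  rw [SemilinearAut.divisor_smul_apply, Divisor.pullbackAlong_apply, Divisor.pullbackAlong_apply,
    SemilinearAut.divisor_smul_apply]
  have e1 := ramificationIndexAlong_smul φ hφ h (g'⁻¹ • w)
  rw [smul_inv_smul] at e1
  have e2 := restrictAlong_smul φ hφ h (g'⁻¹ • w)
  rw [smul_inv_smul] at e2
  rw [e1, e2, inv_smul_smul]

/-- Inertia degrees are invariant under intertwined automorphisms. -/
theorem inertiaDegAlong_smul (φ : F →ₐ[K] F') (hφ : φ.toRingHom.IsIntegral)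
    (h : SemilinearAut.IntertwinesAlong φ.toRingHom g g') (hdeg : ∀ v : Place K F, 0 < v.deg)
    (w : Place K F') : (g' • w).inertiaDegAlong φ hφ = w.inertiaDegAlong φ hφ := by
  let := algebraAlong φ
  have := isScalarTower_along φ
  have := isIntegral_along φ hφ
  have h1 : (w.restrictAlong φ hφ).deg * w.inertiaDegAlong φ hφ = w.deg :=
    w.deg_restrict_mul_inertiaDeg (F := F)
  have h2 : ((g' • w).restrictAlong φ hφ).deg * (g' • w).inertiaDegAlong φ hφ = (g' • w).deg :=
    (g' • w).deg_restrict_mul_inertiaDeg (F := F)
  rw [restrictAlong_smul φ hφ h, SemilinearAut.deg_smul, SemilinearAut.deg_smul, ← h1] at h2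
  exact Nat.eq_of_mul_eq_mul_left (hdeg _) h2

/-- Push-forward of divisors commutes with intertwined automorphisms. -/
theorem pushforwardAlong_smul (φ : F →ₐ[K] F') (hφ : φ.toRingHom.IsIntegral)
    (h : SemilinearAut.IntertwinesAlong φ.toRingHom g g') (hdeg : ∀ v : Place K F, 0 < v.deg)
    (D : Divisor K F') :
    Divisor.pushforwardAlong φ hφ (g' • D) = g • Divisor.pushforwardAlong φ hφ D := by
  induction D using Finsupp.induction with
  | zero => simp
  | single_add w n D _ _ ih =>
    rw [smul_add, map_add, map_add, smul_add, ih, SemilinearAut.smul_single,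
      Divisor.pushforwardAlong_single, Divisor.pushforwardAlong_single, SemilinearAut.smul_single,
      restrictAlong_smul φ hφ h, inertiaDegAlong_smul φ hφ h hdeg]

/-- A correspondence on `Pic⁰` commutes with intertwined automorphisms. -/
theorem correspondence_smul [HasPrincipalDivisors K F'] (φ ψ : F →ₐ[K] F')
    (hφ : φ.toRingHom.IsIntegral) (hψ : ψ.toRingHom.IsIntegral)
    (hFI : FundamentalIdentityAlong K φ hφ) (hfin : FiniteAlong K ψ)
    (hN : NormFormulaAlong K ψ hfin)
    (hgφ : SemilinearAut.IntertwinesAlong φ.toRingHom g g')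
    (hgψ : SemilinearAut.IntertwinesAlong ψ.toRingHom g g')
    (hdeg : ∀ v : Place K F, 0 < v.deg) (x : Pic0 K F) :
    Pic0.correspondence φ ψ hφ hψ hFI hfin hN (g • x) =
      g • Pic0.correspondence φ ψ hφ hψ hFI hfin hN x := by
  obtain ⟨D, rfl⟩ := Pic0.mk_surjective x
  rw [SemilinearAut.pic0_smul_mk, Pic0.correspondence_mk, Pic0.correspondence_mk,
    SemilinearAut.pic0_smul_mk]
  refine congrArg Pic0.mk (Subtype.ext ?_)
  simp only [Pic0.coe_degZeroCorrespondence, SemilinearAut.coe_degZeroSMulHom,
    Divisor.correspondence_apply, pullbackAlong_smul φ hφ hgφ, pushforwardAlong_smul ψ hψ hgψ hdeg]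

end Fermat.GR.Corr
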