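import Mathlib
import Fermat.Prelude.Def_FLTPrelim_Ramification
import Fermat.Prelude.Def_EllipticCurve_FrobeniusTrace

/-!
# Eichler-Shimura data for an arbitrary Hecke module

`ESData R J M p T ε` records what is needed to attach Galois representations to a Hecke ring `R`
acting on an abelian group `J` with Galois action: a lattice description of the `p`-power torsion
that is free of rank two up to an index, a twisted self-adjoint Weil pairing with multiplier
`δ σ` times the cyclotomic character, and the congruence relation at `ℓ ∤ M p`, with `T ℓ` the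
Hecke operator and `ε ℓ` the diamond operator.

It is the interface of this folder: `Lattice`, `Rep`, `Scaled` and `Point` turn it into
representations; it is provided for `X₀(N)` by `Gamma0` and for `X_H(N)` by `RED/Full/Eichler`.
-/

set_option autoImplicit false

noncomputable section

namespace Fermat.GR

local notation "Γℚ" => (AlgebraicClosure ℚ ≃ₐ[ℚ] AlgebraicClosure ℚ)

/-- Eichler–Shimura data for a Hecke ring `R` acting on `J`: a lattice model of the `p`-power
torsion of rank two up to an index, Galois action, twisted Weil pairing, and the congruence relation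
at `ℓ ∤ M p`. -/
structure ESData (R : Type) [CommRing R] (J : Type) [AddCommGroup J] [DistribMulAction Γℚ J]
    (M p : ℕ) (T ε : ℕ → R) : Type 1 where
  /-- The action of `R` on `J`. -/
  act : R →+* AddMonoid.End J
  /-- The lattice. -/
  Λ : Type
  [instAddCommGroup : AddCommGroup Λ]
  [instModule : Module R Λ]
  /-- `π n l` is the image of `l / p ^ n` in `J`. -/
  π : ℕ → Λ →+ J
  /-- `π n` is onto the `p ^ n`-torsion. -/
  exists_π : ∀ (n : ℕ) (x : J), p ^ n • x = 0 → ∃ l, π n l = x
  /-- The kernel of `π n` is `p ^ n Λ`. -/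
  π_eq_zero_iff : ∀ (n : ℕ) (l : Λ), π n l = 0 ↔ ∃ m : Λ, p ^ n • m = l
  /-- Multiplication by `p` lowers the level by one. -/
  p_smul_π : ∀ (n : ℕ) (l : Λ), p • π (n + 1) l = π n l
  /-- `π n` is `R`-linear. -/
  π_smul : ∀ (n : ℕ) (t : R) (l : Λ), π n (t • l) = act t (π n l)
  /-- Two independent vectors span `Λ` up to an index `k`. -/
  exists_basis : ∃ k : ℕ, k ≠ 0 ∧ ∃ e : Fin 2 → Λ, LinearIndependent R e ∧
    ∀ l : Λ, k • l ∈ Submodule.span R (Set.range e)
  /-- Galois acts on the `p ^ n`-torsion through a finite extension. -/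
  exists_field : ∀ n : ℕ, ∃ L : IntermediateField ℚ (AlgebraicClosure ℚ), FiniteDimensional ℚ L ∧
    ∀ σ : Γℚ, (∀ a ∈ L, σ a = a) → ∀ x : J, p ^ n • x = 0 → σ • x = x
  /-- Galois commutes with the Hecke action. -/
  galois_act : ∀ (σ : Γℚ) (t : R) (x : J), σ • act t x = act t (σ • x)
  /-- The character `σ ↦ δ σ` twisting the pairing. -/
  δ : Γℚ → R
  /-- The twisted Weil pairing on `p ^ n`-torsion, with multiplicative values. -/
  pair : ℕ → J → J → AlgebraicClosure ℚ
  /-- The values are `p ^ n`-th roots of unity. -/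
  pair_pow : ∀ (n : ℕ) (x y : J), p ^ n • x = 0 → p ^ n • y = 0 → pair n x y ^ (p ^ n) = 1
  /-- The pairing is additive in the first variable. -/
  pair_add_left : ∀ (n : ℕ) (x x' y : J), p ^ n • x = 0 → p ^ n • x' = 0 → p ^ n • y = 0 →
    pair n (x + x') y = pair n x y * pair n x' y
  /-- Swapping the arguments inverts the value. -/
  pair_symm : ∀ (n : ℕ) (x y : J), p ^ n • x = 0 → p ^ n • y = 0 → pair n y x * pair n x y = 1
  /-- The pairing is Galois equivariant up to the twist `δ`. -/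
  pair_galois : ∀ (n : ℕ) (σ : Γℚ) (x y : J), p ^ n • x = 0 → p ^ n • y = 0 →
    σ (pair n (act (δ σ) x) y) = pair n (σ • x) (σ • y)
  /-- The ring acts by self-adjoint operators. -/
  pair_act : ∀ (n : ℕ) (t : R) (x y : J), p ^ n • x = 0 → p ^ n • y = 0 →
    pair n (act t x) y = pair n x (act t y)
  /-- The left kernel is trivial. -/
  pair_nondeg : ∀ (n : ℕ) (x : J), p ^ n • x = 0 →
    (∀ y : J, p ^ n • y = 0 → pair n x y = 1) → x = 0
  /-- Inertia at `ℓ ∤ M p` fixes the `p`-power torsion. -/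
  inertia_smul : ∀ ℓ : ℕ, ℓ.Prime → ¬ ℓ ∣ M * p →
    ∀ A : ValuationSubring (AlgebraicClosure ℚ), A.LiesOverPrime ℓ →
      ∀ σ ∈ A.inertiaSubgroupIn ℚ, ∀ x : J, (∃ n : ℕ, p ^ n • x = 0) → σ • x = x
  /-- Eichler–Shimura: Frobenius at `ℓ ∤ M p` is a root of `X² - T ℓ X + ℓ ε ℓ`. -/
  frobenius_quadratic : ∀ ℓ : ℕ, ℓ.Prime → ¬ ℓ ∣ M * p →
    ∀ A : ValuationSubring (AlgebraicClosure ℚ), A.LiesOverPrime ℓ →
      ∀ σ : Γℚ, A.IsFrobeniusAt σ ℓ → ∀ x : J, (∃ n : ℕ, p ^ n • x = 0) →
        σ • σ • x - act (T ℓ) (σ • x) + ℓ • act (ε ℓ) x = 0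
  /-- The twist at a Frobenius at `ℓ` is `ε ℓ`. -/
  δ_frobenius : ∀ ℓ : ℕ, ℓ.Prime → ¬ ℓ ∣ M * p →
    ∀ A : ValuationSubring (AlgebraicClosure ℚ), A.LiesOverPrime ℓ →
      ∀ σ : Γℚ, A.IsFrobeniusAt σ ℓ → δ σ = ε ℓ

attribute [instance] ESData.instAddCommGroup ESData.instModule

end Fermat.GR
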