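import Mathlib
import Fermat.Prelude.Def_ModularCurve_HeckeModule
import Fermat.Prelude.Def_CuspForm_HeckeAlgebra

/-!
# Input of the Eichler-Shimura construction

The properties of `J₀(N)(ℚ̄)[p^∞]` from which the Galois representations attached to the Hecke
algebra are built.  `ESLattice` is the analytic part (uniformisation), `ESInput` adds the Galois
and reduction parts.  `Gamma0` reads it as `ESData`; it is built by `Build` and `JAC/X0/ESParts`
and available at all levels by `HasInput`.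
-/

set_option autoImplicit false

noncomputable section

open ModularCurve

namespace Fermat.GR

local notation "Γℚ" => (AlgebraicClosure ℚ ≃ₐ[ℚ] AlgebraicClosure ℚ)

/-- The full Hecke algebra of weight two and level `Γ₀(N)`: all `T ℓ` and all `U q`. -/
abbrev FullHecke (N : ℕ) [NeZero N] :=
  ↥(CuspForm.heckeAlgebra N 2 (∅ : Set ℕ))

/-- Lattice description of the `p`-power torsion of `J₀(N)` as a Hecke module:
`π n l` is the image of `l / p ^ n`. -/
structure ESLattice (N p : ℕ) [NeZero N] : Type 1 where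
  /-- The action of the Hecke ring on `J₀(N)`. -/
  act : FullHecke N →+* AddMonoid.End (JZero N)
  /-- The generator `T ℓ` acts by the Hecke correspondence at `ℓ ∤ N`. -/
  act_T : ∀ (ℓ : ℕ) (hℓ : ℓ.Prime) (hℓN : ¬ ℓ ∣ N) (x : JZero N),
    act (CuspForm.heckeAlgebra.T hℓ hℓN (Set.notMem_empty ℓ)) x = heckeOperatorBar N ⟨ℓ, hℓ⟩ x
  /-- The lattice. -/
  Λ : Type
  [instAddCommGroup : AddCommGroup Λ]
  [instModule : Module (FullHecke N) Λ]
  [instFinite : Module.Finite ℤ Λ]
  [instFree : Module.Free ℤ Λ]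
  /-- `π n l` is the image of `l / p ^ n` in `J₀(N)`. -/
  π : ℕ → Λ →+ JZero N
  /-- `π n` is onto the `p ^ n`-torsion. -/
  exists_π : ∀ (n : ℕ) (x : JZero N), p ^ n • x = 0 → ∃ l, π n l = x
  /-- The kernel of `π n` is `p ^ n Λ`. -/
  π_eq_zero_iff : ∀ (n : ℕ) (l : Λ), π n l = 0 ↔ ∃ m : Λ, p ^ n • m = l
  /-- Multiplication by `p` lowers the level by one. -/
  p_smul_π : ∀ (n : ℕ) (l : Λ), p • π (n + 1) l = π n l
  /-- `π n` is Hecke linear. -/
  π_smul : ∀ (n : ℕ) (t : FullHecke N) (l : Λ), π n (t • l) = act t (π n l)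
  /-- Two independent vectors span `Λ` up to an index `k`. -/
  exists_basis : ∃ k : ℕ, k ≠ 0 ∧ ∃ e : Fin 2 → Λ, LinearIndependent (FullHecke N) e ∧
    ∀ l : Λ, k • l ∈ Submodule.span (FullHecke N) (Set.range e)

attribute [instance] ESLattice.instAddCommGroup ESLattice.instModule ESLattice.instFinite
  ESLattice.instFree

/-- The lattice together with the Galois action, the twisted Weil pairing
`pair n x y = e_{p^n}(x, w_N y)` and the Eichler-Shimura congruence relation. -/
structure ESInput (N p : ℕ) [NeZero N] extends ESLattice N p where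
  /-- Galois acts on the `p ^ n`-torsion through a finite extension. -/
  exists_field : ∀ n : ℕ, ∃ L : IntermediateField ℚ (AlgebraicClosure ℚ), FiniteDimensional ℚ L ∧
    ∀ σ : Γℚ, (∀ a ∈ L, σ a = a) → ∀ x : JZero N, p ^ n • x = 0 → σ • x = x
  /-- Galois commutes with the Hecke action. -/
  galois_act : ∀ (σ : Γℚ) (t : FullHecke N) (x : JZero N), σ • act t x = act t (σ • x)
  /-- The twisted Weil pairing on `p ^ n`-torsion, with multiplicative values. -/
  pair : ℕ → JZero N → JZero N → AlgebraicClosure ℚ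
  /-- The values are `p ^ n`-th roots of unity. -/
  pair_pow : ∀ (n : ℕ) (x y : JZero N), p ^ n • x = 0 → p ^ n • y = 0 →
    pair n x y ^ (p ^ n) = 1
  /-- The pairing is additive in the first variable. -/
  pair_add_left : ∀ (n : ℕ) (x x' y : JZero N), p ^ n • x = 0 → p ^ n • x' = 0 → p ^ n • y = 0 →
    pair n (x + x') y = pair n x y * pair n x' y
  /-- Swapping the arguments inverts the value. -/
  pair_symm : ∀ (n : ℕ) (x y : JZero N), p ^ n • x = 0 → p ^ n • y = 0 →
    pair n y x * pair n x y = 1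
  /-- The pairing is Galois equivariant. -/
  pair_galois : ∀ (n : ℕ) (σ : Γℚ) (x y : JZero N), p ^ n • x = 0 → p ^ n • y = 0 →
    σ (pair n x y) = pair n (σ • x) (σ • y)
  /-- Hecke operators are self-adjoint. -/
  pair_act : ∀ (n : ℕ) (t : FullHecke N) (x y : JZero N), p ^ n • x = 0 → p ^ n • y = 0 →
    pair n (act t x) y = pair n x (act t y)
  /-- The left kernel is trivial. -/
  pair_nondeg : ∀ (n : ℕ) (x : JZero N), p ^ n • x = 0 →
    (∀ y : JZero N, p ^ n • y = 0 → pair n x y = 1) → x = 0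
  /-- Inertia at `ℓ ∤ N p` fixes the `p`-power torsion. -/
  inertia_smul : ∀ ℓ : ℕ, ℓ.Prime → ¬ ℓ ∣ N * p →
    ∀ A : ValuationSubring (AlgebraicClosure ℚ), A.LiesOverPrime ℓ →
      ∀ σ ∈ A.inertiaSubgroupIn ℚ, ∀ x : JZero N, (∃ n : ℕ, p ^ n • x = 0) → σ • x = x
  /-- Eichler–Shimura: Frobenius at `ℓ ∤ N p` is a root of `X² - T ℓ X + ℓ`. -/
  frobenius_quadratic : ∀ (ℓ : ℕ) (hℓ : ℓ.Prime), ¬ ℓ ∣ N * p →
    ∀ A : ValuationSubring (AlgebraicClosure ℚ), A.LiesOverPrime ℓ →
      ∀ σ : Γℚ, A.IsFrobeniusAt σ ℓ → ∀ x : JZero N, (∃ n : ℕ, p ^ n • x = 0) →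
        σ • σ • x - heckeOperatorBar N ⟨ℓ, hℓ⟩ (σ • x) + ℓ • x = 0

end Fermat.GR
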