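import Fermat.Agent.GR.ES.CorrEquiv
import Fermat.Agent.GR.ES.Input
import Fermat.Agent.GR.RatInstances
import Fermat.Agent.MC.X0.Field
import Fermat.Agent.FF.API
import Fermat.Agent.JAC.FieldOfDef
import Fermat.Prelude.Thm_ModularCurve_coeffMap_qExpand

/-!
# Galois action on `J₀(N)(ℚ̄)`: open stabilisers, commutation with Hecke operators

Points are defined over number fields (`exists_field_fix_point`) and Galois commutes with the full
Hecke algebra (`galois_act`).
-/

set_option autoImplicit false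

noncomputable section

open ModularCurve

namespace Fermat.GR

local notation "ℚbar" => AlgebraicClosure ℚ
local notation "Γℚ" => (AlgebraicClosure ℚ ≃ₐ[ℚ] AlgebraicClosure ℚ)

variable (N : ℕ) [NeZero N]

/-- The modular function field over `ℚ̄` is a function field in one variable. -/
theorem isFunctionField_modularFunctionFieldBar :
    Fermat.FF.IsFunctionField ℚbar (modularFunctionFieldBar N) :=
  Fermat.MC.isFunctionField_FN N (IsAlgClosed.lift : ℚbar →ₐ[ℚ] ℂ).toRingHom

variable {N}

omit [NeZero N] in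
/-- A function is fixed by the automorphisms fixing a finite extension. -/
theorem exists_field_fix_fun (f : modularFunctionFieldBar N) :
    ∃ L : IntermediateField ℚ ℚbar, FiniteDimensional ℚ L ∧ ∀ σ : Γℚ, (∀ a ∈ L, σ a = a) →
      arithmeticGalois (modularFunctionFieldFull N) σ • f = f := by
  obtain ⟨S, hS⟩ := JAC.exists_finset_fix (modularFunctionFieldFull N) f
  exact ⟨IntermediateField.adjoin ℚ (S : Set ℚbar),
    IntermediateField.finiteDimensional_adjoin fun a _ => Algebra.IsIntegral.isIntegral a,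
    fun σ hσ => hS σ fun a ha => hσ a (IntermediateField.subset_adjoin ℚ _ ha)⟩

/-- A point of `J₀(N)(ℚ̄)` is defined over a number field. -/
theorem exists_field_fix_point (x : JZero N) :
    ∃ L : IntermediateField ℚ ℚbar, FiniteDimensional ℚ L ∧
      ∀ σ : Γℚ, (∀ a ∈ L, σ a = a) → σ • x = x :=
  have := isFunctionField_modularFunctionFieldBar N
  (JAC.exists_field_of_finite (modularFunctionFieldFull N) (Set.finite_singleton x)).imp
    fun _ h => ⟨h.1, fun σ hσ => h.2 σ hσ x rfl⟩

/-- A finite set of points is defined over one number field. -/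
theorem exists_field_fix_set {S : Set (JZero N)} (hS : S.Finite) :
    ∃ L : IntermediateField ℚ ℚbar, FiniteDimensional ℚ L ∧
      ∀ σ : Γℚ, (∀ a ∈ L, σ a = a) → ∀ x ∈ S, σ • x = x :=
  have := isFunctionField_modularFunctionFieldBar N
  JAC.exists_field_of_finite (modularFunctionFieldFull N) hS

/-- **The Hecke operators commute with the Galois action.** -/
theorem heckeOperatorBar_smul (ℓ : Nat.Primes) (σ : Γℚ) (x : JZero N) :
    heckeOperatorBar N ℓ (σ • x) = σ • heckeOperatorBar N ℓ x := by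
  have : NeZero (ℓ : ℕ) := ⟨ℓ.2.ne_zero⟩
  rw [heckeOperatorBar_apply, heckeOperatorBar_apply]
  by_cases h : HeckeInputsAlong ℚbar N ℓ
  · obtain ⟨hα, hβ, hP, hfin, hFI, hN⟩ := h
    have := hP
    rw [heckeOperatorAlong_eq hα hβ hFI hfin hN, galois_smul_pic0_def, galois_smul_pic0_def]
    have := isFunctionField_modularFunctionFieldBar N
    exact Corr.correspondence_smul _ _ hβ hα hFI hfin hN
      (g' := arithmeticGalois (modularFunctionFieldFull (N * ℓ)) σ)
      (fun y => Subtype.ext (by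
        change coeffMap (σ : ℚbar →+* ℚbar) (qExpand ℚbar (ℓ : ℕ) (y : LaurentSeries ℚbar)) =
          qExpand ℚbar (ℓ : ℕ) (coeffMap (σ : ℚbar →+* ℚbar) (y : LaurentSeries ℚbar))
        exact coeffMap_qExpand _ _ _))
      (fun y => Subtype.ext (by
        rw [coe_arithmeticGalois_smul]
        change coeffMap _ (heckeAlphaBar ℚbar N ℓ y : LaurentSeries ℚbar) =
          (heckeAlphaBar ℚbar N ℓ _ : LaurentSeries ℚbar)
        rw [coe_heckeAlphaBar, coe_heckeAlphaBar]
        rfl))
      (fun v => by rw [Fermat.FF.deg_eq_one]; exact one_pos) x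
  · rw [heckeOperatorAlong_of_not h]
    exact (map_zero (DistribSMul.toAddMonoidHom (JZero N) σ)).symm

/-- The hypothesis of S37 on commutation holds. -/
theorem smulCommClass_heckeModuleBar (hcomm : HeckeOperatorsCommuteBar N) :
    letI := heckeModuleBar N
    SMulCommClass Γℚ HeckeAlg (JZero N) := by
  let inst : Module HeckeAlg (JZero N) := heckeModuleBar N
  refine ⟨fun σ t x => ?_⟩
  induction t using MvPolynomial.induction_on generalizing x with
  | C a =>
    rw [heckeModuleBar_C_smul, heckeModuleBar_C_smul]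
    exact map_zsmul (DistribSMul.toAddMonoidHom (JZero N) σ) a x
  | add t t' ht ht' => rw [add_smul, add_smul, smul_add, ht, ht']
  | mul_X t i ht =>
    rw [mul_smul, mul_smul, ht]
    congr 1
    change σ • (heckeGen i • x) = heckeGen i • (σ • x)
    rw [heckeModuleBar_heckeGen_smul hcomm, heckeModuleBar_heckeGen_smul hcomm,
      heckeOperatorBar_smul]

namespace ESLattice

variable {p : ℕ} (D : ESLattice N p)

include D in
/-- The `p ^ n`-torsion of `J₀(N)(ℚ̄)` is finite. -/
theorem finite_torsion [Fact p.Prime] (n : ℕ) : {x : JZero N | p ^ n • x = 0}.Finite := by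
  set f : D.Λ →+ JZero N := D.π n
  let K : Submodule ℤ D.Λ := LinearMap.range (LinearMap.lsmul ℤ D.Λ ((p ^ n : ℕ) : ℤ))
  have hfin : Finite (D.Λ ⧸ K) := by
    have : Module.Finite ℤ (D.Λ ⧸ K) := inferInstance
    refine Module.finite_of_fg_torsion (D.Λ ⧸ K) fun {x} => ?_
    obtain ⟨l, rfl⟩ := Submodule.Quotient.mk_surjective K x
    refine ⟨⟨((p ^ n : ℕ) : ℤ), mem_nonZeroDivisors_of_ne_zero
      (by exact_mod_cast pow_ne_zero n (Fact.out : p.Prime).ne_zero)⟩, ?_⟩
    change ((p ^ n : ℕ) : ℤ) • Submodule.Quotient.mk (p := K) l = 0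
    rw [← Submodule.Quotient.mk_smul, Submodule.Quotient.mk_eq_zero]
    exact ⟨l, rfl⟩
  refine ((Set.finite_range fun q : D.Λ ⧸ K => f (Quotient.out q))).subset fun x hx => ?_
  obtain ⟨l, rfl⟩ := D.exists_π n x hx
  refine ⟨Submodule.Quotient.mk l, ?_⟩
  obtain ⟨m, hm⟩ := (Submodule.Quotient.eq K).mp
    (Quotient.out_eq (Submodule.Quotient.mk (p := K) l))
  change f (Quotient.out (Submodule.Quotient.mk (p := K) l)) = f l
  rw [← sub_eq_zero, ← map_sub, ← hm, D.π_eq_zero_iff]
  exact ⟨m, (Nat.cast_smul_eq_nsmul ℤ _ _).symm⟩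

include D in
/-- The field of `p`-power torsion of bounded order. -/
theorem exists_field [Fact p.Prime] (n : ℕ) :
    ∃ L : IntermediateField ℚ ℚbar, FiniteDimensional ℚ L ∧
      ∀ σ : Γℚ, (∀ a ∈ L, σ a = a) → ∀ x : JZero N, p ^ n • x = 0 → σ • x = x := by
  obtain ⟨L, hL, h⟩ := exists_field_fix_set (D.finite_torsion n)
  exact ⟨L, hL, fun σ hσ x hx => h σ hσ x hx⟩

/-- Galois commutes with the full Hecke algebra on `J₀(N)`. -/
theorem galois_act (σ : Γℚ) (t : FullHecke N)
    (hU : ∀ (q : ℕ) (hq : q.Prime) (hqN : q ∣ N) (x : JZero N),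
      D.act (CuspForm.heckeAlgebra.U hq hqN (Set.notMem_empty q)) x = heckeOperatorBar N ⟨q, hq⟩ x)
    (x : JZero N) : σ • D.act t x = D.act t (σ • x) := by
  obtain ⟨t, ht⟩ := t
  unfold CuspForm.heckeAlgebra at ht
  induction ht using Algebra.adjoin_induction generalizing x with
  | mem y hy =>
    rcases hy with ⟨ℓ, hℓ, hℓN, -, rfl⟩ | ⟨q, hqN, hq, -, rfl⟩
    · exact ((congrArg (σ • ·) (D.act_T ℓ hℓ hℓN x)).trans
        (heckeOperatorBar_smul ⟨ℓ, hℓ⟩ σ x).symm).trans (D.act_T ℓ hℓ hℓN (σ • x)).symm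
    · exact ((congrArg (σ • ·) (hU q hq hqN x)).trans
        (heckeOperatorBar_smul ⟨q, hq⟩ σ x).symm).trans (hU q hq hqN (σ • x)).symm
  | algebraMap a =>
    have ha : ∀ y, D.act (algebraMap ℤ (FullHecke N) a) y = a • y := fun y => by simp
    exact ((congrArg (σ • ·) (ha x)).trans
      (map_zsmul (DistribSMul.toAddMonoidHom (JZero N) σ) a x)).trans (ha (σ • x)).symm
  | add y y' hy0 hy0' hy hy' =>
    change σ • D.act (⟨y, hy0⟩ + ⟨y', hy0'⟩) x = D.act (⟨y, hy0⟩ + ⟨y', hy0'⟩) (σ • x)
    rw [map_add]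
    change σ • (D.act _ x + D.act _ x) = D.act _ (σ • x) + D.act _ (σ • x)
    rw [smul_add, hy, hy']
  | mul y y' hy0 hy0' hy hy' =>
    change σ • D.act (⟨y, hy0⟩ * ⟨y', hy0'⟩) x = D.act (⟨y, hy0⟩ * ⟨y', hy0'⟩) (σ • x)
    rw [map_mul]
    change σ • D.act _ (D.act _ x) = D.act _ (D.act _ (σ • x))
    rw [hy, hy']

end ESLattice

end Fermat.GR
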