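import Fermat.Agent.GR.ES.Input
import Fermat.Agent.GR.ES.Data
import Fermat.Agent.MC.IntStructure

/-!
# The input for `J₀(N)` as Eichler-Shimura data

`ESInput.toData` turns an `ESInput` into Eichler-Shimura data with trivial diamond operators.
-/

set_option autoImplicit false

noncomputable section

open ModularCurve

namespace Fermat.GR

/-- The full Hecke algebra is finite over `ℤ`. -/
instance fullHeckeFinite (N : ℕ) [NeZero N] : Module.Finite ℤ (FullHecke N) :=
  Fermat.MC.moduleFinite_heckeAlgebra N 2 ∅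

/-- The full Hecke algebra is free over `ℤ`. -/
instance fullHeckeFree (N : ℕ) [NeZero N] : Module.Free ℤ (FullHecke N) :=
  Module.free_of_finite_type_torsion_free'

open Classical in
/-- `T ℓ` for a prime `ℓ ∤ N`, and zero otherwise. -/
def heckeT0 (N : ℕ) [NeZero N] (ℓ : ℕ) : FullHecke N :=
  if h : ℓ.Prime ∧ ¬ ℓ ∣ N then CuspForm.heckeAlgebra.T h.1 h.2 (Set.notMem_empty ℓ) else 0

/-- At a good prime `heckeT0` is `T ℓ`. -/
theorem heckeT0_eq {N : ℕ} [NeZero N] {ℓ : ℕ} (hℓ : ℓ.Prime) (hℓN : ¬ ℓ ∣ N) :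
    heckeT0 N ℓ = CuspForm.heckeAlgebra.T hℓ hℓN (Set.notMem_empty ℓ) := by
  rw [heckeT0, dif_pos ⟨hℓ, hℓN⟩]

/-- The Eichler-Shimura data of `J₀(N)`: trivial diamond operators. -/
def ESInput.toData {N p : ℕ} [NeZero N] (D : ESInput N p) :
    ESData (FullHecke N) (JZero N) N p (heckeT0 N) (fun _ => 1) where
  act := D.act
  Λ := D.Λ
  π := D.π
  exists_π := D.exists_π
  π_eq_zero_iff := D.π_eq_zero_iff
  p_smul_π := D.p_smul_π
  π_smul := D.π_smul
  exists_basis := D.exists_basis
  exists_field := D.exists_field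
  galois_act := D.galois_act
  δ _ := 1
  pair := D.pair
  pair_pow := D.pair_pow
  pair_add_left := D.pair_add_left
  pair_symm := D.pair_symm
  pair_galois n σ x y hx hy := by
    rw [map_one]
    exact D.pair_galois n σ x y hx hy
  pair_act := D.pair_act
  pair_nondeg := D.pair_nondeg
  inertia_smul := D.inertia_smul
  frobenius_quadratic ℓ hℓ hℓp A hA σ hσ x hx := by
    have hℓN : ¬ ℓ ∣ N := fun h => hℓp (h.mul_right p)
    rw [heckeT0_eq hℓ hℓN, D.act_T ℓ hℓ hℓN, map_one]
    exact D.frobenius_quadratic ℓ hℓ hℓp A hA σ hσ x hx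
  δ_frobenius _ _ _ _ _ _ _ := rfl

end Fermat.GR
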