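import Mathlib

/-!
# The algebraic integers of `ℂ` as a ring of values

Homomorphisms into `IntC` are integral; homomorphisms out of it have integral values and, to a
domain of characteristic zero, are injective.
-/

set_option autoImplicit false

noncomputable section

namespace Fermat.GR

/-- The algebraic integers of `ℂ`. -/
abbrev IntC : Type := integralClosure ℤ ℂ

/-- Every ring homomorphism into the algebraic integers is integral. -/
theorem intC_isIntegral {R : Type} [CommRing R] (i : R →+* IntC) : i.IsIntegral := fun z =>
  RingHom.IsIntegral.tower_top (Int.castRingHom R) i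
    (fun w => by
      rw [show i.comp (Int.castRingHom R) = algebraMap ℤ IntC from RingHom.ext_int _ _]
      exact Algebra.IsIntegral.isIntegral (R := ℤ) w) z

/-- The image of an algebraic integer under a ring homomorphism is integral over `ℤ`. -/
theorem isIntegral_int_map {Ω : Type} [CommRing Ω] (G : IntC →+* Ω) (z : IntC) :
    IsIntegral ℤ (G z) := (Algebra.IsIntegral.isIntegral (R := ℤ) z).map G.toIntAlgHom

/-- A homomorphism of the algebraic integers into a domain of characteristic zero is injective. -/
theorem injective_of_intC {Ω : Type*} [CommRing Ω] [IsDomain Ω] [CharZero Ω]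
    (G : IntC →+* Ω) : Function.Injective G := by
  rw [RingHom.injective_iff_ker_eq_bot]
  have := RingHom.ker_isPrime G
  refine Ideal.eq_bot_of_comap_eq_bot (R := ℤ) ?_
  rw [RingHom.comap_ker, show G.comp (algebraMap ℤ IntC) = Int.castRingHom Ω from
    RingHom.ext_int _ _]
  exact (RingHom.injective_iff_ker_eq_bot _).mp (Int.castRingHom _).injective_int

end Fermat.GR

end
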