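import Fermat.Agent.GR.ES.Point
import Fermat.Agent.GR.ES.Gamma0
import Fermat.Agent.GR.ES.DVRExt
import Fermat.Prelude.Def_GaloisRep_Adic

/-!
# Galois representations attached to points of the Hecke algebra of `Γ₀(N)`

`galoisRep_of_point` deduces the conclusion of S30 from the Eichler-Shimura input.
-/

set_option autoImplicit false

noncomputable section

open Polynomial

namespace Fermat.GR

local notation "ℚbar" => AlgebraicClosure ℚ
local notation "Γℚ" => (AlgebraicClosure ℚ ≃ₐ[ℚ] AlgebraicClosure ℚ)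

/-- Extension of a point of an anemic Hecke algebra to the full one, after a finite extension. -/
theorem exists_full_point (N : ℕ) [NeZero N] (S : Set ℕ) (O : Type) [CommRing O] [IsDomain O]
    [IsDiscreteValuationRing O] [IsAdicComplete (IsLocalRing.maximalIdeal O) O]
    [Finite (IsLocalRing.ResidueField O)] [CharZero O]
    (χ : CuspForm.heckeAlgebra N 2 S →+* O) :
    ∃ (E : DVRExt O) (f : FullHecke N →+* E.carrier), ∀ t : CuspForm.heckeAlgebra N 2 S,
      f (Subalgebra.inclusion (CuspForm.heckeAlgebra_mono (Set.empty_subset S)) t) =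
        algebraMap O E.carrier (χ t) := by
  let i : ↥(CuspForm.heckeAlgebra N 2 S) →+* FullHecke N :=
    (Subalgebra.inclusion (CuspForm.heckeAlgebra_mono (Set.empty_subset S))).toRingHom
  let f0 : ↥(CuspForm.heckeAlgebra N 2 S) →+* AlgebraicClosure (FractionRing O) :=
    (algebraMap O (AlgebraicClosure (FractionRing O))).comp χ
  have hint : i.IsIntegral := fun x =>
    RingHom.IsIntegralElem.of_comp (f := algebraMap ℤ ↥(CuspForm.heckeAlgebra N 2 S)) (g := i) <| by
      obtain ⟨P, hP, hP0⟩ := Algebra.IsIntegral.isIntegral (R := ℤ) x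
      refine ⟨P, hP, ?_⟩
      rwa [show i.comp (algebraMap ℤ _) = algebraMap ℤ (FullHecke N) from Subsingleton.elim _ _]
  obtain ⟨g, hg⟩ := exists_extend_algClosed i (Subalgebra.inclusion_injective _) hint f0
  let D := TensorProduct ℤ O (FullHecke N)
  let gD : D →ₐ[O] AlgebraicClosure (FractionRing O) :=
    Algebra.TensorProduct.lift (Algebra.ofId O _)
      ({ g with commutes' := fun n => by simp } : FullHecke N →ₐ[ℤ] AlgebraicClosure
        (FractionRing O))
      fun _ _ => Commute.all _ _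
  obtain ⟨E, f, j, hj, hjf⟩ := exists_dvr_of_algHom D gD
  refine ⟨E,
    f.toRingHom.comp (Algebra.TensorProduct.includeRight :
      FullHecke N →ₐ[ℤ] TensorProduct ℤ O (FullHecke N)).toRingHom, fun t => hj ?_⟩
  change j (f _) = _
  rw [← AlgHom.comp_apply, hjf, j.commutes]
  exact (Algebra.TensorProduct.lift_tmul _ _ _ (1 : O) _).trans
    ((by rw [map_one, one_mul]; rfl : _ = g (i t)).trans (RingHom.congr_fun hg t))

/-- The conclusion of S30 from the Eichler-Shimura input. -/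
theorem galoisRep_of_point (p : ℕ) [Fact p.Prime] (N : ℕ) [NeZero N] (S : Finset ℕ)
    (D : ESInput N p) (hpS : p ∈ S)
    (O : Type) [CommRing O] [IsDomain O] [IsDiscreteValuationRing O]
    [IsAdicComplete (IsLocalRing.maximalIdeal O) O] [Finite (IsLocalRing.ResidueField O)]
    [CharZero O] (hp : (p : O) ∈ IsLocalRing.maximalIdeal O)
    (χ : CuspForm.heckeAlgebra N 2 (↑S : Set ℕ) →+* O) :
    ∃ (O' : Type) (_ : CommRing O') (_ : IsDomain O') (_ : IsDiscreteValuationRing O')
      (_ : IsAdicComplete (IsLocalRing.maximalIdeal O') O')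
      (_ : Finite (IsLocalRing.ResidueField O')) (_ : CharZero O')
      (_ : Algebra O O') (_ : Module.Finite O O') (_ : IsLocalHom (algebraMap O O')),
      Function.Injective (algebraMap O O') ∧
      ∃ ρ : GaloisRepAdic O',
        (∀ (ℓ : ℕ) (hℓ : ℓ.Prime) (hℓN : ¬ ℓ ∣ N) (hℓS : ℓ ∉ (↑S : Set ℕ)),
          ∀ A : ValuationSubring ℚbar, A.LiesOverPrime ℓ → ∀ σ : Γℚ, A.IsFrobeniusAt σ ℓ →
            LinearMap.charpoly (ρ.ρ σ) =
              X ^ 2 - C (algebraMap O O' (χ (CuspForm.heckeAlgebra.T hℓ hℓN hℓS))) * X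
                + C ((ℓ : O'))) ∧
        (∀ q : ℕ, q.Prime → ¬ q ∣ N → q ≠ p → ρ.IsUnramifiedAt q) := by
  obtain ⟨@⟨O', h1, h2, h3, h4, h5, h6, h7, h8, h9, hinj⟩, f, hf⟩ :=
    exists_full_point N (↑S : Set ℕ) O χ
  have hp' : (p : O') ∈ IsLocalRing.maximalIdeal O' := by
    rw [← map_natCast (algebraMap O O')]
    exact map_nonunit (algebraMap O O') _ hp
  obtain ⟨ρ, hcp, hur⟩ := D.toData.exists_galoisRepAdic hp' f
  have hdvd : ∀ q : ℕ, q.Prime → ¬ q ∣ N → q ≠ p → ¬ q ∣ N * p := fun q hq hqN hqp h =>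
    (hq.dvd_mul.mp h).elim hqN fun h' =>
      hqp ((Nat.prime_dvd_prime_iff_eq hq Fact.out).mp h')
  refine ⟨O', h1, h2, h3, h4, h5, h6, h7, h8, h9, hinj, ρ, fun ℓ hℓ hℓN hℓS A hA σ hσ => ?_,
    fun q hq hqN hqp => hur q hq (hdvd q hq hqN hqp)⟩
  have hℓp : ℓ ≠ p := fun h => hℓS (by simpa [h] using hpS)
  rw [hcp ℓ hℓ (hdvd ℓ hℓ hℓN hℓp) A hA σ hσ, map_one, mul_one, ← hf, heckeT0_eq hℓ hℓN]
  rfl

end Fermat.GR
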