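import Mathlib
import Fermat.Prelude.Def_GaloisRep_Adic

/-!
# Representations from scaled matrix families

A family `b σ` of matrices over a domain with `b σ * b τ = k • b (σ τ)` and `b 1 = k` gives an
honest representation on the lattice spanned by the images of the `b σ`.
-/

set_option autoImplicit false

noncomputable section

open Polynomial

namespace Fermat.GR

local notation "Γℚ" => (AlgebraicClosure ℚ ≃ₐ[ℚ] AlgebraicClosure ℚ)

variable {O : Type} [CommRing O] [IsDomain O] [IsPrincipalIdealRing O]
variable (b : Γℚ → Matrix (Fin 2) (Fin 2) O) (k : O)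

/-- The lattice spanned by the images of all `b σ`. -/
def scaledLattice : Submodule O (Fin 2 → O) := ⨆ σ, LinearMap.range (Matrix.mulVecLin (b σ))

omit [IsDomain O] [IsPrincipalIdealRing O] in
/-- The lattice contains the image of each `b σ`. -/
theorem mulVec_mem_scaledLattice (σ : Γℚ) (v : Fin 2 → O) :
    (b σ).mulVec v ∈ scaledLattice b :=
  Submodule.mem_iSup_of_mem σ ⟨v, rfl⟩

variable (hmul : ∀ σ τ, b σ * b τ = k • b (σ * τ))
include hmul

omit [IsDomain O] [IsPrincipalIdealRing O] in
/-- `b σ` maps the lattice into `k` times the lattice. -/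
theorem exists_scaled_action (σ : Γℚ) {x : Fin 2 → O} (hx : x ∈ scaledLattice b) :
    ∃ y ∈ scaledLattice b, k • y = (b σ).mulVec x := by
  refine Submodule.iSup_induction (motive := fun x => ∃ y ∈ scaledLattice b, k • y = (b σ).mulVec x)
    _ hx ?_ ⟨0, zero_mem _, by simp⟩ ?_
  · rintro τ _ ⟨v, rfl⟩
    refine ⟨(b (σ * τ)).mulVec v, mulVec_mem_scaledLattice b _ v, ?_⟩
    rw [Matrix.mulVecLin_apply, Matrix.mulVec_mulVec, hmul, Matrix.smul_mulVec]
  · rintro x y ⟨u, hu, hu'⟩ ⟨v, hv, hv'⟩
    exact ⟨u + v, add_mem hu hv, by rw [smul_add, hu', hv', Matrix.mulVec_add]⟩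

variable (hk : k ≠ 0)

/-- `σ` on the lattice. -/
def scaledEnd (σ : Γℚ) : Module.End O (scaledLattice b) where
  toFun x := ⟨(exists_scaled_action b k hmul σ x.2).choose,
    (exists_scaled_action b k hmul σ x.2).choose_spec.1⟩
  map_add' x y := by
    refine Subtype.ext (smul_right_injective _ hk (?_ : k • _ = k • _))
    have h := (exists_scaled_action b k hmul σ (x + y).2).choose_spec.2
    have hx := (exists_scaled_action b k hmul σ x.2).choose_spec.2
    have hy := (exists_scaled_action b k hmul σ y.2).choose_spec.2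
    exact h.trans ((Matrix.mulVec_add _ _ _).trans (((congrArg₂ (· + ·) hx hy).symm).trans
      (smul_add k _ _).symm))
  map_smul' c x := by
    refine Subtype.ext (smul_right_injective _ hk (?_ : k • _ = k • _))
    have h := (exists_scaled_action b k hmul σ (c • x).2).choose_spec.2
    have hx := (exists_scaled_action b k hmul σ x.2).choose_spec.2
    exact h.trans ((Matrix.mulVec_smul _ _ _).trans ((congrArg (c • ·) hx).symm.trans
      (smul_comm c k _)))

omit [IsPrincipalIdealRing O] in
/-- `k` times `scaledEnd σ` is `b σ`. -/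
theorem smul_scaledEnd (σ : Γℚ) (x : scaledLattice b) :
    k • ((scaledEnd b k hmul hk σ x : scaledLattice b) : Fin 2 → O) =
      (b σ).mulVec (x : Fin 2 → O) :=
  (exists_scaled_action b k hmul σ x.2).choose_spec.2

variable (hone : b 1 = k • (1 : Matrix (Fin 2) (Fin 2) O))
include hone hk

omit hk hmul [IsDomain O] [IsPrincipalIdealRing O] in
/-- The lattice contains `k O²`. -/
theorem smul_mem_scaledLattice (v : Fin 2 → O) : k • v ∈ scaledLattice b := by
  have := mulVec_mem_scaledLattice b 1 v
  rwa [hone, Matrix.smul_mulVec, Matrix.one_mulVec] at this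

/-- The representation on the lattice. -/
def scaledRep : Γℚ →* Module.End O (scaledLattice b) where
  toFun := scaledEnd b k hmul hk
  map_one' := LinearMap.ext fun x => Subtype.ext <| smul_right_injective _ hk (show k • _ = k • _ by
    rw [smul_scaledEnd, hone, Matrix.smul_mulVec, Matrix.one_mulVec, Module.End.one_apply])
  map_mul' σ τ := LinearMap.ext fun x => Subtype.ext <| smul_right_injective _ hk
    (show k • _ = k • _ by
      refine smul_right_injective _ hk (show k • _ = k • _ from ?_)
      rw [Module.End.mul_apply, smul_scaledEnd, smul_scaledEnd, ← Matrix.smul_mulVec, ← hmul,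
        ← Matrix.mulVec_mulVec, ← smul_scaledEnd b k hmul hk τ x, Matrix.mulVec_smul])

omit hmul in
/-- The lattice has rank two. -/
theorem finrank_scaledLattice : Module.finrank O (scaledLattice b) = 2 := by
  refine le_antisymm ((Submodule.finrank_le _).trans (Module.finrank_fin_fun O).le) ?_
  let f : (Fin 2 → O) →ₗ[O] scaledLattice b :=
    (LinearMap.lsmul O (Fin 2 → O) k).codRestrict _ (smul_mem_scaledLattice b k hone)
  have hf : Function.Injective f := fun u v h =>
    smul_right_injective (Fin 2 → O) hk (congrArg Subtype.val h)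
  simpa using LinearMap.finrank_le_finrank_of_injective hf

/-- The characteristic polynomial of the scaled representation from scaled trace and determinant. -/
theorem charpoly_scaledRep {σ : Γℚ} {t d : O} (ht : (b σ).trace = k * t)
    (hd : (b σ).det = k * k * d) :
    LinearMap.charpoly (scaledRep b k hmul hk hone σ) = X ^ 2 - C t * X + C d := by
  let bas : Module.Basis (Fin 2) O (scaledLattice b) :=
    (Module.Free.chooseBasis O (scaledLattice b)).reindex (Fintype.equivFinOfCardEq
      (by rw [← Module.finrank_eq_card_chooseBasisIndex, finrank_scaledLattice b k hk hone]))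
  set M := LinearMap.toMatrix bas bas (scaledRep b k hmul hk hone σ) with hM
  let P : Matrix (Fin 2) (Fin 2) O := Matrix.of fun i j => (bas j : Fin 2 → O) i
  have hPM : b σ * P = k • (P * M) := by
    ext i j
    have h := congrFun (smul_scaledEnd b k hmul hk σ (bas j)) i
    rw [show (scaledEnd b k hmul hk σ (bas j)) = ∑ l, M l j • bas l from
      (bas.sum_repr (scaledRep b k hmul hk hone σ (bas j))).symm.trans
        (by simp [hM, LinearMap.toMatrix_apply])] at h
    simp only [Fin.sum_univ_two, Submodule.coe_add, Submodule.coe_smul, Pi.smul_apply,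
      Pi.add_apply, smul_eq_mul] at h
    simp only [Matrix.mul_apply, Fin.sum_univ_two, Matrix.smul_apply, smul_eq_mul, P,
      Matrix.of_apply, Matrix.mulVec, dotProduct] at h ⊢
    linear_combination -h
  -- the basis matrix is invertible over the fraction field
  have hP : P.det ≠ 0 := by
    intro h0
    obtain ⟨v, hv, hv'⟩ := Matrix.exists_mulVec_eq_zero_iff.mpr h0
    have hz : (∑ j, v j • bas j : scaledLattice b) = 0 := Subtype.ext (funext fun i => by
      have := congrFun hv' i
      simpa [P, Matrix.mulVec, dotProduct, Fin.sum_univ_two, mul_comm] using this)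
    exact hv (funext (Fintype.linearIndependent_iff.mp bas.linearIndependent v hz))
  have hMd : M.det = d := by
    have h := congrArg Matrix.det hPM
    rw [Matrix.det_mul, Matrix.det_smul, Matrix.det_mul, hd, Fintype.card_fin] at h
    refine mul_left_cancel₀ (mul_ne_zero (mul_ne_zero hk hk) hP) ?_
    linear_combination -h
  have hMt : M.trace = t := by
    have h := congrArg (fun Y => (P.adjugate * Y).trace) hPM
    simp only [Matrix.mul_smul, Matrix.trace_smul, smul_eq_mul, ← Matrix.mul_assoc,
      Matrix.adjugate_mul, Matrix.smul_mul, Matrix.one_mul] at h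
    rw [Matrix.trace_mul_cycle, Matrix.mul_adjugate, Matrix.smul_mul, Matrix.one_mul,
      Matrix.trace_smul, ht, smul_eq_mul] at h
    refine mul_left_cancel₀ (mul_ne_zero hk hP) ?_
    linear_combination -h
  rw [← LinearMap.charpoly_toMatrix _ bas, ← hM, Matrix.charpoly_fin_two, hMt, hMd]

omit [IsPrincipalIdealRing O] in
/-- If `b σ = k` then `σ` acts trivially on the lattice. -/
theorem scaledRep_eq_one {σ : Γℚ} (h : b σ = k • (1 : Matrix (Fin 2) (Fin 2) O)) :
    scaledRep b k hmul hk hone σ = 1 :=
  LinearMap.ext fun x => Subtype.ext <| smul_right_injective _ hk (show k • _ = k • _ by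
    change k • ((scaledEnd b k hmul hk σ x : scaledLattice b) : Fin 2 → O) = _
    rw [smul_scaledEnd, h, Matrix.smul_mulVec, Matrix.one_mulVec, Module.End.one_apply])

omit [IsPrincipalIdealRing O] in
/-- Continuity of the representation on the lattice. -/
theorem isAdicContinuous_scaledRep [IsLocalRing O]
    (hcont : ∀ n : ℕ, ∃ L : IntermediateField ℚ (AlgebraicClosure ℚ), FiniteDimensional ℚ L ∧
      ∀ σ : Γℚ, (∀ x ∈ L, σ x = x) → ∀ i j,
        ((b σ - k • (1 : Matrix (Fin 2) (Fin 2) O)) i j) ∈
          Ideal.span {k * k} * IsLocalRing.maximalIdeal O ^ n) :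
    GaloisActionIsAdicContinuous O (scaledRep b k hmul hk hone) := by
  intro n
  obtain ⟨L, hL, h⟩ := hcont n
  refine ⟨L, hL, fun σ hσ x => ?_⟩
  have hi : ∀ i, ∃ z ∈ IsLocalRing.maximalIdeal O ^ n,
      k * k * z = ((b σ - k • (1 : Matrix (Fin 2) (Fin 2) O)).mulVec (x : Fin 2 → O)) i := by
    intro i
    refine Ideal.mem_span_singleton_mul.mp ?_
    rw [Matrix.mulVec, dotProduct]
    exact Ideal.sum_mem _ fun j _ => Ideal.mul_mem_right _ _ (h σ hσ i j)
  choose z hz hzeq using hi
  have heq : scaledRep b k hmul hk hone σ x - x =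
      ∑ i, z i • (⟨k • Pi.single i 1, smul_mem_scaledLattice b k hone _⟩ :
        scaledLattice b) := by
    refine Subtype.ext (smul_right_injective _ hk (show k • _ = k • _ from ?_))
    rw [Submodule.coe_sub, smul_sub, show k • ((scaledRep b k hmul hk hone σ x : scaledLattice b) :
      Fin 2 → O) = (b σ).mulVec (x : Fin 2 → O) from smul_scaledEnd b k hmul hk σ x]
    ext i
    have := hzeq i
    rw [Matrix.sub_mulVec, Matrix.smul_mulVec, Matrix.one_mulVec] at this
    fin_cases i <;> simp [Fin.sum_univ_two] at this ⊢ <;> linear_combination -this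
  rw [heq]
  exact Submodule.sum_mem _ fun i _ => Submodule.smul_mem_smul (hz i) Submodule.mem_top

omit [IsPrincipalIdealRing O] in
/-- A quadratic relation for `b σ`, scaled by `k`, holds on the lattice. -/
theorem scaledRep_quadratic {σ : Γℚ} {a c : O}
    (h : b σ * b σ - (k * a) • b σ + (k * k * c) • (1 : Matrix (Fin 2) (Fin 2) O) = 0) :
    scaledRep b k hmul hk hone σ * scaledRep b k hmul hk hone σ -
      a • scaledRep b k hmul hk hone σ + c • 1 = 0 :=
  LinearMap.ext fun x => Subtype.ext (by
    have e := congrArg (fun Y : Matrix (Fin 2) (Fin 2) O => Y.mulVec (x : Fin 2 → O)) h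
    simp only [Matrix.add_mulVec, Matrix.sub_mulVec, ← Matrix.mulVec_mulVec, Matrix.smul_mulVec,
      Matrix.one_mulVec, Matrix.zero_mulVec] at e
    refine smul_right_injective (Fin 2 → O) hk (show k • _ = k • _ from ?_)
    refine smul_right_injective (Fin 2 → O) hk (show k • _ = k • _ from ?_)
    change k • k • ((((scaledEnd b k hmul hk σ) (scaledEnd b k hmul hk σ x) -
      a • scaledEnd b k hmul hk σ x + c • x : scaledLattice b)) : Fin 2 → O) =
        k • k • (0 : Fin 2 → O)
    rw [smul_zero, smul_zero, Submodule.coe_add, Submodule.coe_sub, Submodule.coe_smul,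
      Submodule.coe_smul, smul_add, smul_sub, smul_scaledEnd, smul_comm k a, smul_scaledEnd,
      smul_add, smul_sub, ← Matrix.mulVec_smul, smul_scaledEnd]
    rw [← e]
    simp only [mul_smul, smul_comm k a])

/-- **A scaled family gives a Galois representation.** -/
theorem exists_galoisRepAdic_of_scaled [IsLocalRing O]
    (hcont : ∀ n : ℕ, ∃ L : IntermediateField ℚ (AlgebraicClosure ℚ), FiniteDimensional ℚ L ∧
      ∀ σ : Γℚ, (∀ x ∈ L, σ x = x) → ∀ i j,
        ((b σ - k • (1 : Matrix (Fin 2) (Fin 2) O)) i j) ∈
          Ideal.span {k * k} * IsLocalRing.maximalIdeal O ^ n) :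
    ∃ ρ : GaloisRepAdic O,
      (∀ (σ : Γℚ) (t d : O), (b σ).trace = k * t → (b σ).det = k * k * d →
        LinearMap.charpoly (ρ.ρ σ) = X ^ 2 - C t * X + C d) ∧
      (∀ σ : Γℚ, b σ = k • (1 : Matrix (Fin 2) (Fin 2) O) → ρ.ρ σ = 1) ∧
      ∀ (σ : Γℚ) (a c : O),
        b σ * b σ - (k * a) • b σ + (k * k * c) • (1 : Matrix (Fin 2) (Fin 2) O) = 0 →
          ρ.ρ σ * ρ.ρ σ - a • ρ.ρ σ + c • 1 = 0 :=
  ⟨{ V := scaledLattice b
     finrank_eq := finrank_scaledLattice b k hk hone
     ρ := scaledRep b k hmul hk hone
     isAdicContinuous := isAdicContinuous_scaledRep b k hmul hk hone hcont },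
    fun _ _ _ ht hd => charpoly_scaledRep b k hmul hk hone ht hd,
    fun _ h => scaledRep_eq_one b k hmul hk hone h,
    fun _ _ _ h => scaledRep_quadratic b k hmul hk hone h⟩

end Fermat.GR
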