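import Fermat.Agent.GR.ES.Rep
import Fermat.Agent.GR.ES.Scaled

/-!
# The Galois representation at a point of the Hecke ring

`exists_galoisRepAdic`, the main theorem on `ESData`: a homomorphism of the Hecke ring to a
complete coefficient ring turns the scaled matrices of `Rep` into a representation on a lattice
(`Scaled`), with the prescribed polynomial of Frobenius. It gives `attachInput`
(`GR/AttachProof/Main`), the points at level `Γ₀` (`PointRep`) and the residual representations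
(`Residual`).
-/

set_option autoImplicit false

noncomputable section

open Polynomial

namespace Fermat.GR.ESData

local notation "ℚbar" => AlgebraicClosure ℚ
local notation "Γℚ" => (AlgebraicClosure ℚ ≃ₐ[ℚ] AlgebraicClosure ℚ)

/-- A natural number as a scalar matrix. -/
theorem natCast_eq_smul_one {O : Type*} [CommRing O] (m : ℕ) :
    (m : Matrix (Fin 2) (Fin 2) O) = (m : O) • 1 := by
  rw [← Matrix.diagonal_natCast, ← Matrix.diagonal_one, ← Matrix.diagonal_smul]
  congr 1
  funext i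
  simp

variable {R J : Type} [CommRing R] [Module.Free ℤ R] [Module.Finite ℤ R] [AddCommGroup J]
  [DistribMulAction (AlgebraicClosure ℚ ≃ₐ[ℚ] AlgebraicClosure ℚ) J]
  {M p : ℕ} [Fact p.Prime] {T ε : ℕ → R}

/-- The matrices at a point are congruent to the index on the fixers of finite extensions. -/
theorem exists_field_mapMatrix_sub_mem (D : ESData R J M p T ε) {O : Type} [CommRing O] [IsDomain O]
    [IsDiscreteValuationRing O] [IsAdicComplete (IsLocalRing.maximalIdeal O) O] [CharZero O]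
    (hp : (p : O) ∈ IsLocalRing.maximalIdeal O) (f : R →+* O) (n : ℕ) :
    ∃ L : IntermediateField ℚ ℚbar, FiniteDimensional ℚ L ∧
      ∀ σ : Γℚ, (∀ x ∈ L, σ x = x) → ∀ i j,
        (((pCompLift (padicToAdic O hp) f).mapMatrix (D.bMat σ) -
          (D.k : O) • (1 : Matrix (Fin 2) (Fin 2) O)) i j) ∈
          Ideal.span {(D.k : O) * (D.k : O)} * IsLocalRing.maximalIdeal O ^ n := by
  set F : PComp p R →+* O := pCompLift (padicToAdic O hp) f with hF
  set k : O := (D.k : O) with hk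
  have hk0 : k ≠ 0 := Nat.cast_ne_zero.mpr D.k_ne_zero
  have hnat : (D.k : Matrix (Fin 2) (Fin 2) O) = k • 1 := natCast_eq_smul_one D.k
  obtain ⟨ϖ, hϖ⟩ := IsDiscreteValuationRing.exists_irreducible O
  obtain ⟨d, u, hu⟩ :=
    IsDiscreteValuationRing.eq_unit_mul_pow_irreducible (mul_ne_zero hk0 hk0) hϖ
  have hspan : Ideal.span {k * k} * IsLocalRing.maximalIdeal O ^ n =
      IsLocalRing.maximalIdeal O ^ (d + n) := by
    rw [hu, Ideal.span_singleton_mul_left_unit u.isUnit, hϖ.maximalIdeal_eq,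
      ← Ideal.span_singleton_pow, ← pow_add]
  obtain ⟨L, hL, hfix⟩ := D.exists_field (d + n)
  refine ⟨L, hL, fun σ hσ i j => ?_⟩
  rw [hspan, ← hnat]
  have h : (p : PComp p R) ^ (d + n) ∣
      (D.bMat σ - (D.k : Matrix (Fin 2) (Fin 2) (PComp p R))) i j := by
    rw [Matrix.sub_apply, ← modPow_eq_iff]
    have h' := congrFun (congrFun (D.modPow_bMat_of_fixed (n := d + n) (hfix σ hσ)) i) j
    rw [← map_natCast ((modPow (R := R) (p := p) (d + n)).mapMatrix (m := Fin 2))] at h'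
    exact h'
  have h2 := pCompLift_mem (padicToAdic O hp) f hp h
  rw [← hF] at h2
  have h3 : F.mapMatrix (D.bMat σ - (D.k : Matrix (Fin 2) (Fin 2) (PComp p R))) =
      F.mapMatrix (D.bMat σ) - (D.k : Matrix (Fin 2) (Fin 2) O) := by rw [map_sub, map_natCast]
  rw [← h3]
  exact h2

/-- The representation at a point `f` of the Hecke ring, on the lattice spanned by the scaled
matrices `b σ` of the datum: a quadratic relation satisfied by `b σ` passes to it. -/
theorem exists_galoisRepAdic_quadratic (D : ESData R J M p T ε) {O : Type} [CommRing O] [IsDomain O]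
    [IsDiscreteValuationRing O] [IsAdicComplete (IsLocalRing.maximalIdeal O) O] [CharZero O]
    (hp : (p : O) ∈ IsLocalRing.maximalIdeal O) (f : R →+* O) :
    ∃ ρ : GaloisRepAdic O,
      (∀ ℓ : ℕ, ℓ.Prime → ¬ ℓ ∣ M * p → ∀ A : ValuationSubring ℚbar, A.LiesOverPrime ℓ →
        ∀ σ : Γℚ, A.IsFrobeniusAt σ ℓ →
          LinearMap.charpoly (ρ.ρ σ) = X ^ 2 - C (f (T ℓ)) * X + C ((ℓ : O) * f (ε ℓ))) ∧
      (∀ ℓ : ℕ, ℓ.Prime → ¬ ℓ ∣ M * p → ρ.IsUnramifiedAt ℓ) ∧
      ∀ (σ : Γℚ) (a c : O),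
        (pCompLift (padicToAdic O hp) f).mapMatrix (D.bMat σ) *
            (pCompLift (padicToAdic O hp) f).mapMatrix (D.bMat σ) -
          ((D.k : O) * a) • (pCompLift (padicToAdic O hp) f).mapMatrix (D.bMat σ) +
          ((D.k : O) * (D.k : O) * c) • (1 : Matrix (Fin 2) (Fin 2) O) = 0 →
            ρ.ρ σ * ρ.ρ σ - a • ρ.ρ σ + c • 1 = 0 := by
  set F : PComp p R →+* O := pCompLift (padicToAdic O hp) f with hF
  set b : Γℚ → Matrix (Fin 2) (Fin 2) O := fun σ => F.mapMatrix (D.bMat σ) with hb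
  set k : O := (D.k : O) with hk
  have hk0 : k ≠ 0 := Nat.cast_ne_zero.mpr D.k_ne_zero
  have hnat : (D.k : Matrix (Fin 2) (Fin 2) O) = k • 1 := natCast_eq_smul_one D.k
  have hsmul : ∀ σ, F.mapMatrix ((D.k : PComp p R) • D.bMat σ) = k • b σ := fun σ => by
    ext i j
    simp [hb, hk]
  have hmul : ∀ σ τ, b σ * b τ = k • b (σ * τ) := fun σ τ => by
    rw [← hsmul, ← D.bMat_mul, map_mul]
  have hone : b 1 = k • (1 : Matrix (Fin 2) (Fin 2) O) := by
    rw [← hnat, hb]
    change F.mapMatrix (D.bMat 1) = _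
    rw [D.bMat_one, map_natCast]
  -- remove the scale
  obtain ⟨ρ, hcp, hone', hquad⟩ := exists_galoisRepAdic_of_scaled b k hmul hk0
    hone (D.exists_field_mapMatrix_sub_mem hp f)
  refine ⟨ρ, fun ℓ hℓ hℓp A hA σ hσ => hcp σ _ _ ?_ ?_, fun ℓ hℓ hℓp A hA σ hσ => hone' σ ?_,
    hquad⟩
  · rw [hb]
    change (F.mapMatrix (D.bMat σ)).trace = _
    rw [show (F.mapMatrix (D.bMat σ)).trace = F (D.bMat σ).trace by simp [Matrix.trace_fin_two],
      D.bMat_trace_frobenius hℓ hℓp hA hσ]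
    simp [hk, hF]
  · change (F.mapMatrix (D.bMat σ)).det = _
    rw [← RingHom.map_det, D.bMat_det_frobenius hℓ hℓp hA hσ]
    simp [hk, hF]
    ring
  · change F.mapMatrix (D.bMat σ) = _
    rw [D.bMat_inertia hℓ hℓp hA hσ, map_natCast, hnat]

/-- **The Galois representation attached to a point of the Hecke ring.** -/
theorem exists_galoisRepAdic (D : ESData R J M p T ε) {O : Type} [CommRing O] [IsDomain O]
    [IsDiscreteValuationRing O] [IsAdicComplete (IsLocalRing.maximalIdeal O) O] [CharZero O]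
    (hp : (p : O) ∈ IsLocalRing.maximalIdeal O) (f : R →+* O) :
    ∃ ρ : GaloisRepAdic O,
      (∀ ℓ : ℕ, ℓ.Prime → ¬ ℓ ∣ M * p → ∀ A : ValuationSubring ℚbar, A.LiesOverPrime ℓ →
        ∀ σ : Γℚ, A.IsFrobeniusAt σ ℓ →
          LinearMap.charpoly (ρ.ρ σ) = X ^ 2 - C (f (T ℓ)) * X + C ((ℓ : O) * f (ε ℓ))) ∧
      ∀ ℓ : ℕ, ℓ.Prime → ¬ ℓ ∣ M * p → ρ.IsUnramifiedAt ℓ :=
  (D.exists_galoisRepAdic_quadratic hp f).imp fun _ h => ⟨h.1, h.2.1⟩

end Fermat.GR.ESData
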