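import Fermat.Agent.GR.ES.Residual
import Fermat.Agent.GR.RatInstances
import Fermat.Agent.EC.Torsion
import Fermat.Agent.EC.Frey
import Fermat.Prelude.Def_FreyPackage_EigenformResidualAttachment

/-!
# Residual attachment for eigenforms, in the form used with a Frey package

`eigenformResidualAttachmentAt_of` deduces the conclusion of S42 from residual representations
attached to eigenforms.
-/

set_option autoImplicit false

noncomputable section

open Polynomial WeierstrassCurve WeierstrassCurve.Affine.Point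

namespace Fermat.GR

local notation "ℚbar" => AlgebraicClosure ℚ

/-- Trace and determinant of an endomorphism of a plane, read off the characteristic polynomial. -/
theorem trace_det_of_charpoly {k V : Type} [Field k] [AddCommGroup V] [Module k V]
    [Module.Finite k V] (hV : Module.finrank k V = 2) (f : Module.End k V) {t d : k}
    (h : LinearMap.charpoly f = X ^ 2 - C t * X + C d) :
    LinearMap.trace k V f = t ∧ LinearMap.det f = d := by
  let b : Module.Basis (Fin 2) k V := Module.finBasisOfFinrankEq k V hV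
  rw [← LinearMap.charpoly_toMatrix f b] at h
  rw [LinearMap.trace_eq_matrix_trace k b f, ← LinearMap.det_toMatrix b]
  exact trace_det_of_charpoly_matrix h

/-- The conclusion of S42 from residual representations attached to eigenforms of level `M`. -/
theorem eigenformResidualAttachmentAt_of (P : FreyPackage) (M : ℕ)
    (h : ∀ (g : CuspForm (CongruenceSubgroup.Gamma0 M) 2), g.IsNormalizedEigenform →
      ∀ (k : Type) [Field k] [CharP k P.p] (φ : integralClosure ℤ ℂ →+* k),
        ∃ ρ : ResidualGaloisRep k, ρ.IsAttachedTo g φ) :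
    P.EigenformResidualAttachmentAt M := by
  intro g hg 𝔪 h𝔪 hp𝔪
  let : Field (integralClosure ℤ ℂ ⧸ 𝔪) := Ideal.Quotient.field 𝔪
  have hp0 : (P.p : integralClosure ℤ ℂ ⧸ 𝔪) = 0 := by
    rw [← map_natCast (Ideal.Quotient.mk 𝔪), Ideal.Quotient.eq_zero_iff_mem]
    exact hp𝔪
  have : Fact P.p.Prime := ⟨P.pp⟩
  have : CharP (integralClosure ℤ ℂ ⧸ 𝔪) P.p :=
    (CharP.charP_iff_prime_eq_zero P.pp).mpr hp0
  obtain ⟨ρ, hρ⟩ := h g hg (integralClosure ℤ ℂ ⧸ 𝔪) (Ideal.Quotient.mk 𝔪)
  obtain ⟨L₁, hL₁, hfix₁⟩ := ρ.factorsThroughFiniteLevel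
  -- the field of coordinates of the torsion points of the Frey curve
  let E := (P.freyCurve)⁄ℚbar
  have hΔ : E.Δ ≠ 0 := by
    change (P.freyCurve.map (algebraMap ℚ ℚbar)).Δ ≠ 0
    rw [WeierstrassCurve.map_Δ, ← Fermat.EC.Frey.map_freyCurveInt, WeierstrassCurve.map_Δ]
    simpa using Fermat.EC.Frey.Δ_ne_zero P
  have : Finite (Submodule.torsionBy ℤ E.toAffine.Point (P.p : ℤ)) :=
    Nat.finite_of_card_ne_zero (by
      rw [Fermat.EC.card_torsionBy hΔ P.pp.one_le]
      exact pow_ne_zero _ P.hp0)
  classical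
  -- `F` splits both the representation and the torsion of the curve
  let coords : (E.toAffine).Point → Set ℚbar := fun Q => match Q with
    | .zero => ∅
    | .some x y _ => {x, y}
  let S : Set ℚbar := ⋃ Q : Submodule.torsionBy ℤ E.toAffine.Point (P.p : ℤ), coords Q.1
  have hS : S.Finite := Set.finite_iUnion fun Q => by
    rcases Q with ⟨(_ | ⟨x, y, hxy⟩), hQ⟩
    · exact Set.finite_empty
    · exact (Set.finite_singleton y).insert x
  have := hS.to_subtype
  let L₂ : IntermediateField ℚ ℚbar := IntermediateField.adjoin ℚ S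
  have : FiniteDimensional ℚ L₂ := IntermediateField.finiteDimensional_adjoin fun x _ =>
    (Algebra.IsAlgebraic.isAlgebraic (R := ℚ) x).isIntegral
  let F : IntermediateField ℚ ℚbar := IntermediateField.normalClosure ℚ ↥(L₁ ⊔ L₂) ℚbar
  have : FiniteDimensional ℚ F := normalClosure.is_finiteDimensional ℚ _ _
  have : Normal ℚ F := normalClosure.normal ℚ _ _
  have : IsGalois ℚ F := ⟨⟩
  have : NumberField F := ⟨⟩
  have hle : L₁ ⊔ L₂ ≤ F := IntermediateField.le_normalClosure _
  refine ⟨integralClosure ℤ ℂ ⧸ 𝔪, inferInstance, ZMod.algebra _ P.p, ρ.V, inferInstance,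
    inferInstance, ρ.ρ, Ideal.Quotient.mk 𝔪, F, inferInstance, inferInstance, inferInstance,
    inferInstance, inferInstance, by rw [Ideal.mk_ker], ρ.finrank_eq, ?_, ?_, ?_⟩
  · intro σ hσ'
    have hσ : ∀ x ∈ F, σ x = x := fun x hx => by
      refine (AlgEquiv.restrictNormal_commutes σ F ⟨x, hx⟩).symm.trans ?_
      have h1 := AlgEquiv.congr_fun (MonoidHom.mem_ker.mp hσ') ⟨x, hx⟩
      exact congrArg Subtype.val h1
    refine Subgroup.mem_inf.mpr ⟨MonoidHom.mem_ker.mpr (LinearMap.ext fun Q => ?_),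
      MonoidHom.mem_ker.mpr (hfix₁ σ fun x hx => hσ x (hle (SetLike.le_def.mp le_sup_left hx)))⟩
    rw [galoisRepModuleEnd_apply, Module.End.one_apply]
    apply Subtype.ext
    have hQ : coords Q.1 ⊆ S := Set.subset_iUnion (fun Q : Submodule.torsionBy ℤ E.toAffine.Point
      (P.p : ℤ) => coords Q.1) Q
    obtain ⟨(_ | ⟨x, y, hxy⟩), hQmem⟩ := Q
    · rfl
    · change WeierstrassCurve.Affine.Point.map σ.toAlgHom (Affine.Point.some x y hxy) =
        Affine.Point.some x y hxy
      rw [WeierstrassCurve.Affine.Point.map_some]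
      have hx : σ x = x := hσ x (hle (SetLike.le_def.mp le_sup_right
        (IntermediateField.subset_adjoin ℚ S (hQ (Set.mem_insert x _)))))
      have hy : σ y = y := hσ y (hle (SetLike.le_def.mp le_sup_right
        (IntermediateField.subset_adjoin ℚ S (hQ (Set.mem_insert_of_mem x rfl)))))
      simp [hx, hy]
  -- at a good prime the trace and determinant come from the attachment
  all_goals
    intro ℓ hℓ hℓM hℓp A hA τ hτ
    have hℓk : (ℓ : integralClosure ℤ ℂ ⧸ 𝔪) ≠ 0 := by
      rw [Ne, CharP.cast_eq_zero_iff _ P.p]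
      exact fun hd => hℓp ((Nat.prime_dvd_prime_iff_eq P.pp hℓ).mp hd).symm
    obtain ⟨a, ha, hcp⟩ := hρ ℓ hℓ hℓM hℓk A hA τ hτ
    obtain ⟨ht, hd⟩ := trace_det_of_charpoly ρ.finrank_eq (ρ.ρ τ) hcp
  · exact ⟨a, ha, ht⟩
  · exact hd

end Fermat.GR
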