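import Fermat.Agent.GR.ES.Rep
import Fermat.Agent.GR.ES.Gamma0
import Fermat.Agent.GR.Deform.MatrixRep
import Fermat.Agent.GR.Deform.AbsIrred
import Fermat.Agent.GR.RT.OrdInputProofAlg
import Fermat.Agent.CFT.Density.Places
import Fermat.Prelude.Def_CuspForm_HeckeGaloisRepDatum

/-!
# A Hecke representation is unramified where the Eichler-Shimura representation is

If a representation over a coefficient ring has the traces of Frobenius prescribed by the Hecke
algebra and is residually absolutely irreducible, the congruences satisfied by the representation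
on the `p`-power torsion force inertia at good primes to act trivially.
-/

set_option autoImplicit false

noncomputable section

open Polynomial ModularCurve

namespace Fermat.GR

local notation "ℚbar" => AlgebraicClosure ℚ
local notation "Γℚ" => (AlgebraicClosure ℚ ≃ₐ[ℚ] AlgebraicClosure ℚ)

/-- A multiplier clearing the saturation of a subring of a finite torsion-free ring. -/
theorem exists_saturation_bound {R' R : Type} [CommRing R'] [CommRing R] [Module.Finite ℤ R]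
    (i : R' →+* R) : ∃ s : ℕ, s ≠ 0 ∧ ∀ (t : R) (m : ℕ), m ≠ 0 → (m : R) * t ∈ i.range →
      (s : R) * t ∈ i.range := by
  classical
  -- the saturation is a `ℤ`-submodule, hence finitely generated
  let Sat : Submodule ℤ R :=
    { carrier := {t | ∃ m : ℕ, m ≠ 0 ∧ (m : R) * t ∈ i.range}
      add_mem' := by
        rintro a b ⟨m, hm, hma⟩ ⟨m', hm', hmb⟩
        refine ⟨m * m', mul_ne_zero hm hm', ?_⟩
        have : ((m * m' : ℕ) : R) * (a + b) = (m' : R) * ((m : R) * a) + (m : R) *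
            ((m' : R) * b) := by
          push_cast; ring
        rw [this]
        exact add_mem (mul_mem (natCast_mem _ _) hma) (mul_mem (natCast_mem _ _) hmb)
      zero_mem' := ⟨1, one_ne_zero, by simp⟩
      smul_mem' := by
        rintro c a ⟨m, hm, hma⟩
        refine ⟨m, hm, ?_⟩
        rw [zsmul_eq_mul, mul_left_comm]
        exact mul_mem (intCast_mem _ _) hma }
  obtain ⟨gen, hgen⟩ := IsNoetherian.noetherian Sat
  have hsub : ∀ g ∈ gen, ∃ m : ℕ, m ≠ 0 ∧ (m : R) * g ∈ i.range := fun g hg => by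
    have : g ∈ Sat := hgen ▸ Submodule.subset_span hg
    exact this
  choose! μ hμ0 hμ using hsub
  -- the product of the multipliers of the generators works
  refine ⟨∏ g ∈ gen, μ g, Finset.prod_ne_zero_iff.mpr hμ0, fun t m hm hmt => ?_⟩
  have ht : t ∈ Submodule.span ℤ (gen : Set R) := by rw [hgen]; exact ⟨m, hm, hmt⟩
  clear hmt
  induction ht using Submodule.span_induction with
  | mem x hx =>
    obtain ⟨c, hc⟩ := Finset.dvd_prod_of_mem μ hx
    rw [hc, Nat.cast_mul, mul_comm (μ x : R), mul_assoc]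
    exact mul_mem (natCast_mem _ _) (hμ x hx)
  | zero => rw [mul_zero]; exact zero_mem _
  | add x y _ _ hx hy => rw [mul_add]; exact add_mem hx hy
  | smul c x _ hx =>
    rw [zsmul_eq_mul, mul_left_comm]
    exact mul_mem (intCast_mem _ _) hx

/-- A congruence between images in a larger ring descends, up to the saturation and the index. -/
theorem map_sub_mem_of_dvd {R' R T : Type} [CommRing R'] [IsAddTorsionFree R'] [CommRing R]
    [CommRing T] [IsLocalRing T] {i : R' →+* R} (hi : Function.Injective i) (π : R' →+* T)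
    {p k s e u n : ℕ} (hp : p.Prime) (hpT : (p : T) ∈ IsLocalRing.maximalIdeal T)
    (hu : ¬ p ∣ u) (hsu : s * (k * k) = p ^ e * u)
    (hs : ∀ (t : R) (m : ℕ), m ≠ 0 → (m : R) * t ∈ i.range → (s : R) * t ∈ i.range)
    {P₁ P₂ : R'} (hdvd : (p : R) ^ (n + e) ∣ ((k * k : ℕ) : R) * (i P₁ - i P₂)) :
    π (P₁ - P₂) ∈ IsLocalRing.maximalIdeal T ^ n := by
  obtain ⟨t, ht⟩ := hdvd
  obtain ⟨t', ht'⟩ := hs t (p ^ (n + e)) (pow_ne_zero _ hp.ne_zero)
    ⟨((k * k : ℕ) : R') * (P₁ - P₂), by rw [map_mul, map_natCast, map_sub, ht, Nat.cast_pow]⟩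
  have hd : ((p ^ e : ℕ) : R') * ((u : R') * (P₁ - P₂)) =
      ((p ^ e : ℕ) : R') * ((p : R') ^ n * t') := by
    apply hi
    simp only [map_mul, map_sub, map_natCast, map_pow, ht']
    rw [← mul_assoc, ← Nat.cast_mul, ← hsu]
    push_cast
    push_cast at ht
    rw [mul_assoc, ht, pow_add]
    ring
  have hcancel : (u : R') * (P₁ - P₂) = (p : R') ^ n * t' := by
    rw [← nsmul_eq_mul, ← nsmul_eq_mul] at hd
    exact (IsAddTorsionFree.nsmul_right_injective (pow_ne_zero e hp.ne_zero)) (by simpa using hd)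
  have h := congrArg π hcancel
  rw [map_mul, map_natCast, map_mul, map_pow, map_natCast] at h
  rw [← Ideal.unit_mul_mem_iff_mem _ (isUnit_natCast_of_not_dvd hp hpT hu), h]
  exact Ideal.mul_mem_right _ _ (Ideal.pow_mem_pow hpT n)

/-- Up to fixing a finite field every Galois element is a power of a Frobenius. -/
theorem exists_frobenius_pow_mul_fixing (L₀ : IntermediateField ℚ ℚbar) [FiniteDimensional ℚ L₀]
    (x : Γℚ) (S : Finset ℕ) :
    ∃ ℓ : ℕ, ℓ.Prime ∧ ℓ ∉ S ∧ ∃ B : ValuationSubring ℚbar, B.LiesOverPrime ℓ ∧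
      ∃ φ, B.IsFrobeniusAt φ ℓ ∧ ∃ (j : ℕ) (τ : Γℚ), (∀ y ∈ L₀, τ y = y) ∧ x = φ ^ j * τ := by
  let L : IntermediateField ℚ ℚbar := IntermediateField.normalClosure ℚ ↥L₀ ℚbar
  have : FiniteDimensional ℚ L := normalClosure.is_finiteDimensional ℚ _ _
  have : Normal ℚ L := normalClosure.normal ℚ _ _
  let π : Γℚ →* (L ≃ₐ[ℚ] L) := AlgEquiv.restrictNormalHom L
  have hπ : IsOpen (π.ker : Set Γℚ) := by
    rw [show π.ker = L.fixingSubgroup from IntermediateField.restrictNormalHom_ker L]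
    exact IntermediateField.fixingSubgroup_isOpen L
  obtain ⟨ℓ, hℓ, hℓS, B, hB, -, φ, hφ, j, hj⟩ :=
    Fermat.CFT.exists_frobenius_map_eq_pow π hπ x S
  refine ⟨ℓ, hℓ, hℓS, B, hB, φ, hφ, j, (φ ^ j)⁻¹ * x, ?_, (mul_inv_cancel_left _ _).symm⟩
  have h : (φ ^ j)⁻¹ * x ∈ L.fixingSubgroup := by
    rw [← IntermediateField.restrictNormalHom_ker, MonoidHom.mem_ker]
    change π ((φ ^ j)⁻¹ * x) = 1
    rw [map_mul, map_inv, map_pow, hj, inv_mul_cancel]
  rw [IntermediateField.mem_fixingSubgroup_iff] at h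
  exact fun y hy => h y (IntermediateField.le_normalClosure L₀ hy)

/-- A spanning reduction spans. -/
theorem span_eq_top_of_residue {G O : Type} [CommRing O] [IsLocalRing O]
    {r : G → Matrix (Fin 2) (Fin 2) O}
    (h : Submodule.span (IsLocalRing.ResidueField O)
      (Set.range fun g => (r g).map (IsLocalRing.residue O)) = ⊤) :
    Submodule.span O (Set.range r) = ⊤ := by
  classical
  refine top_le_iff.mp (Submodule.le_of_le_smul_of_le_jacobson_bot
    (I := IsLocalRing.maximalIdeal O) Module.Finite.fg_top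
    (IsLocalRing.maximalIdeal_le_jacobson _) ?_)
  intro Y _
  obtain ⟨c, hc⟩ := Finsupp.mem_span_range_iff_exists_finsupp.mp
    (Submodule.eq_top_iff'.mp h (Y.map (IsLocalRing.residue O)))
  let Z : Matrix (Fin 2) (Fin 2) O :=
    c.sum fun g x => Function.surjInv IsLocalRing.residue_surjective x • r g
  have hZ : Z ∈ Submodule.span O (Set.range r) :=
    Submodule.sum_mem _ fun g _ => Submodule.smul_mem _ _ (Submodule.subset_span ⟨g, rfl⟩)
  have hdiff : ∀ a d, (Y - Z) a d ∈ IsLocalRing.maximalIdeal O := fun a d => by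
    rw [← IsLocalRing.residue_eq_zero_iff, Matrix.sub_apply, map_sub]
    have := congrFun (congrFun hc a) d
    simp only [Finsupp.sum, Matrix.sum_apply, Matrix.smul_apply, Matrix.map_apply, smul_eq_mul]
      at this
    simp only [Z, Finsupp.sum, Matrix.sum_apply, Matrix.smul_apply, smul_eq_mul, map_sum,
      map_mul, Function.surjInv_eq IsLocalRing.residue_surjective, this, sub_self]
  rw [← sub_add_cancel Y Z]
  rw [sup_comm]
  refine Submodule.add_mem_sup ?_ hZ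
  rw [Matrix.matrix_eq_sum_single (Y - Z)]
  refine Submodule.sum_mem _ fun a _ => Submodule.sum_mem _ fun d _ => ?_
  rw [show Matrix.single a d ((Y - Z) a d) = (Y - Z) a d • Matrix.single a d (1 : O) by simp]
  exact Submodule.smul_mem_smul (hdiff a d) Submodule.mem_top

/-- The matrices of a residually absolutely irreducible representation span. -/
theorem span_range_matOf_eq_top {T : Type} [CommRing T] [IsLocalRing T] (ρ : GaloisRepAdic T)
    (habs : ρ.residual.IsAbsolutelyIrreducible) (b : Module.Basis (Fin 2) T ρ.V) :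
    Submodule.span T (Set.range (matOf ρ b)) = ⊤ := by
  classical
  set r := matOf ρ b
  have hres := span_range_toMatrix_eq_top ρ.residual habs
    (Algebra.TensorProduct.basis (IsLocalRing.ResidueField T) b)
  refine span_eq_top_of_residue ?_
  rw [← hres]
  congr 2
  funext g
  exact ((LinearMap.toMatrix_baseChange _ _ b b).trans rfl).symm

/-- An element whose translates keep the traces is trivial, when the matrices span. -/
theorem eq_one_of_trace_mul_eq {G T : Type} [Monoid G] [CommRing T]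
    (r : G →* Matrix (Fin 2) (Fin 2) T) (hspan : Submodule.span T (Set.range r) = ⊤) {σ : G}
    (htrace : ∀ g, (r (σ * g)).trace = (r g).trace) : r σ = 1 := by
  refine sub_eq_zero.mp (RT.eq_zero_of_trace_mul hspan fun g => ?_)
  rw [sub_mul, one_mul, Matrix.trace_sub, ← map_mul, htrace, sub_self]

/-- The trace at the power of an element with known trace and determinant times a nearly trivial
element. -/
theorem trace_pow_mul_sub_mem {G R' T : Type} [Monoid G] [CommRing R'] [CommRing T]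
    (r : G →* Matrix (Fin 2) (Fin 2) T) (π : R' →+* T) {φ : G} {t d : R'}
    (ht : (r φ).trace = π t) (hd : (r φ).det = π d) (j : ℕ) {τ : G} {I : Ideal T}
    (hτ : ∀ a c, (r τ - 1) a c ∈ I) : (r (φ ^ j * τ)).trace - π (powTrace t d j) ∈ I := by
  rw [map_powTrace, ← ht, ← hd, ← trace_pow_fin_two, ← map_pow, map_mul, ← Matrix.trace_sub,
    show r (φ ^ j) * r τ - r (φ ^ j) = r (φ ^ j) * (r τ - 1) by rw [mul_sub, mul_one],
    Matrix.trace_fin_two, Matrix.mul_apply, Matrix.mul_apply]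
  exact add_mem (Ideal.sum_mem _ fun l _ => Ideal.mul_mem_left _ _ (hτ l 0))
    (Ideal.sum_mem _ fun l _ => Ideal.mul_mem_left _ _ (hτ l 1))

section Torsion

variable {R J : Type} [CommRing R] [Module.Free ℤ R] [Module.Finite ℤ R] [AddCommGroup J]
  [DistribMulAction (AlgebraicClosure ℚ ≃ₐ[ℚ] AlgebraicClosure ℚ) J]
  {K p : ℕ} [Fact p.Prime] {T ε : ℕ → R}

/-- The trace on the torsion at a Frobenius power times an element fixing the torsion. -/
theorem modPow_trace_bMat_pow_mul (D : ESData R J K p T ε) {R' : Type} [CommRing R'] (i : R' →+* R)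
    {ℓ : ℕ} (hℓ : ℓ.Prime) (hℓKp : ¬ ℓ ∣ K * p) {B : ValuationSubring ℚbar}
    (hB : B.LiesOverPrime ℓ) {φ : Γℚ} (hφ : B.IsFrobeniusAt φ ℓ) {t d : R'}
    (ht : i t = T ℓ) (hd : i d = ℓ * ε ℓ) (j M : ℕ) {τ : Γℚ}
    (hτ : ∀ x : J, p ^ M • x = 0 → τ • x = x) :
    ESData.modPow M ((D.k : PComp p R) * (D.bMat (φ ^ j * τ)).trace) =
      ESData.modPow M ((D.k : PComp p R) * (D.k : PComp p R) *
        toPComp p R (i (powTrace t d j))) := by
  have hfix := D.modPow_bMat_of_fixed (n := M) (σ := τ) hτ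
  have hm := congrArg
    (fun Y => ((ESData.modPow (R := R) (p := p) M).mapMatrix (m := Fin 2) Y).trace)
    (D.bMat_mul (φ ^ j) τ)
  simp only [map_mul, hfix] at hm
  rw [← nsmul_eq_mul', Matrix.trace_smul, nsmul_eq_mul] at hm
  have htr : ∀ Y : Matrix (Fin 2) (Fin 2) (PComp p R),
      ((ESData.modPow (R := R) (p := p) M).mapMatrix Y).trace = ESData.modPow M Y.trace :=
    fun Y => by simp [Matrix.trace_fin_two]
  rw [htr, htr, Matrix.trace_smul, smul_eq_mul, map_mul, map_natCast] at hm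
  rw [map_mul, map_natCast, ← hm, D.bMat_trace_frobenius_pow hℓ hℓKp hB hφ j, map_powTrace i,
    ht, hd]
  simp only [map_mul, map_natCast]
  ring

end Torsion

variable {N p : ℕ} [NeZero N] [Fact p.Prime] {S : Finset ℕ}

local notation "R₀" => FullHecke N
local notation "RS" => Subtype (fun t => t ∈ CuspForm.heckeAlgebra N 2 (SetLike.coe S : Set ℕ))

section Inertia

variable (N S) in
/-- Hecke operators away from `S` inside the full Hecke algebra. -/
def heckeIncl : RS →+* R₀ :=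
  (Subalgebra.inclusion (CuspForm.heckeAlgebra_mono (Set.empty_subset (↑S : Set ℕ)))).toRingHom

variable (D : ESData (FullHecke N) (JZero N) N p (heckeT0 N) fun _ => 1)

/-- Traces on the torsion at a Frobenius power times an element fixing the torsion. -/
theorem modPow_trace_bMat_frobenius_mul {ℓ : ℕ} (hℓ : ℓ.Prime) (hℓN : ¬ ℓ ∣ N)
    (hℓS : ℓ ∉ (↑S : Set ℕ)) (hℓNp : ¬ ℓ ∣ N * p) {B : ValuationSubring ℚbar}
    (hB : B.LiesOverPrime ℓ) {φ : Γℚ} (hφ : B.IsFrobeniusAt φ ℓ) (j M : ℕ) {τ : Γℚ}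
    (hτ : ∀ x : JZero N, p ^ M • x = 0 → τ • x = x) :
    ESData.modPow M ((D.k : PComp p R₀) * (D.bMat (φ ^ j * τ)).trace) =
      ESData.modPow M ((D.k : PComp p R₀) * (D.k : PComp p R₀) * toPComp p R₀
        (heckeIncl N S (powTrace (CuspForm.heckeAlgebra.T hℓ hℓN hℓS) (ℓ : RS) j))) := by
  exact modPow_trace_bMat_pow_mul D (heckeIncl N S) hℓ hℓNp hB hφ
    (show heckeIncl N S (CuspForm.heckeAlgebra.T hℓ hℓN hℓS) = heckeT0 N ℓ by
      rw [heckeT0_eq hℓ hℓN]; rfl)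
    (by rw [map_natCast, mul_one]) j M hτ

/-- Left multiplication by inertia at a good prime does not change the scaled matrices. -/
theorem bMat_mul_inertia {q : ℕ} (hq : q.Prime) (hqNp : ¬ q ∣ N * p) {A : ValuationSubring ℚbar}
    (hA : A.LiesOverPrime q) {σ : Γℚ} (hσ : σ ∈ A.inertiaSubgroupIn ℚ) (g : Γℚ) :
    D.bMat (σ * g) = D.bMat g := by
  have h := D.bMat_mul σ g
  rw [D.bMat_inertia hq hqNp hA hσ, ← nsmul_eq_mul] at h
  exact Matrix.ext fun a c => D.eq_of_k_mul (by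
    have := congrFun (congrFun h a) c
    simpa [nsmul_eq_mul] using this.symm)

variable {𝒪 : Type} [CommRing 𝒪] [IsDomain 𝒪] [IsDiscreteValuationRing 𝒪]
  [IsAdicComplete (IsLocalRing.maximalIdeal 𝒪) 𝒪]
  {θ : CuspForm.heckeAlgebra N 2 (↑S : Set ℕ) →+* IsLocalRing.ResidueField 𝒪}
  {T : Type} [CommRing T] [IsLocalRing T] [IsNoetherianRing T]
  [IsAdicComplete (IsLocalRing.maximalIdeal T) T] [Algebra 𝒪 T] [IsLocalHom (algebraMap 𝒪 T)]
  [Module.Finite 𝒪 T] [Module.Free 𝒪 T]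
  (H : CuspForm.HeckeGaloisRepDatum N (↑S : Set ℕ) 𝒪 θ T)
  (b : Module.Basis (Fin 2) T H.ρ.V)

/-- Traces of the representation at a Frobenius power times a nearly trivial element. -/
theorem trace_matOf_frobenius_mul_mem {ℓ : ℕ} (hℓ : ℓ.Prime) (hℓN : ¬ ℓ ∣ N)
    (hℓS : ℓ ∉ (↑S : Set ℕ)) {B : ValuationSubring ℚbar} (hB : B.LiesOverPrime ℓ) {φ : Γℚ}
    (hφ : B.IsFrobeniusAt φ ℓ) (j : ℕ) {n : ℕ} {τ : Γℚ}
    (hτ : ∀ i l, (matOf H.ρ b τ - 1) i l ∈ IsLocalRing.maximalIdeal T ^ n) :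
    (matOf H.ρ b (φ ^ j * τ)).trace -
        H.π (powTrace (CuspForm.heckeAlgebra.T hℓ hℓN hℓS) (ℓ : RS) j) ∈
      IsLocalRing.maximalIdeal T ^ n := by
  have hcp := H.charpoly_frob ℓ hℓ hℓN hℓS B hB φ hφ
  rw [← LinearMap.charpoly_toMatrix (H.ρ.ρ φ) b, ← matOf_apply] at hcp
  obtain ⟨ht, hd⟩ := trace_det_of_charpoly_matrix hcp
  exact trace_pow_mul_sub_mem _ H.π (φ := φ) ht (by rw [hd, map_natCast]) j hτ

include D in
/-- Inertia at a good prime does not change the traces. -/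
theorem trace_matOf_inertia_mul (hp𝒪 : (p : 𝒪) ∈ IsLocalRing.maximalIdeal 𝒪)
    (hgood : ∀ ℓ : ℕ, ℓ.Prime → ℓ ∉ S → ¬ ℓ ∣ N * p) {q : ℕ} (hq : q.Prime) (hqS : q ∉ S)
    {A : ValuationSubring ℚbar} (hA : A.LiesOverPrime q) {σ : Γℚ}
    (hσ : σ ∈ A.inertiaSubgroupIn ℚ) (g : Γℚ) :
    (matOf H.ρ b (σ * g)).trace = (matOf H.ρ b g).trace := by
  have hp : p.Prime := Fact.out
  obtain ⟨s, hs0, hs⟩ := exists_saturation_bound (heckeIncl N S)
  obtain ⟨e, u, hu, hsu⟩ := Nat.exists_eq_pow_mul_and_not_dvd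
    (mul_ne_zero hs0 (mul_ne_zero D.k_ne_zero D.k_ne_zero)) p hp.one_lt.ne'
  have hpT : (p : T) ∈ IsLocalRing.maximalIdeal T := by
    rw [← map_natCast (algebraMap 𝒪 T)]
    exact map_nonunit (algebraMap 𝒪 T) _ hp𝒪
  refine sub_eq_zero.mp (IsHausdorff.haus inferInstance
    (I := IsLocalRing.maximalIdeal T) _ fun n => ?_)
  rw [SModEq.zero, smul_eq_mul, Ideal.mul_top]
  -- fix the field cut out by the representation modulo the `n`-th power and by the torsion
  obtain ⟨L₁, hL₁, h₁⟩ := matCont_matOf H.ρ b n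
  obtain ⟨L₂, hL₂, h₂⟩ := D.exists_field (n + e)
  have hbσ := bMat_mul_inertia D hq (hgood q hq hqS) hA hσ g
  -- on it both elements are powers of Frobenius, with the same trace on the torsion
  obtain ⟨ℓ₁, hℓ₁, hℓ₁S, B₁, hB₁, φ₁, hφ₁, j₁, τ₁, hτ₁, e₁⟩ :=
    exists_frobenius_pow_mul_fixing (L₁ ⊔ L₂) (σ * g) S
  obtain ⟨ℓ₂, hℓ₂, hℓ₂S, B₂, hB₂, φ₂, hφ₂, j₂, τ₂, hτ₂, e₂⟩ :=
    exists_frobenius_pow_mul_fixing (L₁ ⊔ L₂) g S
  have hN₁ : ¬ ℓ₁ ∣ N := fun h => hgood ℓ₁ hℓ₁ hℓ₁S (h.mul_right p)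
  have hN₂ : ¬ ℓ₂ ∣ N := fun h => hgood ℓ₂ hℓ₂ hℓ₂S (h.mul_right p)
  have hfix₁ : ∀ τ : Γℚ, (∀ y ∈ L₁ ⊔ L₂, τ y = y) → ∀ y ∈ L₁, τ y = y := fun τ hτ y hy =>
    hτ y (SetLike.le_def.mp le_sup_left hy)
  have hfix₂ : ∀ τ : Γℚ, (∀ y ∈ L₁ ⊔ L₂, τ y = y) → ∀ y ∈ L₂, τ y = y := fun τ hτ y hy =>
    hτ y (SetLike.le_def.mp le_sup_right hy)
  have hT₁ := trace_matOf_frobenius_mul_mem H b hℓ₁ hN₁ hℓ₁S hB₁ hφ₁ j₁ (h₁ τ₁ (hfix₁ τ₁ hτ₁))
  have hT₂ := trace_matOf_frobenius_mul_mem H b hℓ₂ hN₂ hℓ₂S hB₂ hφ₂ j₂ (h₁ τ₂ (hfix₁ τ₂ hτ₂))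
  have hD₁ := modPow_trace_bMat_frobenius_mul D hℓ₁ hN₁ hℓ₁S (hgood ℓ₁ hℓ₁ hℓ₁S) hB₁ hφ₁ j₁
    (n + e) (h₂ τ₁ (hfix₂ τ₁ hτ₁))
  have hD₂ := modPow_trace_bMat_frobenius_mul D hℓ₂ hN₂ hℓ₂S (hgood ℓ₂ hℓ₂ hℓ₂S) hB₂ hφ₂ j₂
    (n + e) (h₂ τ₂ (hfix₂ τ₂ hτ₂))
  rw [← e₁] at hT₁ hD₁
  rw [← e₂] at hT₂ hD₂
  rw [hbσ, hD₂] at hD₁
  set P₁ := powTrace (CuspForm.heckeAlgebra.T hℓ₁ hN₁ hℓ₁S) (ℓ₁ : RS) j₁
  set P₂ := powTrace (CuspForm.heckeAlgebra.T hℓ₂ hN₂ hℓ₂S) (ℓ₂ : RS) j₂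
  -- the congruence on the torsion descends to the Hecke algebra away from `S`
  have hπd : H.π (P₁ - P₂) ∈ IsLocalRing.maximalIdeal T ^ n := by
    refine map_sub_mem_of_dvd (Subalgebra.inclusion_injective _) H.π hp hpT hu hsu hs
      (dvd_of_toPComp_dvd ?_)
    have h := (ESData.modPow_eq_iff (n + e) _ _).mp hD₁.symm
    rw [map_mul, map_natCast, map_sub, Nat.cast_mul, mul_sub]
    exact h
  rw [map_sub] at hπd
  have hsum := add_mem (sub_mem hT₁ hT₂) hπd
  rwa [show (matOf H.ρ b (σ * g)).trace - H.π P₁ - ((matOf H.ρ b g).trace - H.π P₂) +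
    (H.π P₁ - H.π P₂) = (matOf H.ρ b (σ * g)).trace - (matOf H.ρ b g).trace by ring] at hsum

end Inertia

/-- **S31 from the Eichler-Shimura input.** -/
theorem isUnramifiedAt_of_esInput (D₀ : ESInput N p)
    {𝒪 : Type} [CommRing 𝒪] [IsDomain 𝒪] [IsDiscreteValuationRing 𝒪]
    [IsAdicComplete (IsLocalRing.maximalIdeal 𝒪) 𝒪]
    {θ : RS →+* IsLocalRing.ResidueField 𝒪}
    {T : Type} [CommRing T] [IsLocalRing T] [IsNoetherianRing T]
    [IsAdicComplete (IsLocalRing.maximalIdeal T) T] [Algebra 𝒪 T] [IsLocalHom (algebraMap 𝒪 T)]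
    [Module.Finite 𝒪 T] [Module.Free 𝒪 T]
    (hp𝒪 : (p : 𝒪) ∈ IsLocalRing.maximalIdeal 𝒪) (hpS : p ∈ S)
    (hNS : ∀ q : ℕ, q.Prime → q ∣ N → q ∈ S)
    (H : CuspForm.HeckeGaloisRepDatum N (↑S : Set ℕ) 𝒪 θ T)
    (q : ℕ) (hq : q.Prime) (hqS : q ∉ S) :
    H.ρ.IsUnramifiedAt q := by
  intro A hA σ hσ
  have hp : p.Prime := Fact.out
  have hgood : ∀ ℓ : ℕ, ℓ.Prime → ℓ ∉ S → ¬ ℓ ∣ N * p := fun ℓ hℓ hℓS h =>
    (hℓ.dvd_mul.mp h).elim (fun h' => hℓS (hNS ℓ hℓ h')) fun h' =>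
      hℓS ((Nat.prime_dvd_prime_iff_eq hℓ hp).mp h' ▸ hpS)
  set b := someBasis H.ρ
  have hσ1 : matOf H.ρ b σ = 1 := eq_one_of_trace_mul_eq _
    (span_range_matOf_eq_top H.ρ H.residual_absIrr b)
    (trace_matOf_inertia_mul D₀.toData H b hp𝒪 hgood hq hqS hA hσ)
  exact (LinearMap.toMatrix b b).injective (hσ1.trans (LinearMap.toMatrix_one b).symm)

end Fermat.GR
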