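import Fermat.Agent.GR.ES.Point
import Fermat.Agent.GR.ES.Gamma0
import Fermat.Agent.GR.ES.DVRExt
import Fermat.Agent.GR.ES.EigenChar
import Fermat.Prelude.Def_GaloisRep_Adic

/-!
# Residual Galois representations attached to eigenforms

`ESData.exists_residualGaloisRep` builds them at residue characters of the Hecke ring, and
`residualGaloisRep_of_eigenform` deduces the conclusion of S29.
-/

set_option autoImplicit false

noncomputable section

open Polynomial

namespace Fermat.GR

local notation "ℚbar" => AlgebraicClosure ℚ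
local notation "Γℚ" => (AlgebraicClosure ℚ ≃ₐ[ℚ] AlgebraicClosure ℚ)

section Quotient

/-- A residue field of the algebraic integers is algebraically closed. -/
theorem isAlgClosed_quotient_integralClosure (Q : Ideal (integralClosure ℤ ℂ)) [Q.IsMaximal] :
    letI := Ideal.Quotient.field Q
    IsAlgClosed (integralClosure ℤ ℂ ⧸ Q) := by
  let := Ideal.Quotient.field Q
  refine IsAlgClosed.of_exists_root _ fun P hP hirr => ?_
  obtain ⟨P', hP', hdeg, hmonic⟩ := Polynomial.lifts_and_degree_eq_and_monic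
    (f := Ideal.Quotient.mk Q) (p := P)
    (by rw [Polynomial.mem_lifts]
        exact Polynomial.map_surjective _ Ideal.Quotient.mk_surjective P) hP
  have hd : (P'.map (algebraMap (integralClosure ℤ ℂ) ℂ)).degree ≠ 0 := by
    rw [hmonic.degree_map, hdeg]
    exact fun h => hirr.not_isUnit (Polynomial.isUnit_iff_degree_eq_zero.mpr h)
  obtain ⟨z, hz⟩ := IsAlgClosed.exists_root _ hd
  have hz' : IsIntegral (integralClosure ℤ ℂ) z :=
    ⟨P', hmonic, by rw [← Polynomial.eval_map]; exact hz⟩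
  have hzint : IsIntegral ℤ z := isIntegral_trans z hz'
  refine ⟨Ideal.Quotient.mk Q ⟨z, hzint⟩, ?_⟩
  have h0 : P'.eval (⟨z, hzint⟩ : integralClosure ℤ ℂ) = 0 :=
    Subtype.ext (show algebraMap (integralClosure ℤ ℂ) ℂ (P'.eval _) = 0 by
      rw [← Polynomial.eval₂_at_apply, ← Polynomial.eval_map]; exact hz)
  rw [← hP', Polynomial.eval_map, Polynomial.eval₂_at_apply, h0, map_zero]

/-- The kernel of a character to a field of characteristic `p` is maximal. -/
theorem isMaximal_ker_of_charP {k : Type} [Field k] {p : ℕ} (hp : p.Prime) [CharP k p]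
    (φ : integralClosure ℤ ℂ →+* k) : (RingHom.ker φ).IsMaximal := by
  have : (RingHom.ker φ).IsPrime := RingHom.ker_isPrime φ
  have : Algebra.IsIntegral ℤ (integralClosure ℤ ℂ) := inferInstance
  refine Ideal.isMaximal_of_isIntegral_of_isMaximal_comap (R := ℤ) (RingHom.ker φ) ?_
  have : (RingHom.ker φ).comap (algebraMap ℤ (integralClosure ℤ ℂ)) = Ideal.span {(p : ℤ)} := by
    ext n
    rw [Ideal.mem_comap, RingHom.mem_ker, eq_intCast, map_intCast, CharP.intCast_eq_zero_iff k p,
      Ideal.mem_span_singleton]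
  rw [this]
  exact PrincipalIdealRing.isMaximal_of_irreducible
    (Nat.prime_iff_prime_int.mp hp).irreducible

end Quotient

/-- `ℤ_p ⊗ R` is finite over `ℤ_p`. -/
instance moduleFinite_pComp (p : ℕ) [Fact p.Prime] (R : Type) [CommRing R] [Module.Free ℤ R]
    [Module.Finite ℤ R] : Module.Finite ℤ_[p] (PComp p R) :=
  Module.Finite.of_basis (pCompBasis p R)

/-- The characteristic polynomials of a residual representation after extension of scalars. -/
theorem charpoly_residual_baseChange {A : Type} [CommRing A] [IsLocalRing A]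
    (ρ : GaloisRepAdic A) {k : Type} [Field k] (i : IsLocalRing.ResidueField A →+* k) (σ : Γℚ) :
    LinearMap.charpoly ((ρ.residual.baseChangeAlong i).ρ σ) =
      (LinearMap.charpoly (ρ.ρ σ)).map (i.comp (IsLocalRing.residue A)) := by
  let : Algebra (IsLocalRing.ResidueField A) k := i.toAlgebra
  change LinearMap.charpoly (((ρ.ρ σ).baseChange (IsLocalRing.ResidueField A)).baseChange k) = _
  rw [LinearMap.charpoly_baseChange, LinearMap.charpoly_baseChange, Polynomial.map_map]
  rfl

/-- **Residual representations at a residue character of the Hecke ring.** -/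
theorem ESData.exists_residualGaloisRep {R J : Type} [CommRing R] [Module.Free ℤ R]
    [Module.Finite ℤ R] [AddCommGroup J] [DistribMulAction Γℚ J] {M p : ℕ} [Fact p.Prime]
    {T ε : ℕ → R} (D : ESData R J M p T ε) {κ : Type} [Field κ] [IsAlgClosed κ] [CharP κ p]
    (θ : R →+* κ) :
    ∃ ρ : ResidualGaloisRep κ,
      (∀ ℓ : ℕ, ℓ.Prime → ¬ ℓ ∣ M * p → ∀ A : ValuationSubring ℚbar, A.LiesOverPrime ℓ →
        ∀ σ : Γℚ, A.IsFrobeniusAt σ ℓ →
          LinearMap.charpoly (ρ.ρ σ) = X ^ 2 - C (θ (T ℓ)) * X + C ((ℓ : κ) * θ (ε ℓ))) ∧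
      ∀ ℓ : ℕ, ℓ.Prime → ¬ ℓ ∣ M * p → ρ.IsUnramifiedAt ℓ := by
  have hp : p.Prime := Fact.out
  -- `θ` extends to a character `Φ` of `ℤ_p ⊗ R`, whose kernel is maximal
  let zmap : ℤ_[p] →+* κ := (ZMod.castHom dvd_rfl κ).comp PadicInt.toZMod
  let Φ : PComp p R →+* κ := pCompLift zmap θ
  have hpΦ : (p : PComp p R) ∈ RingHom.ker Φ := by
    rw [RingHom.mem_ker, map_natCast, CharP.cast_eq_zero]
  set Mx : Ideal (PComp p R) := RingHom.ker Φ with hMx
  have : Mx.IsPrime := RingHom.ker_isPrime Φ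
  have : Algebra.IsIntegral ℤ_[p] (PComp p R) := Algebra.IsIntegral.of_finite _ _
  have hMmax : Mx.IsMaximal := by
    refine Ideal.isMaximal_of_isIntegral_of_isMaximal_comap (R := ℤ_[p]) Mx ?_
    have hle : IsLocalRing.maximalIdeal ℤ_[p] ≤ Mx.comap (algebraMap ℤ_[p] (PComp p R)) := by
      rw [PadicInt.maximalIdeal_eq_span_p, Ideal.span_le, Set.singleton_subset_iff, SetLike.mem_coe,
        Ideal.mem_comap, map_natCast]
      exact hpΦ
    rw [← (IsLocalRing.maximalIdeal.isMaximal ℤ_[p]).eq_of_le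
      (Ideal.comap_ne_top _ (Ideal.IsPrime.ne_top inferInstance)) hle]
    exact IsLocalRing.maximalIdeal.isMaximal ℤ_[p]
  -- a minimal prime below the kernel gives a point in a finite extension of `ℤ_p`
  obtain ⟨P, hPmin, hPle⟩ := Ideal.exists_minimalPrimes_le (J := Mx) (I := ⊥) bot_le
  have hPprime : P.IsPrime := hPmin.1.1
  have hpP : (p : PComp p R) ∉ P := fun h =>
    Set.disjoint_left.mp (Ideal.disjoint_nonZeroDivisors_of_mem_minimalPrimes hPmin) h
      (by
        rw [SetLike.mem_coe, mem_nonZeroDivisors_iff_right]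
        intro y hy
        exact eq_zero_of_natCast_mul_eq_zero hp.ne_zero (by rwa [mul_comm] at hy))
  let DB := PComp p R ⧸ P
  have hinjDB : Function.Injective (algebraMap ℤ_[p] DB) := by
    rw [injective_iff_map_eq_zero]
    intro x hx
    by_contra hx0
    rw [PadicInt.unitCoeff_spec hx0, map_mul, map_pow, map_natCast, mul_eq_zero] at hx
    rcases hx with hx | hx
    · exact ((PadicInt.unitCoeff hx0).isUnit.map (algebraMap ℤ_[p] DB)).ne_zero hx
    · exact hpP (Ideal.Quotient.eq_zero_iff_mem.mp (by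
        rw [map_natCast]; exact eq_zero_of_pow_eq_zero hx))
  have : FaithfulSMul ℤ_[p] DB := (faithfulSMul_iff_algebraMap_injective _ _).mpr hinjDB
  have : Module.Finite ℤ_[p] DB :=
    Module.Finite.of_surjective (Ideal.Quotient.mkₐ ℤ_[p] P).toLinearMap
      Ideal.Quotient.mk_surjective
  have : Algebra.IsIntegral ℤ_[p] DB := Algebra.IsIntegral.of_finite _ _
  have : Algebra.IsAlgebraic ℤ_[p] DB := Algebra.IsIntegral.isAlgebraic
  have : FaithfulSMul ℤ_[p] (AlgebraicClosure (FractionRing ℤ_[p])) :=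
    (faithfulSMul_iff_algebraMap_injective _ _).mpr (by
      rw [IsScalarTower.algebraMap_eq ℤ_[p] (FractionRing ℤ_[p])]
      exact (algebraMap (FractionRing ℤ_[p]) _).injective.comp (IsFractionRing.injective _ _))
  have : Finite (IsLocalRing.ResidueField ℤ_[p]) :=
    Finite.of_equiv _ (PadicInt.residueField (p := p)).toEquiv.symm
  obtain ⟨⟨O, hinjO⟩, f, j, hj, -⟩ :=
    exists_dvr_of_algHom DB (IsAlgClosed.lift : DB →ₐ[ℤ_[p]] AlgebraicClosure (FractionRing ℤ_[p]))
  let F : PComp p R →+* O := f.toRingHom.comp (Ideal.Quotient.mk P)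
  have hpO : (p : O) ∈ IsLocalRing.maximalIdeal O := by
    rw [← map_natCast (algebraMap ℤ_[p] O)]
    exact map_nonunit (algebraMap ℤ_[p] O) _ (by simp [PadicInt.maximalIdeal_eq_span_p])
  -- the maximal ideal of `O` pulls back to the kernel of `Φ`
  have : IsLocalRing DB := isLocalRing_of_finite_domain (O := ℤ_[p]) DB
  have hker : (IsLocalRing.maximalIdeal O).comap F = Mx := by
    have hfint : f.toRingHom.IsIntegral := fun y => by
      obtain ⟨q, hq, hq0⟩ := (Algebra.IsIntegral.of_finite ℤ_[p] O).isIntegral y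
      exact ⟨q.map (algebraMap ℤ_[p] DB), hq.map _, by
        rw [Polynomial.eval₂_map, f.toRingHom_eq_coe, f.comp_algebraMap]; exact hq0⟩
    have h1 : ((IsLocalRing.maximalIdeal O).comap f.toRingHom).IsMaximal :=
      Ideal.isMaximal_comap_of_isIntegral_of_isMaximal' f.toRingHom hfint _
    have hcm : (Mx.map (Ideal.Quotient.mk P)).comap (Ideal.Quotient.mk P) = Mx := by
      rw [Ideal.comap_map_of_surjective' _ Ideal.Quotient.mk_surjective, Ideal.mk_ker]
      exact sup_eq_left.mpr hPle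
    have h2 : (Mx.map (Ideal.Quotient.mk P)).IsMaximal :=
      (Ideal.map_eq_top_or_isMaximal_of_surjective _ Ideal.Quotient.mk_surjective
        hMmax).resolve_left
        fun h => Ideal.IsPrime.ne_top (I := Mx) inferInstance (by
          rw [← hcm, h, Ideal.comap_top])
    rw [show (IsLocalRing.maximalIdeal O).comap F =
      ((IsLocalRing.maximalIdeal O).comap f.toRingHom).comap (Ideal.Quotient.mk P) from
        (Ideal.comap_comap _ _).symm, IsLocalRing.eq_maximalIdeal h1,
      ← IsLocalRing.eq_maximalIdeal h2, hcm]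
  -- embedding of the residue field
  let : Field (PComp p R ⧸ Mx) := Ideal.Quotient.field Mx
  let a : PComp p R ⧸ Mx →+* IsLocalRing.ResidueField O :=
    Ideal.Quotient.lift Mx ((IsLocalRing.residue O).comp F) fun x hx => by
      rw [← hker] at hx
      exact (IsLocalRing.residue_eq_zero_iff _).mpr hx
  let c : PComp p R ⧸ Mx →+* κ := RingHom.kerLift Φ
  let := a.toAlgebra
  let := c.toAlgebra
  have : Module.Finite (PComp p R ⧸ Mx) (IsLocalRing.ResidueField O) := Module.Finite.of_finite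
  have : Algebra.IsAlgebraic (PComp p R ⧸ Mx) (IsLocalRing.ResidueField O) :=
    Algebra.IsAlgebraic.of_finite _ _
  let i : IsLocalRing.ResidueField O →ₐ[PComp p R ⧸ Mx] κ := IsAlgClosed.lift
  -- reduce the representation at this point, and move it into `κ`
  obtain ⟨ρ, hcp, hur⟩ := D.exists_galoisRepAdic hpO (F.comp (toPComp p R))
  have hi : ∀ x : R, i (IsLocalRing.residue O (F (toPComp p R x))) = θ x := fun x =>
    (i.commutes (Ideal.Quotient.mk Mx (toPComp p R x))).trans (pCompLift_toPComp zmap θ x)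
  refine ⟨ρ.residual.baseChangeAlong i.toRingHom, fun ℓ hℓ hℓp A hA σ hσ => ?_,
    fun ℓ hℓ hℓp A hA σ hσ => ?_⟩
  · rw [charpoly_residual_baseChange, hcp ℓ hℓ hℓp A hA σ hσ]
    simp only [Polynomial.map_add, Polynomial.map_sub, Polynomial.map_mul, Polynomial.map_pow,
      Polynomial.map_X, Polynomial.map_C, RingHom.comp_apply, AlgHom.toRingHom_eq_coe,
      RingHom.coe_coe, map_mul, map_natCast, Polynomial.map_natCast, hi]
  · let : Algebra (IsLocalRing.ResidueField O) κ := i.toRingHom.toAlgebra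
    change ((ρ.ρ σ).baseChange (IsLocalRing.ResidueField O)).baseChange κ = 1
    rw [hur ℓ hℓ hℓp A hA σ hσ, LinearMap.baseChange_one, LinearMap.baseChange_one]

/-- The conclusion of S29 from the Eichler-Shimura input. -/
theorem residualGaloisRep_of_eigenform {N : ℕ} [NeZero N]
    {g : CuspForm (CongruenceSubgroup.Gamma0 N) 2} (hg : g.IsNormalizedEigenform)
    {p : ℕ} [Fact p.Prime] (D : ESInput N p) {k : Type} [Field k] [CharP k p]
    (φ : integralClosure ℤ ℂ →+* k) :
    ∃ ρ : ResidualGaloisRep k, ρ.IsAttachedTo g φ ∧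
      ∀ ℓ : ℕ, ℓ.Prime → ¬ ℓ ∣ N * p → ρ.IsUnramifiedAt ℓ := by
  have hp : p.Prime := Fact.out
  have := isMaximal_ker_of_charP hp φ
  let : Field (integralClosure ℤ ℂ ⧸ RingHom.ker φ) := Ideal.Quotient.field _
  have := isAlgClosed_quotient_integralClosure (RingHom.ker φ)
  let φ' : integralClosure ℤ ℂ ⧸ RingHom.ker φ →+* k := RingHom.kerLift φ
  have : CharP (integralClosure ℤ ℂ ⧸ RingHom.ker φ) p :=
    (RingHom.charP_iff φ' φ'.injective p).mpr inferInstance
  obtain ⟨ρ, hcp, hur⟩ := D.toData.exists_residualGaloisRep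
    ((Ideal.Quotient.mk (RingHom.ker φ)).comp (eigenCharInt hg))
  refine ⟨ρ.baseChangeAlong φ', fun ℓ hℓ hℓN hℓk A hA σ hσ => ?_, fun ℓ hℓ hℓp A hA σ hσ => ?_⟩
  · have hℓp : ¬ ℓ ∣ N * p := fun h => (hℓ.dvd_mul.mp h).elim hℓN fun h' =>
      hℓk (by rw [(Nat.prime_dvd_prime_iff_eq hℓ hp).mp h', CharP.cast_eq_zero])
    refine ⟨eigenCharInt hg (CuspForm.heckeAlgebra.T hℓ hℓN (Set.notMem_empty ℓ)),
      coe_eigenCharInt_T hg hℓ hℓN, ?_⟩
    let : Algebra (integralClosure ℤ ℂ ⧸ RingHom.ker φ) k := φ'.toAlgebra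
    change LinearMap.charpoly ((ρ.ρ σ).baseChange k) = _
    rw [LinearMap.charpoly_baseChange, hcp ℓ hℓ hℓp A hA σ hσ, heckeT0_eq hℓ hℓN, map_one, mul_one]
    simp [RingHom.algebraMap_toAlgebra, φ']
  · let : Algebra (integralClosure ℤ ℂ ⧸ RingHom.ker φ) k := φ'.toAlgebra
    change (ρ.ρ σ).baseChange k = 1
    rw [hur ℓ hℓ hℓp A hA σ hσ, LinearMap.baseChange_one]

/-- The trivial representation, which serves the degenerate level zero. -/
theorem exists_trivialResidualRep (k : Type) [Field k] :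
    ∃ ρ : ResidualGaloisRep k, ∀ σ : Γℚ, ρ.ρ σ = 1 :=
  ⟨{ V := Fin 2 → k
     finrank_eq := Module.finrank_fin_fun k
     ρ := 1
     factorsThroughFiniteLevel := ⟨⊥, inferInstance, fun _ _ => rfl⟩ }, fun _ => rfl⟩

end Fermat.GR
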