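import Fermat.Agent.GR.ES.PointRep
import Fermat.Agent.GR.ES.Residual
import Fermat.Agent.GR.ES.Attach
import Fermat.Agent.GR.ES.Determined

/-!
# S29, S30, S31, S42 from the Eichler-Shimura input

Each statement from `HasESInput`: representations at points (`PointRep`), residual ones
(`Residual`, `Attach`) and ramification (`Determined`). `HasInput` discharges the hypothesis.
-/

set_option autoImplicit false

noncomputable section

open Polynomial

namespace Fermat.GR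

/-- The Eichler-Shimura input is available at all levels and all primes. -/
def HasESInput : Prop :=
  ∀ (N p : ℕ) [NeZero N] [Fact p.Prime], Nonempty (ESInput N p)

/-- S29 (residual representations of eigenforms) from the input. -/
theorem exists_residualGaloisRep_of_input (h : HasESInput) {N : ℕ}
    {g : CuspForm (CongruenceSubgroup.Gamma0 N) 2} (hg : g.IsNormalizedEigenform)
    {p : ℕ} (hp : p.Prime) {k : Type} [Field k] [CharP k p]
    (φ : integralClosure ℤ ℂ →+* k) :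
    ∃ ρ : ResidualGaloisRep k, ρ.IsAttachedTo g φ ∧
      ∀ ℓ : ℕ, ℓ.Prime → ¬ ℓ ∣ N * p → ρ.IsUnramifiedAt ℓ := by
  have : Fact p.Prime := ⟨hp⟩
  rcases eq_or_ne N 0 with rfl | hN
  · obtain ⟨ρ, -⟩ := exists_trivialResidualRep k
    exact ⟨ρ, fun ℓ _ hℓ => absurd (dvd_zero ℓ) hℓ,
      fun ℓ _ hℓ => absurd (by simp) hℓ⟩
  · have : NeZero N := ⟨hN⟩
    exact residualGaloisRep_of_eigenform hg (h N p).some φ

/-- S30 (representations at points of Hecke algebras) from the input. -/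
theorem exists_galoisRep_of_input (h : HasESInput) :
    ∀ (p : ℕ) [Fact p.Prime] (N : ℕ) [NeZero N] (S : Finset ℕ)
      (_hpS : p ∈ S) (_hNS : ∀ q : ℕ, q.Prime → q ∣ N → q ∈ S)
      (𝒪' : Type) [CommRing 𝒪'] [IsDomain 𝒪'] [IsDiscreteValuationRing 𝒪']
      [IsAdicComplete (IsLocalRing.maximalIdeal 𝒪') 𝒪'] [Finite (IsLocalRing.ResidueField 𝒪')]
      [CharZero 𝒪'] (_hp𝒪' : (p : 𝒪') ∈ IsLocalRing.maximalIdeal 𝒪')
      (χ : CuspForm.heckeAlgebra N 2 (↑S : Set ℕ) →+* 𝒪'),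
      ∃ (𝒪'' : Type) (_ : CommRing 𝒪'') (_ : IsDomain 𝒪'') (_ : IsDiscreteValuationRing 𝒪'')
        (_ : IsAdicComplete (IsLocalRing.maximalIdeal 𝒪'') 𝒪'')
        (_ : Finite (IsLocalRing.ResidueField 𝒪'')) (_ : CharZero 𝒪'')
        (_ : Algebra 𝒪' 𝒪'') (_ : Module.Finite 𝒪' 𝒪'') (_ : IsLocalHom (algebraMap 𝒪' 𝒪'')),
      Function.Injective (algebraMap 𝒪' 𝒪'') ∧
      ∃ ρ : GaloisRepAdic 𝒪'',
        (∀ (ℓ : ℕ) (hℓ : ℓ.Prime) (hℓN : ¬ ℓ ∣ N) (hℓS : ℓ ∉ (↑S : Set ℕ)),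
          ∀ A : ValuationSubring (AlgebraicClosure ℚ), A.LiesOverPrime ℓ →
            ∀ σ : AlgebraicClosure ℚ ≃ₐ[ℚ] AlgebraicClosure ℚ, A.IsFrobeniusAt σ ℓ →
              LinearMap.charpoly (ρ.ρ σ) =
                X ^ 2 - C (algebraMap 𝒪' 𝒪'' (χ (CuspForm.heckeAlgebra.T hℓ hℓN hℓS))) * X
                  + C ((ℓ : 𝒪''))) ∧
        (∀ q : ℕ, q.Prime → ¬ q ∣ N → q ≠ p → ρ.IsUnramifiedAt q) :=
  fun p _ N _ S hpS _ 𝒪' _ _ _ _ _ _ hp χ =>
    galoisRep_of_point p N S (h N p).some hpS 𝒪' hp χ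

/-- S31 (Hecke representations are unramified at good primes) from the input. -/
theorem isUnramifiedAt_of_input (h : HasESInput) {p : ℕ} {N : ℕ} [NeZero N] {S : Finset ℕ}
    {𝒪 : Type} [CommRing 𝒪] [IsDomain 𝒪] [IsDiscreteValuationRing 𝒪]
    [IsAdicComplete (IsLocalRing.maximalIdeal 𝒪) 𝒪]
    {θ : CuspForm.heckeAlgebra N 2 (↑S : Set ℕ) →+* IsLocalRing.ResidueField 𝒪}
    {T : Type} [CommRing T] [IsLocalRing T] [IsNoetherianRing T]
    [IsAdicComplete (IsLocalRing.maximalIdeal T) T] [Algebra 𝒪 T] [IsLocalHom (algebraMap 𝒪 T)]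
    [Module.Finite 𝒪 T] [Module.Free 𝒪 T] (hp : p.Prime)
    (hp𝒪 : (p : 𝒪) ∈ IsLocalRing.maximalIdeal 𝒪) (hpS : p ∈ S)
    (hNS : ∀ q : ℕ, q.Prime → q ∣ N → q ∈ S)
    (H : CuspForm.HeckeGaloisRepDatum N (↑S : Set ℕ) 𝒪 θ T)
    (q : ℕ) (hq : q.Prime) (hqS : q ∉ S) :
    H.ρ.IsUnramifiedAt q :=
  haveI : Fact p.Prime := ⟨hp⟩
  isUnramifiedAt_of_esInput (h N p).some hp𝒪 hpS hNS H q hq hqS

/-- S42 (residual attachment for Frey packages) from the input. -/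
theorem eigenformResidualAttachmentAt_of_input (h : HasESInput) (P : FreyPackage) :
    ∀ M : ℕ, 0 < M → P.EigenformResidualAttachmentAt M := fun M _ =>
  eigenformResidualAttachmentAt_of P M fun _ hg _ _ _ φ =>
    (exists_residualGaloisRep_of_input h hg P.pp φ).imp fun _ hρ => hρ.1

end Fermat.GR
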